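/-
helper71, P-SS block [F]-abstract: the REGULAR POINT LEMMA (Mathlib only).

`R` a noetherian local domain whose maximal ideal is `(p, u)` with `(p)` prime, `p ≠ 0`,
`u ∉ (p)` (in the application: `R = (R_fin)_y` the local ring of the normal model at a point `y`
of the special fibre lying on exactly ONE component, `p = π₀` a uniformiser of the base DVR,
`u` the lift of a uniformiser of the component at `y`).  Then for every `c : R`
(in the application `c` a constant, so that `a = p * c` runs through `π₀ A₀`):

* `(u - p * c)` is a prime ideal;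
* `p` is not nilpotent modulo `(u - p * c)`, and `R / (u - p * c)` is a discrete valuation ring
  whose maximal ideal is generated by `p`;
* every prime ideal containing `u - p * c` and not containing `p` is equal to `(u - p * c)`.

Consequently `u` is injective on the rational places centred at `y`, with simple zeros of
`u - a` : the place with `u(P) = a` is the prime `(u - a)`.
-/
import Mathlib

set_option linter.unusedSectionVars false
set_option linter.style.haveILetI false
set_option linter.deprecated false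

namespace Fermat.Agent.H71.SS

open IsLocalRing

section PrincipalMax

variable {S : Type*} [CommRing S] [IsLocalRing S] [IsNoetherianRing S]

/-- In a noetherian local ring with principal maximal ideal `(ϖ)`, every nonzero element is a
unit times a power of `ϖ`. -/
theorem exists_eq_pow_mul_unit_of_maximalIdeal_eq_span {ϖ : S}
    (hm : maximalIdeal S = Ideal.span {ϖ}) {x : S} (hx : x ≠ 0) :
    ∃ (n : ℕ) (v : S), IsUnit v ∧ x = ϖ ^ n * v := by
  classical
  have hK : ⨅ i : ℕ, maximalIdeal S ^ i = ⊥ :=
    Ideal.iInf_pow_eq_bot_of_isLocalRing (maximalIdeal S) Ideal.IsPrime.ne_top'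
  have hex : ∃ n : ℕ, x ∉ maximalIdeal S ^ n := by
    by_contra hcon
    push_neg at hcon
    have : x ∈ ⨅ i : ℕ, maximalIdeal S ^ i := by
      rw [Ideal.mem_iInf]; exact hcon
    rw [hK] at this
    exact hx this
  have hn := Nat.find_spec hex
  have hpos : Nat.find hex ≠ 0 := by
    intro h0
    rw [h0, pow_zero, Ideal.one_eq_top] at hn
    exact hn Submodule.mem_top
  obtain ⟨n, hnn⟩ := Nat.exists_eq_succ_of_ne_zero hpos
  have hmem : x ∈ maximalIdeal S ^ n := by
    by_contra hcon
    have := Nat.find_min' hex hcon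
    omega
  rw [hm, Ideal.span_singleton_pow, Ideal.mem_span_singleton'] at hmem
  obtain ⟨v, hv⟩ := hmem
  refine ⟨n, v, ?_, by rw [← hv, mul_comm]⟩
  by_contra hvu
  have hvm : v ∈ maximalIdeal S := (IsLocalRing.mem_maximalIdeal v).2 hvu
  rw [hm, Ideal.mem_span_singleton'] at hvm
  obtain ⟨v', hv'⟩ := hvm
  apply hn
  rw [hnn, hm, Ideal.span_singleton_pow, Ideal.mem_span_singleton']
  refine ⟨v', ?_⟩
  rw [← hv, ← hv', pow_succ]
  ring

/-- A noetherian local ring whose maximal ideal is generated by a non-nilpotent element has no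
zero divisors. -/
theorem noZeroDivisors_of_maximalIdeal_eq_span {ϖ : S}
    (hm : maximalIdeal S = Ideal.span {ϖ}) (hnil : ¬ IsNilpotent ϖ) : NoZeroDivisors S := by
  refine ⟨fun {x y} hxy => ?_⟩
  by_contra hcon
  push_neg at hcon
  obtain ⟨n, v, hv, rfl⟩ := exists_eq_pow_mul_unit_of_maximalIdeal_eq_span hm hcon.1
  obtain ⟨k, w, hw, rfl⟩ := exists_eq_pow_mul_unit_of_maximalIdeal_eq_span hm hcon.2
  apply hnil
  refine ⟨n + k, ?_⟩
  have h1 : ϖ ^ (n + k) * (v * w) = 0 := by
    rw [← hxy, pow_add]; ring
  exact (hv.mul hw).mul_left_eq_zero.1 h1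

/-- A noetherian local ring whose maximal ideal is generated by a non-nilpotent element is a
domain. -/
theorem isDomain_of_maximalIdeal_eq_span {ϖ : S}
    (hm : maximalIdeal S = Ideal.span {ϖ}) (hnil : ¬ IsNilpotent ϖ) : IsDomain S := by
  haveI := noZeroDivisors_of_maximalIdeal_eq_span hm hnil
  exact NoZeroDivisors.to_isDomain S

/-- A noetherian local domain with principal nonzero maximal ideal is a DVR. -/
theorem isDVR_of_maximalIdeal_eq_span [IsDomain S] {ϖ : S}
    (hm : maximalIdeal S = Ideal.span {ϖ}) (h0 : ϖ ≠ 0) : IsDiscreteValuationRing S := by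
  have hnf : ¬ IsField S := by
    rw [IsLocalRing.isField_iff_maximalIdeal_eq, hm]
    intro h
    exact h0 (Ideal.span_singleton_eq_bot.1 h)
  have hprinc : (maximalIdeal S).IsPrincipal := ⟨⟨ϖ, hm⟩⟩
  exact ((IsDiscreteValuationRing.TFAE S hnf).out 0 4).2 hprinc

end PrincipalMax

section RegPoint

variable {R : Type*} [CommRing R] [IsDomain R] [IsLocalRing R] [IsNoetherianRing R]

/-- `p` is not nilpotent modulo `(u - p c)`. -/
theorem regPoint_pow_not_mem {p u : R}
    (hprime : (Ideal.span {p}).IsPrime) (hp : p ≠ 0) (hu : u ∉ Ideal.span {p})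
    (hun : u ∈ maximalIdeal R) (hpn : p ∈ maximalIdeal R) (c : R) (n : ℕ) :
    p ^ n ∉ Ideal.span {u - p * c} := by
  induction n with
  | zero =>
    intro h
    rw [pow_zero, ← Ideal.eq_top_iff_one, Ideal.span_singleton_eq_top] at h
    have ht : u - p * c ∈ maximalIdeal R :=
      (maximalIdeal R).sub_mem hun ((maximalIdeal R).mul_mem_right c hpn)
    exact (IsLocalRing.mem_maximalIdeal _).1 ht h
  | succ n ih =>
    intro h
    rw [Ideal.mem_span_singleton'] at h
    obtain ⟨r, hr⟩ := h
    have hmem : r * (u - p * c) ∈ Ideal.span {p} := by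
      rw [hr, pow_succ]
      exact Ideal.mul_mem_left _ _ (Ideal.mem_span_singleton_self p)
    rcases hprime.mem_or_mem hmem with h1 | h1
    · rw [Ideal.mem_span_singleton'] at h1
      obtain ⟨r₁, hr₁⟩ := h1
      apply ih
      rw [Ideal.mem_span_singleton']
      refine ⟨r₁, ?_⟩
      have : p * (r₁ * (u - p * c)) = p * p ^ n := by
        rw [← mul_assoc, mul_comm p r₁, hr₁, hr, pow_succ]; ring
      exact mul_left_cancel₀ hp this
    · apply hu
      have : u = (u - p * c) + p * c := by ring
      rw [this]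
      exact (Ideal.span {p}).add_mem h1
        (Ideal.mul_mem_right c _ (Ideal.mem_span_singleton_self p))

variable {p u : R} (hmax : maximalIdeal R = Ideal.span {p, u})
  (hprime : (Ideal.span {p}).IsPrime) (hp : p ≠ 0) (hu : u ∉ Ideal.span {p}) (c : R)

include hmax in
theorem regPoint_p_mem : p ∈ maximalIdeal R := by
  rw [hmax]; exact Ideal.subset_span (by simp)

include hmax in
theorem regPoint_u_mem : u ∈ maximalIdeal R := by
  rw [hmax]; exact Ideal.subset_span (by simp)

include hmax in
theorem regPoint_span_ne_top : Ideal.span {u - p * c} ≠ ⊤ := by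
  intro h
  rw [Ideal.span_singleton_eq_top] at h
  have ht : u - p * c ∈ maximalIdeal R :=
    (maximalIdeal R).sub_mem (regPoint_u_mem hmax)
      ((maximalIdeal R).mul_mem_right c (regPoint_p_mem hmax))
  exact (IsLocalRing.mem_maximalIdeal _).1 ht h

include hmax in
/-- The maximal ideal of `R / (u - p c)` is generated by the image of `p`. -/
theorem regPoint_maximalIdeal_quotient
    [IsLocalRing (R ⧸ Ideal.span {u - p * c})] :
    maximalIdeal (R ⧸ Ideal.span {u - p * c}) =
      Ideal.span {Ideal.Quotient.mk (Ideal.span {u - p * c}) p} := by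
  set I := Ideal.span {u - p * c}
  have hsurj : Function.Surjective (Ideal.Quotient.mk I) := Ideal.Quotient.mk_surjective
  have h1 : maximalIdeal (R ⧸ I) = (maximalIdeal R).map (Ideal.Quotient.mk I) := by
    apply le_antisymm
    · intro x hx
      obtain ⟨y, rfl⟩ := hsurj x
      have hy : y ∈ maximalIdeal R := by
        rw [IsLocalRing.mem_maximalIdeal] at hx ⊢
        intro hyu
        exact hx (hyu.map (Ideal.Quotient.mk I))
      exact Ideal.mem_map_of_mem _ hy
    · rw [Ideal.map_le_iff_le_comap]
      intro y hy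
      rw [Ideal.mem_comap, IsLocalRing.mem_maximalIdeal]
      intro hyu
      -- `y` is a unit modulo `I ≤ m`, hence a unit
      obtain ⟨z, hz⟩ := hyu.exists_right_inv
      obtain ⟨w, rfl⟩ := hsurj z
      rw [← map_mul, ← map_one (Ideal.Quotient.mk I), Ideal.Quotient.eq] at hz
      have hIm : I ≤ maximalIdeal R := IsLocalRing.le_maximalIdeal (regPoint_span_ne_top hmax c)
      have h1m : (1 : R) ∈ maximalIdeal R := by
        have : (1 : R) = y * w - (y * w - 1) := by ring
        rw [this]
        exact (maximalIdeal R).sub_mem ((maximalIdeal R).mul_mem_right w hy) (hIm hz)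
      exact (IsLocalRing.mem_maximalIdeal _).1 h1m isUnit_one
  rw [h1, hmax, Ideal.map_span]
  apply le_antisymm
  · rw [Ideal.span_le]
    rintro x ⟨y, hy, rfl⟩
    rcases hy with rfl | rfl
    · exact Ideal.subset_span rfl
    · -- `u ≡ p c` modulo `I`
      have : Ideal.Quotient.mk I y = Ideal.Quotient.mk I p * Ideal.Quotient.mk I c := by
        rw [← map_mul, Ideal.Quotient.eq]
        exact Ideal.mem_span_singleton_self _
      rw [SetLike.mem_coe, this]
      exact Ideal.mul_mem_right _ _ (Ideal.subset_span rfl)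
  · apply Ideal.span_mono
    rintro x rfl
    exact ⟨p, by simp, rfl⟩

include hmax hprime hp hu in
/-- **Regular point lemma, primality.**  `(u - p c)` is a prime ideal. -/
theorem regPoint_isPrime : (Ideal.span {u - p * c}).IsPrime := by
  set I := Ideal.span {u - p * c} with hI
  have hne : I ≠ ⊤ := regPoint_span_ne_top hmax c
  haveI : Nontrivial (R ⧸ I) := Ideal.Quotient.nontrivial_iff.2 hne
  haveI : IsLocalRing (R ⧸ I) :=
    IsLocalRing.of_surjective' (Ideal.Quotient.mk I) Ideal.Quotient.mk_surjective
  have hm := regPoint_maximalIdeal_quotient hmax c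
  have hnil : ¬ IsNilpotent (Ideal.Quotient.mk I p) := by
    rintro ⟨n, hn⟩
    rw [← map_pow, Ideal.Quotient.eq_zero_iff_mem] at hn
    exact regPoint_pow_not_mem hprime hp hu (regPoint_u_mem hmax) (regPoint_p_mem hmax) c n hn
  have hdom : IsDomain (R ⧸ I) := isDomain_of_maximalIdeal_eq_span hm hnil
  exact (Ideal.Quotient.isDomain_iff_prime I).1 hdom

include hmax hprime hp hu in
/-- **Regular point lemma, uniqueness.**  A prime ideal containing `u - p c` but not `p` is
`(u - p c)`. -/
theorem regPoint_eq_of_isPrime {P : Ideal R} (hP : P.IsPrime) (ht : u - p * c ∈ P)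
    (hpP : p ∉ P) : P = Ideal.span {u - p * c} := by
  set I := Ideal.span {u - p * c} with hI
  have hIP : I ≤ P := by
    rw [hI, Ideal.span_le]
    rintro x rfl
    exact ht
  refine le_antisymm ?_ hIP
  have hne : I ≠ ⊤ := regPoint_span_ne_top hmax c
  haveI : Nontrivial (R ⧸ I) := Ideal.Quotient.nontrivial_iff.2 hne
  haveI : IsLocalRing (R ⧸ I) :=
    IsLocalRing.of_surjective' (Ideal.Quotient.mk I) Ideal.Quotient.mk_surjective
  have hm := regPoint_maximalIdeal_quotient hmax c
  intro x hx
  by_contra hxI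
  have hx0 : Ideal.Quotient.mk I x ≠ 0 := by
    rwa [Ne, Ideal.Quotient.eq_zero_iff_mem]
  obtain ⟨n, v, hv, hxv⟩ := exists_eq_pow_mul_unit_of_maximalIdeal_eq_span hm hx0
  obtain ⟨w, rfl⟩ := Ideal.Quotient.mk_surjective v
  -- `w` is a unit of `R`
  have hwu : IsUnit w := by
    by_contra hwn
    have hwm : w ∈ maximalIdeal R := (IsLocalRing.mem_maximalIdeal w).2 hwn
    have : Ideal.Quotient.mk I w ∈ maximalIdeal (R ⧸ I) := by
      rw [IsLocalRing.mem_maximalIdeal]
      intro hu'
      obtain ⟨z, hz⟩ := hu'.exists_right_inv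
      obtain ⟨z', rfl⟩ := Ideal.Quotient.mk_surjective z
      rw [← map_mul, ← map_one (Ideal.Quotient.mk I), Ideal.Quotient.eq] at hz
      have hIm : I ≤ maximalIdeal R := IsLocalRing.le_maximalIdeal hne
      have h1m : (1 : R) ∈ maximalIdeal R := by
        have : (1 : R) = w * z' - (w * z' - 1) := by ring
        rw [this]
        exact (maximalIdeal R).sub_mem ((maximalIdeal R).mul_mem_right z' hwm) (hIm hz)
      exact (IsLocalRing.mem_maximalIdeal _).1 h1m isUnit_one
    exact (IsLocalRing.mem_maximalIdeal _).1 this hv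
  rw [← map_pow, ← map_mul, Ideal.Quotient.eq] at hxv
  have h2 : p ^ n * w ∈ P := by
    have : p ^ n * w = x - (x - p ^ n * w) := by ring
    rw [this]
    exact P.sub_mem hx (hIP hxv)
  rcases hP.mem_or_mem h2 with h3 | h3
  · exact hpP (hP.mem_of_pow_mem n h3)
  · exact hP.ne_top (Ideal.eq_top_of_isUnit_mem _ h3 hwu)

include hmax hprime hp hu in
/-- **Regular point lemma, the quotient is a DVR** with uniformiser (the image of) `p`. -/
theorem regPoint_quotient_isDVR :
    @IsDiscreteValuationRing (R ⧸ Ideal.span {u - p * c}) _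
      (by haveI := regPoint_isPrime hmax hprime hp hu c; exact Ideal.Quotient.isDomain _) := by
  set I := Ideal.span {u - p * c} with hI
  haveI hIp : I.IsPrime := regPoint_isPrime hmax hprime hp hu c
  have hne : I ≠ ⊤ := regPoint_span_ne_top hmax c
  haveI : IsLocalRing (R ⧸ I) :=
    IsLocalRing.of_surjective' (Ideal.Quotient.mk I) Ideal.Quotient.mk_surjective
  have hm := regPoint_maximalIdeal_quotient hmax c
  refine isDVR_of_maximalIdeal_eq_span hm ?_
  intro h0
  rw [Ideal.Quotient.eq_zero_iff_mem] at h0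
  have := regPoint_pow_not_mem hprime hp hu (regPoint_u_mem hmax) (regPoint_p_mem hmax) c 1
  rw [pow_one] at this
  exact this h0

include hmax hprime hp hu in
/-- **Regular point lemma, kernel form.**  If `φ : R → A` is a ring homomorphism to a domain
with `φ p ≠ 0` and `φ u = φ p * φ c`, then `ker φ = (u - p c)`. -/
theorem regPoint_ker_eq {A : Type*} [CommRing A] [IsDomain A] (φ : R →+* A)
    (hφp : φ p ≠ 0) (hφu : φ u = φ p * φ c) :
    RingHom.ker φ = Ideal.span {u - p * c} := by
  refine regPoint_eq_of_isPrime hmax hprime hp hu c (RingHom.ker_isPrime φ) ?_ ?_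
  · rw [RingHom.mem_ker, map_sub, map_mul, hφu, sub_self]
  · rwa [RingHom.mem_ker]

include hmax hprime hp hu in
/-- **Injectivity of the coordinate.**  Two ring homomorphisms `φ ψ : R → A` to a domain
(two "rational places centred at the point"), nonzero at `p`, which agree on `p`, on a lift `c`
and on `u = p c` have the same kernel. -/
theorem regPoint_ker_eq_ker {A : Type*} [CommRing A] [IsDomain A] (φ ψ : R →+* A)
    (hφp : φ p ≠ 0) (hψp : ψ p ≠ 0)
    (hφu : φ u = φ p * φ c) (hψu : ψ u = ψ p * ψ c) :
    RingHom.ker φ = RingHom.ker ψ := by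
  rw [regPoint_ker_eq hmax hprime hp hu c φ hφp hφu,
    regPoint_ker_eq hmax hprime hp hu c ψ hψp hψu]

end RegPoint

section OverBase

/-! ### The form over a base DVR `A₀` -/

variable {A₀ : Type*} [CommRing A₀] [IsDomain A₀]
  {R : Type*} [CommRing R] [IsDomain R] [IsLocalRing R] [IsNoetherianRing R] [Algebra A₀ R]

/-- **Regular point lemma over a base.**  `A₀`-algebra sections `φ : R → A₀` ("`A₀`-rational
places centred at the point") are determined by their value on the coordinate `u`, and the
kernel of `φ` is the principal prime `(u - φ(u))`.  Here `π₀ : A₀` with `(π₀) ` prime in `R`,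
maximal ideal of `R` equal to `(π₀, u)`, and every non-unit of `A₀` is divisible by `π₀`. -/
theorem regPoint_section_ker (π₀ : A₀) (u : R)
    (hmax : maximalIdeal R = Ideal.span {algebraMap A₀ R π₀, u})
    (hprime : (Ideal.span {algebraMap A₀ R π₀}).IsPrime)
    (hp : algebraMap A₀ R π₀ ≠ 0) (hu : u ∉ Ideal.span {algebraMap A₀ R π₀})
    (hdiv : ∀ a : A₀, ¬ IsUnit a → π₀ ∣ a)
    (φ : R →ₐ[A₀] A₀) :
    RingHom.ker (φ : R →+* A₀) = Ideal.span {u - algebraMap A₀ R (φ u)} := by
  -- `φ u` is a non-unit
  have hnu : ¬ IsUnit (φ u) := by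
    intro h
    have hum : u ∈ maximalIdeal R := regPoint_u_mem hmax
    -- `u - algebraMap (φ u)` lies in the kernel, which is a proper ideal, hence in `m`
    have hk : u - algebraMap A₀ R (φ u) ∈ RingHom.ker (φ : R →+* A₀) := by
      rw [RingHom.mem_ker]; simp
    have hker_ne : RingHom.ker (φ : R →+* A₀) ≠ ⊤ := RingHom.ker_ne_top _
    have hkm := IsLocalRing.le_maximalIdeal hker_ne hk
    have : algebraMap A₀ R (φ u) ∈ maximalIdeal R := by
      have : algebraMap A₀ R (φ u) = u - (u - algebraMap A₀ R (φ u)) := by ring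
      rw [this]; exact (maximalIdeal R).sub_mem hum hkm
    exact (IsLocalRing.mem_maximalIdeal _).1 this (h.map (algebraMap A₀ R))
  obtain ⟨a', ha'⟩ := hdiv (φ u) hnu
  have hφπ : (φ : R →+* A₀) (algebraMap A₀ R π₀) = π₀ := by simp
  have hπ0 : π₀ ≠ 0 := by
    rintro rfl
    exact hp (map_zero _)
  have key := regPoint_ker_eq hmax hprime hp hu (algebraMap A₀ R a') (φ : R →+* A₀)
    (by rw [hφπ]; exact hπ0)
    (by
      rw [hφπ]
      have : (φ : R →+* A₀) (algebraMap A₀ R a') = a' := by simp
      rw [this]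
      exact ha')
  rw [key, ha', map_mul]

/-- **Injectivity of the coordinate on rational places.** -/
theorem regPoint_section_ext (π₀ : A₀) (u : R)
    (hmax : maximalIdeal R = Ideal.span {algebraMap A₀ R π₀, u})
    (hprime : (Ideal.span {algebraMap A₀ R π₀}).IsPrime)
    (hp : algebraMap A₀ R π₀ ≠ 0) (hu : u ∉ Ideal.span {algebraMap A₀ R π₀})
    (hdiv : ∀ a : A₀, ¬ IsUnit a → π₀ ∣ a)
    (φ ψ : R →ₐ[A₀] A₀) (h : φ u = ψ u) : φ = ψ := by
  have h1 := regPoint_section_ker π₀ u hmax hprime hp hu hdiv φ
  have h2 := regPoint_section_ker π₀ u hmax hprime hp hu hdiv ψ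
  rw [h] at h1
  have hker : RingHom.ker (φ : R →+* A₀) = RingHom.ker (ψ : R →+* A₀) := h1.trans h2.symm
  -- two sections with the same kernel agree: `x - algebraMap (φ x) ∈ ker φ = ker ψ`
  ext x
  have hx : x - algebraMap A₀ R (φ x) ∈ RingHom.ker (φ : R →+* A₀) := by
    rw [RingHom.mem_ker]; simp
  rw [hker, RingHom.mem_ker] at hx
  simp only [AlgHom.coe_toRingHom, map_sub, AlgHom.commutes] at hx
  exact (sub_eq_zero.1 hx).symm

end OverBase

end Fermat.Agent.H71.SS
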