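/-
helper71, P-SS / S35, block FR-3 (abstract, Mathlib only):
MAXIMAL IDEALS ON BOTH COMPONENTS ARE STABLE UNDER `φ²`
(= the supersingular points are `𝔽_{q²}`-rational).

`B` a commutative ring (the chart ring), `𝔪` a maximal ideal, `ψ : B ≃+* B` (`= φ²`, acting on
the coefficients), `Q = q²`.  An element `x` is *Frobenius compatible at `𝔪`* if
`ψ x ≡ x ^ Q` modulo `𝔪`.

* `frobCompat` : the Frobenius compatible elements form a subring when `B ⧸ 𝔪` has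
  characteristic `q` and `Q` is a power of `q`.  It contains: the constants `c` with
  `ψ c ≡ c ^ Q` (Frobenius lift on `A₀`), the `ψ`-fixed elements `s` with `s ^ Q ≡ s`
  (`mem_frobCompat_of_fixed`), and every ideal `𝔮 ⊆ 𝔪` with `ψ 𝔮 ⊆ 𝔪`
  (`mem_frobCompat_of_mem`).
* `pow_sq_sub_self_mem` : KRONECKER TWICE.  If `s ^ q ≡ s'` and `s' ^ q ≡ s` modulo `𝔪`
  (`s' = s(t^q)`: the first congruence holds modulo `𝔮_∞`, the second modulo `𝔮_0 = W 𝔮_∞`, and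
  `𝔪` contains both because it lies on both components), then `s ^ (q²) ≡ s`.
* `map_mem_of_frobCompat` / `comap_eq_of_frobCompat` : if every `z ∈ 𝔪` has a Frobenius
  compatible denominator `b ∉ 𝔪` with `b z` Frobenius compatible, then `ψ 𝔪 = 𝔪`.
* `comap_eq_of_generators` : the same from local generators `s - c` of `𝔪`.
-/
import Mathlib

set_option autoImplicit false
set_option linter.unusedSectionVars false
set_option linter.unusedVariables false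

namespace Fermat.Agent.H71.SS

variable {B : Type*} [CommRing B]

/-- `x` is Frobenius compatible at `𝔪`: `ψ x ≡ x ^ Q` modulo `𝔪`. -/
def IsFrobCompat (𝔪 : Ideal B) (ψ : B →+* B) (Q : ℕ) (x : B) : Prop :=
  ψ x - x ^ Q ∈ 𝔪

theorem IsFrobCompat.mul {𝔪 : Ideal B} {ψ : B →+* B} {Q : ℕ} {x y : B}
    (hx : IsFrobCompat 𝔪 ψ Q x) (hy : IsFrobCompat 𝔪 ψ Q y) :
    IsFrobCompat 𝔪 ψ Q (x * y) := by
  unfold IsFrobCompat at *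
  have e : ψ (x * y) - (x * y) ^ Q = ψ x * (ψ y - y ^ Q) + (ψ x - x ^ Q) * y ^ Q := by
    rw [map_mul, mul_pow]
    ring
  rw [e]
  exact 𝔪.add_mem (𝔪.mul_mem_left _ hy) (𝔪.mul_mem_right _ hx)

theorem isFrobCompat_one {𝔪 : Ideal B} {ψ : B →+* B} {Q : ℕ} : IsFrobCompat 𝔪 ψ Q 1 := by
  unfold IsFrobCompat
  rw [map_one, one_pow, sub_self]
  exact 𝔪.zero_mem

theorem isFrobCompat_zero {𝔪 : Ideal B} {ψ : B →+* B} {Q : ℕ} (hQ : Q ≠ 0) :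
    IsFrobCompat 𝔪 ψ Q 0 := by
  unfold IsFrobCompat
  rw [map_zero, zero_pow hQ, sub_self]
  exact 𝔪.zero_mem

/-- In characteristic `q` modulo `𝔪`, `(x + y) ^ (q ^ k) ≡ x ^ (q ^ k) + y ^ (q ^ k)`. -/
theorem add_pow_sub_mem (𝔪 : Ideal B) (q : ℕ) [hq : Fact q.Prime] [CharP (B ⧸ 𝔪) q] (k : ℕ)
    (x y : B) : (x + y) ^ (q ^ k) - (x ^ (q ^ k) + y ^ (q ^ k)) ∈ 𝔪 := by
  rw [← Ideal.Quotient.eq_zero_iff_mem, map_sub, map_add, map_pow, map_pow, map_pow, map_add,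
    add_pow_char_pow, sub_self]

theorem neg_pow_sub_mem (𝔪 : Ideal B) (q : ℕ) [hq : Fact q.Prime] [CharP (B ⧸ 𝔪) q] (k : ℕ)
    (x : B) : (-x) ^ (q ^ k) - (-(x ^ (q ^ k))) ∈ 𝔪 := by
  have h := add_pow_sub_mem 𝔪 q k x (-x)
  have h0 : q ^ k ≠ 0 := pow_ne_zero _ hq.out.ne_zero
  rw [add_neg_cancel, zero_pow h0] at h
  have e : (-x) ^ (q ^ k) - (-(x ^ (q ^ k))) = -(0 - (x ^ (q ^ k) + (-x) ^ (q ^ k))) := by ring
  rw [e]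
  exact 𝔪.neg_mem h

theorem IsFrobCompat.add {𝔪 : Ideal B} {ψ : B →+* B} {q : ℕ} [Fact q.Prime]
    [CharP (B ⧸ 𝔪) q] {k : ℕ} {x y : B}
    (hx : IsFrobCompat 𝔪 ψ (q ^ k) x) (hy : IsFrobCompat 𝔪 ψ (q ^ k) y) :
    IsFrobCompat 𝔪 ψ (q ^ k) (x + y) := by
  unfold IsFrobCompat at *
  have e : ψ (x + y) - (x + y) ^ (q ^ k)
      = (ψ x - x ^ (q ^ k)) + (ψ y - y ^ (q ^ k))
        - ((x + y) ^ (q ^ k) - (x ^ (q ^ k) + y ^ (q ^ k))) := by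
    rw [map_add]
    ring
  rw [e]
  exact 𝔪.sub_mem (𝔪.add_mem hx hy) (add_pow_sub_mem 𝔪 q k x y)

theorem IsFrobCompat.neg {𝔪 : Ideal B} {ψ : B →+* B} {q : ℕ} [Fact q.Prime]
    [CharP (B ⧸ 𝔪) q] {k : ℕ} {x : B}
    (hx : IsFrobCompat 𝔪 ψ (q ^ k) x) : IsFrobCompat 𝔪 ψ (q ^ k) (-x) := by
  unfold IsFrobCompat at *
  have e : ψ (-x) - (-x) ^ (q ^ k)
      = -(ψ x - x ^ (q ^ k)) - ((-x) ^ (q ^ k) - (-(x ^ (q ^ k)))) := by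
    rw [map_neg]
    ring
  rw [e]
  exact 𝔪.sub_mem (𝔪.neg_mem hx) (neg_pow_sub_mem 𝔪 q k x)

/-- The subring of Frobenius compatible elements. -/
def frobCompat (𝔪 : Ideal B) (ψ : B →+* B) (q : ℕ) [Fact q.Prime] [CharP (B ⧸ 𝔪) q] (k : ℕ) :
    Subring B where
  carrier := {x | IsFrobCompat 𝔪 ψ (q ^ k) x}
  mul_mem' hx hy := hx.mul hy
  one_mem' := isFrobCompat_one
  add_mem' hx hy := hx.add hy
  zero_mem' := isFrobCompat_zero (pow_ne_zero _ (Fact.out : q.Prime).ne_zero)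
  neg_mem' hx := hx.neg

theorem mem_frobCompat {𝔪 : Ideal B} {ψ : B →+* B} {q : ℕ} [Fact q.Prime] [CharP (B ⧸ 𝔪) q]
    {k : ℕ} {x : B} : x ∈ frobCompat 𝔪 ψ q k ↔ ψ x - x ^ (q ^ k) ∈ 𝔪 := Iff.rfl

/-- A `ψ`-fixed element `s` with `s ^ Q ≡ s` is Frobenius compatible. -/
theorem isFrobCompat_of_fixed {𝔪 : Ideal B} {ψ : B →+* B} {Q : ℕ} {s : B} (hs : ψ s = s)
    (hsQ : s ^ Q - s ∈ 𝔪) : IsFrobCompat 𝔪 ψ Q s := by
  unfold IsFrobCompat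
  rw [hs]
  have e : s - s ^ Q = -(s ^ Q - s) := by ring
  rw [e]
  exact 𝔪.neg_mem hsQ

/-- An element `r ∈ 𝔪` with `ψ r ∈ 𝔪` is Frobenius compatible. -/
theorem isFrobCompat_of_mem {𝔪 : Ideal B} {ψ : B →+* B} {Q : ℕ} (hQ : Q ≠ 0) {r : B}
    (hr : r ∈ 𝔪) (hψr : ψ r ∈ 𝔪) : IsFrobCompat 𝔪 ψ Q r := by
  unfold IsFrobCompat
  exact 𝔪.sub_mem hψr (𝔪.pow_mem_of_mem hr Q (Nat.pos_of_ne_zero hQ))

/-- **Kronecker twice.**  `s ^ q ≡ s'` and `s' ^ q ≡ s` modulo `𝔪` give `s ^ (q²) ≡ s`. -/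
theorem pow_sq_sub_self_mem {𝔪 : Ideal B} {q : ℕ} {s s' : B}
    (h1 : s ^ q - s' ∈ 𝔪) (h2 : s' ^ q - s ∈ 𝔪) : s ^ (q ^ 2) - s ∈ 𝔪 := by
  rw [← Ideal.Quotient.eq_zero_iff_mem, map_sub, sub_eq_zero] at h1 h2 ⊢
  rw [map_pow] at h1 h2 ⊢
  rw [sq, pow_mul, h1, h2]

/-- A Frobenius compatible element of `𝔪` is mapped into `𝔪`. -/
theorem IsFrobCompat.map_mem {𝔪 : Ideal B} {ψ : B →+* B} {Q : ℕ} (hQ : Q ≠ 0) {z : B}
    (hz : IsFrobCompat 𝔪 ψ Q z) (hzm : z ∈ 𝔪) : ψ z ∈ 𝔪 := by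
  have h := 𝔪.add_mem hz (𝔪.pow_mem_of_mem hzm Q (Nat.pos_of_ne_zero hQ))
  simpa [IsFrobCompat] using h

/-- A Frobenius compatible element outside the prime `𝔪` is mapped outside `𝔪`. -/
theorem IsFrobCompat.map_not_mem {𝔪 : Ideal B} [𝔪.IsPrime] {ψ : B →+* B} {Q : ℕ} {b : B}
    (hb : IsFrobCompat 𝔪 ψ Q b) (hbm : b ∉ 𝔪) : ψ b ∉ 𝔪 := by
  intro h
  apply hbm
  have h1 : b ^ Q ∈ 𝔪 := by
    have := 𝔪.sub_mem h hb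
    simpa [IsFrobCompat] using this
  exact Ideal.IsPrime.mem_of_pow_mem inferInstance Q h1

/-- **FR-3, abstract.**  If every `z ∈ 𝔪` has a Frobenius compatible denominator `b ∉ 𝔪` such
that `b z` is Frobenius compatible, then `ψ` maps `𝔪` into `𝔪`. -/
theorem map_mem_of_frobCompat {𝔪 : Ideal B} [𝔪.IsPrime] {ψ : B →+* B} {Q : ℕ} (hQ : Q ≠ 0)
    (h : ∀ z ∈ 𝔪, ∃ b : B, b ∉ 𝔪 ∧ IsFrobCompat 𝔪 ψ Q b ∧ IsFrobCompat 𝔪 ψ Q (b * z))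
    {z : B} (hz : z ∈ 𝔪) : ψ z ∈ 𝔪 := by
  obtain ⟨b, hb, hbT, hbzT⟩ := h z hz
  have h1 : ψ (b * z) ∈ 𝔪 := hbzT.map_mem hQ (𝔪.mul_mem_left b hz)
  rw [map_mul] at h1
  rcases Ideal.IsPrime.mem_or_mem inferInstance h1 with h2 | h2
  · exact absurd h2 (hbT.map_not_mem hb)
  · exact h2

/-- **FR-3, abstract, ideal form**: `ψ⁻¹ 𝔪 = 𝔪` for a maximal ideal `𝔪`. -/
theorem comap_eq_of_frobCompat {𝔪 : Ideal B} [h𝔪 : 𝔪.IsMaximal] {ψ : B →+* B} {Q : ℕ}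
    (hQ : Q ≠ 0)
    (h : ∀ z ∈ 𝔪, ∃ b : B, b ∉ 𝔪 ∧ IsFrobCompat 𝔪 ψ Q b ∧ IsFrobCompat 𝔪 ψ Q (b * z)) :
    𝔪.comap ψ = 𝔪 := by
  have hle : 𝔪 ≤ 𝔪.comap ψ := fun z hz => map_mem_of_frobCompat hQ h hz
  have hne : 𝔪.comap ψ ≠ ⊤ := by
    intro htop
    have h1 : (1 : B) ∈ 𝔪.comap ψ := by rw [htop]; exact Submodule.mem_top
    rw [Ideal.mem_comap, map_one] at h1
    exact h𝔪.ne_top ((Ideal.eq_top_iff_one 𝔪).2 h1)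
  exact (h𝔪.eq_of_le hne hle).symm

/-- **FR-3 for an automorphism**: `ψ z ∈ 𝔪 ↔ z ∈ 𝔪`. -/
theorem map_mem_iff_of_frobCompat {𝔪 : Ideal B} [h𝔪 : 𝔪.IsMaximal] {ψ : B ≃+* B} {Q : ℕ}
    (hQ : Q ≠ 0)
    (h : ∀ z ∈ 𝔪, ∃ b : B, b ∉ 𝔪 ∧ IsFrobCompat 𝔪 (ψ : B →+* B) Q b ∧
      IsFrobCompat 𝔪 (ψ : B →+* B) Q (b * z))
    (z : B) : ψ z ∈ 𝔪 ↔ z ∈ 𝔪 := by
  have := comap_eq_of_frobCompat (ψ := (ψ : B →+* B)) hQ h
  constructor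
  · intro hz
    rw [← this]
    exact hz
  · intro hz
    rw [← this] at hz
    exact hz

/-- **FR-3 from local generators.**  If `𝔪` is locally generated by elements `x` with
`ψ x ∈ 𝔪` (for instance `π`, the elements of `𝔮_∞`, and `s - c` with `s` rational,
`s ^ Q ≡ s`, `c` a constant, `ψ c ≡ c ^ Q`), with denominators mapped outside `𝔪`, then
`ψ 𝔪 ⊆ 𝔪`. -/
theorem map_mem_of_generators {𝔪 : Ideal B} [𝔪.IsPrime] {ψ : B →+* B} (S : Set B)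
    (hS : ∀ x ∈ S, ψ x ∈ 𝔪)
    (hgen : ∀ z ∈ 𝔪, ∃ b : B, ψ b ∉ 𝔪 ∧ b * z ∈ Ideal.span S)
    {z : B} (hz : z ∈ 𝔪) : ψ z ∈ 𝔪 := by
  obtain ⟨b, hb, hbz⟩ := hgen z hz
  have h1 : ∀ y ∈ Ideal.span S, ψ y ∈ 𝔪 := by
    intro y hy
    induction hy using Submodule.span_induction with
    | mem x hx => exact hS x hx
    | zero => rw [map_zero]; exact 𝔪.zero_mem
    | add x y _ _ hx hy => rw [map_add]; exact 𝔪.add_mem hx hy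
    | smul a x _ hx => rw [smul_eq_mul, map_mul]; exact 𝔪.mul_mem_left _ hx
  have h2 := h1 _ hbz
  rw [map_mul] at h2
  rcases Ideal.IsPrime.mem_or_mem inferInstance h2 with h3 | h3
  · exact absurd h3 hb
  · exact h3

/-- A generator `s - c`: `s` fixed by `ψ`, `s ^ Q ≡ s`, `s ≡ c` and `ψ c ≡ c ^ Q`
modulo `𝔪`. -/
theorem map_sub_mem_of_fixed {𝔪 : Ideal B} {ψ : B →+* B} {Q : ℕ} (hQ : Q ≠ 0) {s c : B}
    (hs : ψ s = s) (hsQ : s ^ Q - s ∈ 𝔪) (hsc : s - c ∈ 𝔪) (hc : ψ c - c ^ Q ∈ 𝔪) :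
    ψ (s - c) ∈ 𝔪 := by
  have h1 : IsFrobCompat 𝔪 ψ Q s := isFrobCompat_of_fixed hs hsQ
  -- `ψ (s - c) = (s - s^Q) + (s^Q - c^Q) - (ψ c - c^Q)` and `s - c ∣ s^Q - c^Q`
  have h2 : s ^ Q - c ^ Q ∈ 𝔪 := by
    obtain ⟨u, hu⟩ := sub_dvd_pow_sub_pow s c Q
    rw [hu]
    exact 𝔪.mul_mem_right _ hsc
  have e : ψ (s - c) = -(s ^ Q - s) + (s ^ Q - c ^ Q) - (ψ c - c ^ Q) := by
    rw [map_sub, hs]
    ring
  rw [e]
  exact 𝔪.sub_mem (𝔪.add_mem (𝔪.neg_mem hsQ) h2) hc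

end Fermat.Agent.H71.SS
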