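/-
helper71, P-SS / S35, block (KT), row KT-C3 part (3): FR-3 in the CHART LANGUAGE.

A closed point `𝔪` of the chart `B(y)` is stable under the Frobenius square `Ψ` as soon as the
branch `V` through `𝔪` is "generated by Frobenius compatible elements":

* `D` a set of elements of `B(y)` with `Ψ d ≡ d ^ (q ^ k)` modulo `𝔪` (KRONECKER TWICE:
  `d = α(h)` with `h` of the lower level, `α(h) ^ q ≡ β(φ h)` modulo `𝔪_{V_∞}` and
  `β(φ h) ^ q ≡ α(φ² h)` modulo `𝔪_{V_0}`; `𝔪` contains both centres because it is a node);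
* FRAC (local form): every `z ∈ B(y)` has `a, b ∈ D`, `b ∉ 𝔪`, with `b z - a ∈ 𝔪_V`
  (the local ring of the branch `V` at `𝔪` is the local ring of the lower level);
* `Ψ` preserves `B(y)` and `𝔪_V`.

Then `Ψ 𝔪 ⊆ 𝔪` (`frobNode_map_mem`), in the exact shape of the first clause of
`Fermat.Agent.H55.SS.KtTwo`.  Also: the Kronecker-twice step in the chart language
(`frobNode_kronecker`), and the closure properties of the set of Frobenius compatible elements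
(`frobNode_compat_*`), so that `D` may be taken to be a subring generated by constants and
finitely many functions.
-/
import Fermat.Agent.H71.SS.FrobStable
import Fermat.Agent.H11.SS2.Defs

set_option autoImplicit false
set_option linter.unusedSectionVars false
set_option linter.unusedVariables false
set_option linter.style.haveILetI false

noncomputable section

namespace Fermat.Agent.H71.SS

open Fermat.Agent.H22.KL Fermat.Agent.H11.SS2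

section Chart

variable (A : Type) [CommRing A] (E₀ : Type) [Field E₀] [Algebra A E₀]

/-- The restriction to `B(y)` of an automorphism preserving `B(y)`. -/
def chartRestrict (y : E₀) (Ψ : E₀ ≃+* E₀)
    (hΨB : ∀ s ∈ chartClosure A E₀ y, Ψ s ∈ chartClosure A E₀ y) :
    chartClosure A E₀ y →+* chartClosure A E₀ y :=
  RingHom.restrict (Ψ : E₀ →+* E₀) (chartClosure A E₀ y) (chartClosure A E₀ y) hΨB

theorem coe_chartRestrict (y : E₀) (Ψ : E₀ ≃+* E₀)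
    (hΨB : ∀ s ∈ chartClosure A E₀ y, Ψ s ∈ chartClosure A E₀ y)
    (s : chartClosure A E₀ y) :
    ((chartRestrict A E₀ y Ψ hΨB s : chartClosure A E₀ y) : E₀) = Ψ (s : E₀) := rfl

/-- `d` is FROBENIUS COMPATIBLE at `𝔪`: `d ∈ B(y)` and `Ψ d ≡ d ^ Q` modulo `𝔪`. -/
def ChartFrobCompat (y : E₀) (𝔪 : Ideal (chartClosure A E₀ y)) (Ψ : E₀ ≃+* E₀) (Q : ℕ)
    (d : E₀) : Prop :=
  ∃ (h : d ∈ chartClosure A E₀ y) (h' : Ψ d ∈ chartClosure A E₀ y),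
    ((⟨Ψ d, h'⟩ : chartClosure A E₀ y) - (⟨d, h⟩ : chartClosure A E₀ y) ^ Q) ∈ 𝔪

variable {A E₀}

theorem chartFrobCompat_iff {y : E₀} {𝔪 : Ideal (chartClosure A E₀ y)} {Ψ : E₀ ≃+* E₀}
    (hΨB : ∀ s ∈ chartClosure A E₀ y, Ψ s ∈ chartClosure A E₀ y) {Q : ℕ} {d : E₀} :
    ChartFrobCompat A E₀ y 𝔪 Ψ Q d ↔
      ∃ h : d ∈ chartClosure A E₀ y,
        IsFrobCompat 𝔪 (chartRestrict A E₀ y Ψ hΨB) Q (⟨d, h⟩ : chartClosure A E₀ y) := by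
  constructor
  · rintro ⟨h, h', hm⟩
    exact ⟨h, hm⟩
  · rintro ⟨h, hm⟩
    exact ⟨h, hΨB d h, hm⟩

/-- The characteristic of the residue field of a closed point over `q`. -/
theorem frobNode_charP {y : E₀} (𝔪 : Ideal (chartClosure A E₀ y)) [𝔪.IsPrime]
    (q : ℕ) [hq : Fact q.Prime] (hq𝔪 : ((q : ℕ) : chartClosure A E₀ y) ∈ 𝔪) :
    CharP (chartClosure A E₀ y ⧸ 𝔪) q := by
  rw [CharP.charP_iff_prime_eq_zero hq.out]
  have h := (Ideal.Quotient.eq_zero_iff_mem (I := 𝔪)).mpr hq𝔪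
  rwa [map_natCast] at h

/-- Constants: `Ψ a ≡ a ^ Q` modulo `q` gives Frobenius compatibility at every closed point
over `q`. -/
theorem chartFrobCompat_algebraMap {y : E₀} {𝔪 : Ideal (chartClosure A E₀ y)}
    {Ψ : E₀ ≃+* E₀} {Q : ℕ} (q : ℕ) (hq𝔪 : ((q : ℕ) : chartClosure A E₀ y) ∈ 𝔪) (a : A)
    (h : ∃ b c : A, Ψ (algebraMap A E₀ a) = algebraMap A E₀ b ∧ b - a ^ Q = (q : A) * c) :
    ChartFrobCompat A E₀ y 𝔪 Ψ Q (algebraMap A E₀ a) := by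
  obtain ⟨b, c, hb, hc⟩ := h
  refine ⟨Subalgebra.algebraMap_mem _ a, by rw [hb]; exact Subalgebra.algebraMap_mem _ b, ?_⟩
  have e : ((⟨Ψ (algebraMap A E₀ a), by rw [hb]; exact Subalgebra.algebraMap_mem _ b⟩ :
      chartClosure A E₀ y) - (⟨algebraMap A E₀ a, Subalgebra.algebraMap_mem _ a⟩ :
        chartClosure A E₀ y) ^ Q)
      = ((q : ℕ) : chartClosure A E₀ y) * algebraMap A (chartClosure A E₀ y) c := by
    apply Subtype.ext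
    push_cast
    show Ψ (algebraMap A E₀ a) - (algebraMap A E₀ a) ^ Q = (q : E₀) * algebraMap A E₀ c
    rw [hb, ← map_pow, ← map_sub, hc, map_mul, map_natCast]
  rw [e]
  exact 𝔪.mul_mem_right _ hq𝔪

/-- **KRONECKER TWICE** in the chart language: `s, s', s'' ∈ B(y)` with `s ^ q ≡ s'` modulo
`𝔪_{V₁}`, `s' ^ q ≡ s''` modulo `𝔪_{V₂}` and `Ψ s = s''`; if both `V₁` and `V₂` pass through
`𝔪` (a node), then `s` is Frobenius compatible at `𝔪` for `Q = q²`. -/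
theorem frobNode_kronecker {y : E₀} {𝔪 : Ideal (chartClosure A E₀ y)}
    {V₁ V₂ : ValuationSubring E₀} (h₁ : Through A E₀ y 𝔪 V₁) (h₂ : Through A E₀ y 𝔪 V₂)
    {Ψ : E₀ ≃+* E₀} {q : ℕ} {s s' : E₀}
    (hs : s ∈ chartClosure A E₀ y) (hs' : s' ∈ chartClosure A E₀ y)
    (hs'' : Ψ s ∈ chartClosure A E₀ y)
    (hk₁ : s ^ q - s' ∈ V₁.nonunits) (hk₂ : s' ^ q - Ψ s ∈ V₂.nonunits) :
    ChartFrobCompat A E₀ y 𝔪 Ψ (q ^ 2) s := by
  refine ⟨hs, hs'', ?_⟩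
  have m₁ : ((⟨s, hs⟩ : chartClosure A E₀ y) ^ q - ⟨s', hs'⟩) ∈ 𝔪 := h₁ _ hk₁
  have m₂ : ((⟨s', hs'⟩ : chartClosure A E₀ y) ^ q - ⟨Ψ s, hs''⟩) ∈ 𝔪 := h₂ _ hk₂
  rw [← Ideal.Quotient.eq_zero_iff_mem, map_sub, sub_eq_zero, map_pow] at m₁ m₂ ⊢
  rw [sq, pow_mul, m₁, m₂]

/-- **FR-3 in the chart language.**  `𝔪` a prime ideal of `B(y)` over `q`, `V` a valuation
through `𝔪`, `Ψ` an automorphism preserving `B(y)` and `𝔪_V`; if every `z ∈ B(y)` is, up to a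
Frobenius compatible denominator `b ∉ 𝔪`, congruent modulo `𝔪_V` to a Frobenius compatible
element, then `Ψ 𝔪 ⊆ 𝔪`. -/
theorem frobNode_map_mem (y : E₀) (𝔪 : Ideal (chartClosure A E₀ y)) [𝔪.IsPrime]
    (q : ℕ) [Fact q.Prime] (hq𝔪 : ((q : ℕ) : chartClosure A E₀ y) ∈ 𝔪) (k : ℕ)
    (V : ValuationSubring E₀) (hV : Through A E₀ y 𝔪 V)
    (Ψ : E₀ ≃+* E₀)
    (hΨB : ∀ s ∈ chartClosure A E₀ y, Ψ s ∈ chartClosure A E₀ y)
    (hΨV : ∀ z ∈ V.nonunits, Ψ z ∈ V.nonunits)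
    (hFrac : ∀ z ∈ chartClosure A E₀ y, ∃ a b : E₀,
      ChartFrobCompat A E₀ y 𝔪 Ψ (q ^ k) a ∧ ChartFrobCompat A E₀ y 𝔪 Ψ (q ^ k) b ∧
      (∀ h : b ∈ chartClosure A E₀ y, (⟨b, h⟩ : chartClosure A E₀ y) ∉ 𝔪) ∧
      b * z - a ∈ V.nonunits) :
    ∀ s : chartClosure A E₀ y, s ∈ 𝔪 → ∀ h : Ψ (s : E₀) ∈ chartClosure A E₀ y,
      (⟨Ψ (s : E₀), h⟩ : chartClosure A E₀ y) ∈ 𝔪 := by
  intro s hs h
  haveI := frobNode_charP 𝔪 q hq𝔪
  have hQ : q ^ k ≠ 0 := pow_ne_zero _ (Fact.out : q.Prime).ne_zero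
  obtain ⟨a, b, ha, hb, hbm, hr⟩ := hFrac s s.2
  obtain ⟨haB, hca⟩ := (chartFrobCompat_iff hΨB).mp ha
  obtain ⟨hbB, hcb⟩ := (chartFrobCompat_iff hΨB).mp hb
  set ψ := chartRestrict A E₀ y Ψ hΨB with hψ
  set a' : chartClosure A E₀ y := ⟨a, haB⟩ with ha'
  set b' : chartClosure A E₀ y := ⟨b, hbB⟩ with hb'
  -- the remainder
  have hrm : b' * s - a' ∈ 𝔪 := hV _ hr
  have hψrm : ψ (b' * s - a') ∈ 𝔪 := by
    refine hV _ ?_
    rw [hψ, coe_chartRestrict]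
    exact hΨV _ hr
  have hcr : IsFrobCompat 𝔪 ψ (q ^ k) (b' * s - a') := isFrobCompat_of_mem hQ hrm hψrm
  have hcbs : IsFrobCompat 𝔪 ψ (q ^ k) (b' * s) := by
    have e : b' * s = (b' * s - a') + a' := by ring
    rw [e]
    exact hcr.add hca
  have h1 : ψ (b' * s) ∈ 𝔪 := hcbs.map_mem hQ (𝔪.mul_mem_left b' hs)
  rw [map_mul] at h1
  rcases Ideal.IsPrime.mem_or_mem inferInstance h1 with h2 | h2
  · exact absurd h2 (hcb.map_not_mem (hbm hbB))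
  · exact h2

/-- Closure of Frobenius compatibility under products. -/
theorem ChartFrobCompat.mul {y : E₀} {𝔪 : Ideal (chartClosure A E₀ y)} {Ψ : E₀ ≃+* E₀}
    (hΨB : ∀ s ∈ chartClosure A E₀ y, Ψ s ∈ chartClosure A E₀ y) {Q : ℕ} {c d : E₀}
    (hc : ChartFrobCompat A E₀ y 𝔪 Ψ Q c) (hd : ChartFrobCompat A E₀ y 𝔪 Ψ Q d) :
    ChartFrobCompat A E₀ y 𝔪 Ψ Q (c * d) := by
  obtain ⟨hcB, hcc⟩ := (chartFrobCompat_iff hΨB).mp hc
  obtain ⟨hdB, hcd⟩ := (chartFrobCompat_iff hΨB).mp hd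
  exact (chartFrobCompat_iff hΨB).mpr ⟨Subalgebra.mul_mem _ hcB hdB, hcc.mul hcd⟩

/-- Closure of Frobenius compatibility under sums (residue characteristic `q`, `Q = q ^ k`). -/
theorem ChartFrobCompat.add {y : E₀} {𝔪 : Ideal (chartClosure A E₀ y)} [𝔪.IsPrime]
    {Ψ : E₀ ≃+* E₀}
    (hΨB : ∀ s ∈ chartClosure A E₀ y, Ψ s ∈ chartClosure A E₀ y)
    {q : ℕ} [Fact q.Prime] (hq𝔪 : ((q : ℕ) : chartClosure A E₀ y) ∈ 𝔪) {k : ℕ} {c d : E₀}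
    (hc : ChartFrobCompat A E₀ y 𝔪 Ψ (q ^ k) c) (hd : ChartFrobCompat A E₀ y 𝔪 Ψ (q ^ k) d) :
    ChartFrobCompat A E₀ y 𝔪 Ψ (q ^ k) (c + d) := by
  haveI := frobNode_charP 𝔪 q hq𝔪
  obtain ⟨hcB, hcc⟩ := (chartFrobCompat_iff hΨB).mp hc
  obtain ⟨hdB, hcd⟩ := (chartFrobCompat_iff hΨB).mp hd
  exact (chartFrobCompat_iff hΨB).mpr ⟨Subalgebra.add_mem _ hcB hdB, hcc.add hcd⟩

/-- Closure of Frobenius compatibility under negation. -/
theorem ChartFrobCompat.neg {y : E₀} {𝔪 : Ideal (chartClosure A E₀ y)} [𝔪.IsPrime]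
    {Ψ : E₀ ≃+* E₀}
    (hΨB : ∀ s ∈ chartClosure A E₀ y, Ψ s ∈ chartClosure A E₀ y)
    {q : ℕ} [Fact q.Prime] (hq𝔪 : ((q : ℕ) : chartClosure A E₀ y) ∈ 𝔪) {k : ℕ} {c : E₀}
    (hc : ChartFrobCompat A E₀ y 𝔪 Ψ (q ^ k) c) :
    ChartFrobCompat A E₀ y 𝔪 Ψ (q ^ k) (-c) := by
  haveI := frobNode_charP 𝔪 q hq𝔪
  obtain ⟨hcB, hcc⟩ := (chartFrobCompat_iff hΨB).mp hc
  exact (chartFrobCompat_iff hΨB).mpr ⟨Subalgebra.neg_mem _ hcB, hcc.neg⟩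

end Chart

end Fermat.Agent.H71.SS
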