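/-
helper71, P-SS block [G] (level change), part 2: THE LEVEL MAP.

* generic: `pic0PullbackAlong φ` : `Pic⁰(F) → Pic⁰(F')` for `φ : F →ₐ[K] F'` integral with the
  fundamental identity; its kernel is killed by the degree (`pic0PullbackAlong_ker`), and it is
  equivariant for intertwined semilinear automorphisms (`pic0PullbackAlong_smul`).
* modular: `exists_levelMap N ℓ` (`ℓ` prime): a Galois-equivariant homomorphism
  `J₀(N) → J₀(N ℓ)` whose kernel is killed by some `d ≠ 0`.  UNCONDITIONAL
  (landed inputs of helper49 / helper9 / helper96 / helper58).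
-/
import Fermat.Agent.H9.ESD.LevelChangeUncond
import Fermat.Agent.H49.ES.GalHecke

set_option autoImplicit false
set_option synthInstance.maxHeartbeats 400000
set_option linter.style.haveILetI false
set_option linter.unusedSectionVars false
set_option linter.unusedVariables false

noncomputable section

namespace Fermat.Agent.H71.SS

open AlgebraicCurve ModularCurve

section Generic

variable {K F F' : Type*} [Field K] [Field F] [Field F'] [Algebra K F] [Algebra K F']
variable [HasPrincipalDivisors K F']
variable (φ : F →ₐ[K] F') (hφ : φ.toRingHom.IsIntegral)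
variable (hFI : FundamentalIdentityAlong K φ hφ)

/-- Pull-back of divisors of degree zero. -/
def degZeroPullbackAlong :
    Divisor.degZero (K := K) (F := F) →+ Divisor.degZero (K := K) (F := F') :=
  ((Divisor.pullbackAlong φ hφ).comp (Divisor.degZero (K := K) (F := F)).subtype).codRestrict _
    (fun D => Divisor.pullbackAlong_mem_degZero φ hφ hFI D.2)

@[simp]
theorem coe_degZeroPullbackAlong (D : Divisor.degZero (K := K) (F := F)) :
    (degZeroPullbackAlong φ hφ hFI D : Divisor K F') =
      Divisor.pullbackAlong φ hφ (D : Divisor K F) :=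
  rfl

/-- Pull-back of divisor classes of degree zero. -/
def pic0PullbackAlong : Pic0 K F →+ Pic0 K F' :=
  QuotientAddGroup.map _ _ (degZeroPullbackAlong φ hφ hFI) (by
    rintro ⟨D, hD0⟩ hD
    simp only [AddSubgroup.mem_addSubgroupOf] at hD ⊢
    exact Divisor.isPrincipal_pullbackAlong φ hφ hD)

theorem pic0PullbackAlong_mk (D : Divisor.degZero (K := K) (F := F)) :
    pic0PullbackAlong φ hφ hFI (Pic0.mk D) = Pic0.mk (degZeroPullbackAlong φ hφ hFI D) :=
  rfl

/-- The kernel of the pull-back is killed by the degree. -/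
theorem pic0PullbackAlong_ker (hfin : FiniteAlong K φ) (hNF : NormFormulaAlong K φ hfin)
    (hsum : letI := algebraAlong φ
      haveI := isScalarTower_along φ
      haveI := isIntegral_along φ hφ
      SumRamificationInertia K F F')
    (x : Pic0 K F) (hx : pic0PullbackAlong φ hφ hFI x = 0) :
    finrankAlong K φ • x = 0 := by
  obtain ⟨D, rfl⟩ := Pic0.mk_surjective x
  rw [pic0PullbackAlong_mk, Fermat.Agent.H96.pic0_mk_eq_zero_iff, coe_degZeroPullbackAlong] at hx
  rw [Fermat.Agent.H96.pic0_nsmul_mk_eq_zero_iff]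
  have h1 := Divisor.isPrincipal_pushforwardAlong φ hφ hfin hNF hx
  have h2 : Divisor.pushforwardAlong φ hφ (Divisor.pullbackAlong φ hφ (D : Divisor K F))
      = finrankAlong K φ • (D : Divisor K F) := by
    letI := algebraAlong φ
    haveI := isScalarTower_along φ
    haveI := isIntegral_along φ hφ
    haveI := hsum
    exact Fermat.Agent.H96.pushforward_pullback (K := K) (F := F) (F' := F') (D : Divisor K F)
  rw [h2] at h1
  exact h1

/-- The pull-back is equivariant for a pair of intertwined semilinear automorphisms. -/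
theorem pic0PullbackAlong_smul {g : SemilinearAut K F} {g' : SemilinearAut K F'}
    (h : SemilinearAut.IntertwinesAlong φ.toRingHom g g') (x : Pic0 K F) :
    pic0PullbackAlong φ hφ hFI (g • x) = g' • pic0PullbackAlong φ hφ hFI x := by
  obtain ⟨D, rfl⟩ := Pic0.mk_surjective x
  rw [SemilinearAut.pic0_smul_mk, pic0PullbackAlong_mk, pic0PullbackAlong_mk,
    SemilinearAut.pic0_smul_mk]
  refine congrArg Pic0.mk (Subtype.ext ?_)
  rw [coe_degZeroPullbackAlong, SemilinearAut.coe_degZeroSMulHom,
    SemilinearAut.coe_degZeroSMulHom, coe_degZeroPullbackAlong]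
  exact Fermat.Agent.H49.pullbackAlong_smul_of_intertwines φ hφ h (D : Divisor K F)

end Generic

section Modular

/-- **The level map.**  For a prime `ℓ` there is a Galois-equivariant homomorphism
`J₀(N) → J₀(N ℓ)` (pull-back of divisor classes) whose kernel is killed by a nonzero
integer `d` (the degree). -/
theorem exists_levelMap (N ℓ : ℕ) [NeZero N] [NeZero ℓ] (hℓ : ℓ.Prime) :
    ∃ (f : JZero N →+ JZero (N * ℓ)) (d : ℕ), d ≠ 0 ∧
      (∀ (σ : AlgebraicClosure ℚ ≃ₐ[ℚ] AlgebraicClosure ℚ) (x : JZero N),
        f (σ • x) = σ • f x) ∧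
      ∀ x : JZero N, f x = 0 → d • x = 0 := by
  obtain ⟨hα, -, hP, hfin, -, hNF⟩ :=
    Fermat.Agent.H49.heckeInputsStatement (AlgebraicClosure ℚ) N ℓ hℓ
  haveI := hP
  have hff := Fermat.Agent.H9.ESD.lc_isFunctionField_bar N
  have hFI : FundamentalIdentityAlong (AlgebraicClosure ℚ)
      (heckeAlphaBar (AlgebraicClosure ℚ) N ℓ) hα :=
    Fermat.Agent.H9.ESD.lc_fundamentalIdentityAlong_of
      Fermat.Agent.H49.relFundamentalIdentityStatement _ hfin hα hff
  have hsum : letI := algebraAlong (heckeAlphaBar (AlgebraicClosure ℚ) N ℓ)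
      haveI := isScalarTower_along (heckeAlphaBar (AlgebraicClosure ℚ) N ℓ)
      haveI := isIntegral_along (heckeAlphaBar (AlgebraicClosure ℚ) N ℓ) hα
      SumRamificationInertia (AlgebraicClosure ℚ) ↥(modularFunctionFieldBar N)
        ↥(modularFunctionFieldBar (N * ℓ)) := by
    letI := algebraAlong (heckeAlphaBar (AlgebraicClosure ℚ) N ℓ)
    haveI := isScalarTower_along (heckeAlphaBar (AlgebraicClosure ℚ) N ℓ)
    haveI := isIntegral_along (heckeAlphaBar (AlgebraicClosure ℚ) N ℓ) hα
    haveI : FundamentalIdentity (AlgebraicClosure ℚ) ↥(modularFunctionFieldBar N)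
        ↥(modularFunctionFieldBar (N * ℓ)) := hFI
    exact Fermat.Agent.H96.sumRamificationInertia_of_deg_one
      (Fermat.Agent.H9.ESD.lc_deg_eq_one_bar N) (Fermat.Agent.H9.ESD.lc_deg_eq_one_bar (N * ℓ))
  refine ⟨pic0PullbackAlong (heckeAlphaBar (AlgebraicClosure ℚ) N ℓ) hα hFI,
    finrankAlong (AlgebraicClosure ℚ) (heckeAlphaBar (AlgebraicClosure ℚ) N ℓ), ?_, ?_, ?_⟩
  · letI := algebraAlong (heckeAlphaBar (AlgebraicClosure ℚ) N ℓ)
    haveI : Module.Finite ↥(modularFunctionFieldBar N) ↥(modularFunctionFieldBar (N * ℓ)) := hfin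
    have hpos : 0 < Module.finrank ↥(modularFunctionFieldBar N)
        ↥(modularFunctionFieldBar (N * ℓ)) := Module.finrank_pos
    exact hpos.ne'
  · intro σ x
    rw [galois_smul_pic0_def, galois_smul_pic0_def]
    exact pic0PullbackAlong_smul _ hα hFI
      (Fermat.Agent.H49.intertwines_heckeAlphaBar (AlgebraicClosure ℚ) N ℓ σ) x
  · intro x hx
    exact pic0PullbackAlong_ker _ hα hFI hfin hNF hsum x hx

end Modular

end Fermat.Agent.H71.SS
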