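/-
helper71, P-SS block [G] (level change), ABSTRACT part.  Mathlib only.

`J`, `J'` abelian groups with an action of a monoid `G` (Galois), `f : J → J'` an equivariant
homomorphism whose kernel is killed by `d` (pull-back of divisor classes to an auxiliary level,
`d` = the degree).

* `weak_descend` : if `c • (s - 1)² = 0` on `J'[m]` then `(d * c) • (s - 1)² = 0` on `J[m]`.
* `pPart_nsmul_eq_zero` : `c • y = 0`, `p ^ k • y = 0`  ⟹  `p ^ v_p(c) • y = 0`.
* `sqDiff_eq_zero_of_weak` : if `c • (s - 1)² = 0` on `J[p ^ k]` for all `k`, then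
  `(s - 1)² = 0` on `(p ^ a • J)[p ^ n]`, `a = v_p(c)`.
* `mulRange J c` : the subgroup `c • J`, with the restricted action `mulRangeAction`
  and restricted endomorphisms `mulRangeEnd`.

No divisibility of `J` is used anywhere.
-/
import Mathlib

set_option linter.unusedSectionVars false
set_option linter.unusedVariables false

namespace Fermat.Agent.H71.SS

section Descend

variable {G : Type*} [Monoid G]
variable {J J' : Type*} [AddCommGroup J] [AddCommGroup J']
  [DistribMulAction G J] [DistribMulAction G J']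

/-- The action commutes with natural multiples. -/
theorem act_nsmul (g : G) (n : ℕ) (x : J) : g • (n • x) = n • (g • x) :=
  map_nsmul (DistribSMul.toAddMonoidHom J g) n x

/-- The second difference of a multiple. -/
theorem sqDiff_nsmul (s : G) (n : ℕ) (x : J) :
    s • s • (n • x) - 2 • (s • (n • x)) + n • x = n • (s • s • x - 2 • (s • x) + x) := by
  rw [act_nsmul, act_nsmul, act_nsmul, smul_add, smul_sub, smul_comm n 2]

/-- The second difference of a point killed by `m` is killed by `m`. -/
theorem nsmul_sqDiff_eq_zero (s : G) {m : ℕ} {x : J} (hx : m • x = 0) :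
    m • (s • s • x - 2 • (s • x) + x) = 0 := by
  rw [← sqDiff_nsmul, hx, smul_zero, smul_zero, smul_zero, sub_zero, add_zero]

/-- An equivariant homomorphism commutes with the second difference. -/
theorem map_sqDiff (f : J →+ J') (hf : ∀ (g : G) (x : J), f (g • x) = g • f x) (s : G) (x : J) :
    f (s • s • x - 2 • (s • x) + x) = s • s • f x - 2 • (s • f x) + f x := by
  rw [map_add, map_sub, map_nsmul, hf, hf]

/-- **Level step.**  `f : J → J'` equivariant with kernel killed by `d`.  If
`c • (s - 1)² = 0` on `J'[m]`, then `(d * c) • (s - 1)² = 0` on `J[m]`. -/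
theorem weak_descend (f : J →+ J') (hf : ∀ (g : G) (x : J), f (g • x) = g • f x)
    {d : ℕ} (hker : ∀ x : J, f x = 0 → d • x = 0) (s : G) {c m : ℕ}
    (hU : ∀ x' : J', m • x' = 0 → c • (s • s • x' - 2 • (s • x') + x') = 0)
    (x : J) (hx : m • x = 0) :
    (d * c) • (s • s • x - 2 • (s • x) + x) = 0 := by
  have h1 : m • f x = 0 := by rw [← map_nsmul, hx, map_zero]
  have h2 := hU (f x) h1
  rw [← map_sqDiff f hf s x, ← map_nsmul] at h2
  have h3 := hker _ h2
  rwa [← mul_smul] at h3

/-- `c • y = 0` and `p ^ k • y = 0` imply `p ^ v_p(c) • y = 0`. -/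
theorem pPart_nsmul_eq_zero {p : ℕ} (hp : p.Prime) {c : ℕ} (hc : c ≠ 0) {k : ℕ} {y : J}
    (h1 : c • y = 0) (h2 : p ^ k • y = 0) : p ^ (c.factorization p) • y = 0 := by
  have hd1 : addOrderOf y ∣ c := addOrderOf_dvd_of_nsmul_eq_zero h1
  have hd2 : addOrderOf y ∣ p ^ k := addOrderOf_dvd_of_nsmul_eq_zero h2
  obtain ⟨j, -, hj⟩ := (Nat.dvd_prime_pow hp).1 hd2
  rw [hj] at hd1
  have hle : j ≤ c.factorization p := (hp.pow_dvd_iff_le_factorization hc).1 hd1
  have hdvd : addOrderOf y ∣ p ^ (c.factorization p) := by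
    rw [hj]
    exact pow_dvd_pow p hle
  exact addOrderOf_dvd_iff_nsmul_eq_zero.1 hdvd

/-- **Unipotency on the multiples.**  If `c • (s - 1)² = 0` on `J[p ^ k]` for every `k`, then
`(s - 1)² = 0` on the points `p ^ a • x` (`a = v_p(c)`) killed by a power of `p`. -/
theorem sqDiff_eq_zero_of_weak {p : ℕ} (hp : p.Prime) {c : ℕ} (hc : c ≠ 0) (s : G)
    (hW : ∀ (k : ℕ) (x : J), p ^ k • x = 0 → c • (s • s • x - 2 • (s • x) + x) = 0)
    (n : ℕ) (x : J) (hz : p ^ n • (p ^ (c.factorization p) • x) = 0) :
    s • s • (p ^ (c.factorization p) • x) - 2 • (s • (p ^ (c.factorization p) • x))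
      + p ^ (c.factorization p) • x = 0 := by
  have hx : p ^ (n + c.factorization p) • x = 0 := by
    rw [pow_add, mul_smul]
    exact hz
  have h1 := hW _ x hx
  have h2 := nsmul_sqDiff_eq_zero s hx
  rw [sqDiff_nsmul]
  exact pPart_nsmul_eq_zero hp hc h1 h2

end Descend

section MulRange

variable (G : Type*) [Monoid G]
variable (J : Type*) [AddCommGroup J] [DistribMulAction G J]

/-- The subgroup `c • J` of multiples of `c`. -/
def mulRange (c : ℕ) : AddSubgroup J := (nsmulAddMonoidHom (α := J) c).range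

variable {J}

theorem mem_mulRange {c : ℕ} {y : J} : y ∈ mulRange J c ↔ ∃ x : J, c • x = y := by
  unfold mulRange
  rw [AddMonoidHom.mem_range]
  rfl

theorem nsmul_mem_mulRange (c : ℕ) (x : J) : c • x ∈ mulRange J c :=
  mem_mulRange.2 ⟨x, rfl⟩

variable {G}

theorem smul_mem_mulRange {c : ℕ} (g : G) {y : J} (hy : y ∈ mulRange J c) :
    g • y ∈ mulRange J c := by
  obtain ⟨x, rfl⟩ := mem_mulRange.1 hy
  rw [act_nsmul]
  exact nsmul_mem_mulRange c _

theorem map_mem_mulRange {c : ℕ} (T : J →+ J) {y : J} (hy : y ∈ mulRange J c) :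
    T y ∈ mulRange J c := by
  obtain ⟨x, rfl⟩ := mem_mulRange.1 hy
  rw [map_nsmul]
  exact nsmul_mem_mulRange c _

variable (G)

/-- The restricted scalar multiplication on `c • J`. -/
@[reducible] def mulRangeSMul (c : ℕ) : SMul G (mulRange J c) :=
  ⟨fun g y => ⟨g • (y : J), smul_mem_mulRange g y.2⟩⟩

/-- The restricted action on `c • J`. -/
@[reducible] def mulRangeAction (c : ℕ) : DistribMulAction G (mulRange J c) :=
  letI := mulRangeSMul G (J := J) c
  Function.Injective.distribMulAction (mulRange J c).subtype Subtype.val_injective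
    (fun _ _ => rfl)

variable {G}

theorem coe_mulRangeAction_smul (c : ℕ) (g : G) (y : mulRange J c) :
    letI := mulRangeAction G (J := J) c
    ((g • y : mulRange J c) : J) = g • (y : J) := rfl

/-- The restriction of an endomorphism to `c • J`. -/
def mulRangeEnd (c : ℕ) (T : Module.End ℤ J) : Module.End ℤ (mulRange J c) :=
  ((T.toAddMonoidHom.comp (mulRange J c).subtype).codRestrict (mulRange J c)
    (fun y => map_mem_mulRange T.toAddMonoidHom y.2)).toIntLinearMap

theorem coe_mulRangeEnd (c : ℕ) (T : Module.End ℤ J) (y : mulRange J c) :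
    ((mulRangeEnd c T y : mulRange J c) : J) = T (y : J) := rfl

/-- Transfer of a homomorphism `κ : Λ → J` to `c • J`: `ψ ↦ c • κ ψ`. -/
theorem exists_mulRange_hom {Λ : Type*} [AddCommGroup Λ] (c : ℕ) (κ : Λ →+ J) :
    ∃ κ₁ : Λ →+ mulRange J c, ∀ ψ : Λ, ((κ₁ ψ : mulRange J c) : J) = c • κ ψ :=
  ⟨((nsmulAddMonoidHom (α := J) c).comp κ).codRestrict (mulRange J c)
    (fun ψ => nsmul_mem_mulRange c (κ ψ)), fun _ => rfl⟩

/-- Coercion of the second difference in `c • J`. -/
theorem coe_mulRange_sqDiff (c : ℕ) (s : G) (x : mulRange J c) :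
    letI := mulRangeAction G (J := J) c
    ((s • s • x - 2 • (s • x) + x : mulRange J c) : J)
      = s • s • (x : J) - 2 • (s • (x : J)) + (x : J) := rfl

/-- Coercion of the Eichler-Shimura expression in `c • J`. -/
theorem coe_mulRange_es (c : ℕ) (s : G) (T : Module.End ℤ J) (ℓ : ℕ) (x : mulRange J c) :
    letI := mulRangeAction G (J := J) c
    ((s • s • x - mulRangeEnd c T (s • x) + ℓ • x : mulRange J c) : J)
      = s • s • (x : J) - T (s • (x : J)) + ℓ • (x : J) := rfl

/-- A point of `c • J` killed by `m` is killed by `m` in `J`. -/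
theorem coe_nsmul_eq_zero_of_mulRange {c m : ℕ} {x : mulRange J c} (hx : m • x = 0) :
    m • (x : J) = 0 := by
  rw [← AddSubgroup.coe_nsmul, hx, AddSubgroup.coe_zero]

end MulRange

end Fermat.Agent.H71.SS
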