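/-
helper71, P-SS block [G] (level change), part 3: S34 FROM THE AUXILIARY LEVEL.

`UnipotentTorsionAuxStatement` : `(σ - 1)² = 0` on `J₀(N')[m]` (`q ∥ N'`, `q ∤ m`, `σ` in an
inertia group at `q`) ONLY for levels `N'` with `4 ∣ N'` (if `q ≠ 2`) resp. `9 ∣ N'` (if `q = 2`).
This is the target of the geometric blocks of P-SS (auxiliary level: no elliptic points).

* `weakUnipotentAt_of_level` : level step `N ℓ → N` (pull-back, kernel killed by the degree).
* `weakUnipotentAt_of_aux` : from the auxiliary statement, `c • (σ - 1)² = 0` on `J₀(N)[p ^ k]`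
  for all `k`, for some `c ≠ 0` (two prime steps `N → N r → N r r`, `r = 2` or `3`).
* `unipotentCore_of_weak` : helper14's `unipotentCore_of_abstract` applied to the subgroup
  `p ^ a • J₀(N)` (`a = v_p(c)`) - NO divisibility of `J₀(N)` is needed.
* `s34_of_aux` : the frozen statement S34 from the S31 torsion package and
  `UnipotentTorsionAuxStatement`.
-/
import Fermat.Agent.H71.SS.LevelAbs
import Fermat.Agent.H71.SS.LevelMap
import Fermat.Agent.H14.S34JCore

set_option autoImplicit false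
set_option synthInstance.maxHeartbeats 400000
set_option linter.style.haveILetI false
set_option linter.unusedSectionVars false
set_option linter.unusedVariables false

noncomputable section

namespace Fermat.Agent.H71.SS

open AlgebraicCurve ModularCurve CongruenceSubgroup ModularCurve.Period
open Fermat.Agent.H14

/-- **Weak unipotency** at level `N` for the prime `q`, on `p`-power torsion, with constant
`c`: `c • (σ - 1)² = 0` on `J₀(N)[p ^ k]` for all `k` and all `σ` in an inertia group at `q`. -/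
def WeakUnipotentAt (N q p c : ℕ) : Prop :=
  ∀ B : ValuationSubring (AlgebraicClosure ℚ), B.LiesOverPrime q →
    ∀ σ ∈ B.inertiaSubgroupIn ℚ, ∀ (k : ℕ) (x : JZero N), p ^ k • x = 0 →
      c • (σ • σ • x - 2 • (σ • x) + x) = 0

/-- **Level step.** -/
theorem weakUnipotentAt_of_level (N ℓ : ℕ) [NeZero N] [NeZero ℓ] (hℓ : ℓ.Prime) {q p c : ℕ}
    (h : WeakUnipotentAt (N * ℓ) q p c) :
    ∃ d : ℕ, d ≠ 0 ∧ WeakUnipotentAt N q p (d * c) := by
  obtain ⟨f, d, hd, hf, hker⟩ := exists_levelMap N ℓ hℓ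
  refine ⟨d, hd, ?_⟩
  intro B hB σ hσ k x hx
  exact weak_descend f hf hker σ (fun x' hx' => h B hB σ hσ k x' hx') x hx

/-- **The geometric target of P-SS** (auxiliary level): unipotent inertia on the torsion of
`J₀(N)` for `q ∥ N`, only for levels divisible by `4` (`q` odd) resp. by `9` (`q = 2`). -/
def UnipotentTorsionAuxStatement : Prop :=
  ∀ (N : ℕ) [NeZero N] (q : ℕ), q.Prime → q ∣ N → ¬ q ^ 2 ∣ N →
    (q ≠ 2 → 4 ∣ N) → (q = 2 → 9 ∣ N) →
    ∀ (m : ℕ), 0 < m → ¬ q ∣ m →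
      ∀ (B : ValuationSubring (AlgebraicClosure ℚ)), B.LiesOverPrime q →
        ∀ σ ∈ B.inertiaSubgroupIn ℚ, ∀ x : JZero N, m • x = 0 →
          σ • σ • x - 2 • (σ • x) + x = 0

/-- The full statement implies the auxiliary one. -/
theorem unipotentTorsionAux_of_all (h : ∀ (N : ℕ) [NeZero N], UnipotentTorsionStatement N) :
    UnipotentTorsionAuxStatement :=
  fun N _ q hq hqN hq2 _ _ m hm hqm B hB σ hσ x hx => h N q hq hqN hq2 m hm hqm B hB σ hσ x hx

/-- From the auxiliary statement: weak unipotency at every level. -/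
theorem weakUnipotentAt_of_aux (hAux : UnipotentTorsionAuxStatement) (N : ℕ) [NeZero N]
    {q p : ℕ} (hq : q.Prime) (hp : p.Prime) (hqp : q ≠ p) (hqN : q ∣ N) (hq2 : ¬ q ^ 2 ∣ N) :
    ∃ c : ℕ, c ≠ 0 ∧ WeakUnipotentAt N q p c := by
  -- the auxiliary prime
  obtain ⟨r, hr, hqr, hr4, hr9⟩ : ∃ r : ℕ, r.Prime ∧ q ≠ r ∧ (q ≠ 2 → r = 2) ∧ (q = 2 → r = 3) := by
    by_cases h2 : q = 2
    · exact ⟨3, by norm_num, by omega, fun h => absurd h2 h, fun _ => rfl⟩
    · exact ⟨2, by norm_num, h2, fun _ => rfl, fun h => absurd h h2⟩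
  haveI : NeZero r := ⟨hr.ne_zero⟩
  have hcop : Nat.Coprime (q ^ 2) (r * r) := by
    have h1 : Nat.Coprime q r := (Nat.coprime_primes hq hr).2 hqr
    exact Nat.Coprime.pow_left 2 (Nat.Coprime.mul_right h1 h1)
  have hqN' : q ∣ N * r * r := by
    rw [mul_assoc]
    exact Dvd.dvd.mul_right hqN _
  have hq2' : ¬ q ^ 2 ∣ N * r * r := by
    intro hdvd
    rw [mul_assoc] at hdvd
    exact hq2 (hcop.dvd_of_dvd_mul_right hdvd)
  have h4 : q ≠ 2 → 4 ∣ N * r * r := by
    intro h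
    rw [hr4 h, mul_assoc]
    exact Dvd.intro_left N rfl
  have h9 : q = 2 → 9 ∣ N * r * r := by
    intro h
    rw [hr9 h, mul_assoc]
    exact Dvd.intro_left N rfl
  have hqpk : ∀ k : ℕ, ¬ q ∣ p ^ k := by
    intro k hdvd
    exact hqp ((Nat.prime_dvd_prime_iff_eq hq hp).mp (hq.dvd_of_dvd_pow hdvd))
  have h0 : WeakUnipotentAt (N * r * r) q p 1 := by
    intro B hB σ hσ k x hx
    rw [one_smul]
    exact hAux (N * r * r) q hq hqN' hq2' h4 h9 (p ^ k) (pow_pos hp.pos k) (hqpk k) B hB σ hσ x hx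
  obtain ⟨d₂, hd₂, h1⟩ := weakUnipotentAt_of_level (N * r) r hr h0
  obtain ⟨d₁, hd₁, h2⟩ := weakUnipotentAt_of_level N r hr h1
  exact ⟨d₁ * (d₂ * 1), by simp [hd₁, hd₂], h2⟩

section Core

variable {p N : ℕ} [NeZero N] {S : Finset ℕ}

/-- The lattice `Λ` has no torsion. -/
theorem s31Lat_eq_nsmul_of_nsmul_eq {c : ℕ} (hc : c ≠ 0) {m : ℕ} {ψ ψ' : S31Lat N}
    (h : c • ψ = (m * c) • ψ') : ψ = m • ψ' := by
  apply Subtype.ext
  apply AddMonoidHom.ext
  intro γ
  have h1 : ((c • ψ : S31Lat N) : Additive ↥(Gamma0 N) →+ ℤ) γ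
      = (((m * c) • ψ' : S31Lat N) : Additive ↥(Gamma0 N) →+ ℤ) γ := by rw [h]
  have e1 : ((c • ψ : S31Lat N) : Additive ↥(Gamma0 N) →+ ℤ) γ
      = (c : ℤ) * (ψ : Additive ↥(Gamma0 N) →+ ℤ) γ := by
    simp
  have e2 : (((m * c) • ψ' : S31Lat N) : Additive ↥(Gamma0 N) →+ ℤ) γ
      = (c : ℤ) * ((m : ℤ) * (ψ' : Additive ↥(Gamma0 N) →+ ℤ) γ) := by
    simp
    ring
  have e3 : ((m • ψ' : S31Lat N) : Additive ↥(Gamma0 N) →+ ℤ) γ
      = (m : ℤ) * (ψ' : Additive ↥(Gamma0 N) →+ ℤ) γ := by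
    simp
  rw [e1, e2] at h1
  rw [e3]
  have hc' : (c : ℤ) ≠ 0 := by exact_mod_cast hc
  exact mul_left_cancel₀ hc' h1

set_option maxHeartbeats 1600000 in
/-- **Unipotent CORE from weak unipotency** (no divisibility of `J₀(N)`): apply the abstract
core to the subgroup `p ^ a • J₀(N)`. -/
theorem unipotentCore_of_weak (hp : p.Prime) (hpS : p ∈ S)
    (hNS : ∀ q : ℕ, q.Prime → q ∣ N → q ∈ S)
    (hU : Fermat.Agent.H22.ES.TorsionUnramifiedStatement N)
    (hG : Fermat.Agent.H36.HeckeGaloisTorsionStatement N)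
    (hES : Fermat.Agent.H36.EichlerShimuraRelStatement N)
    (hL : TorsionLevelStatement N) (hK : KummerEmbeddingStatement N)
    (hC : CohFaithfulStatement N S) (hLat : LatticeBoundStatement)
    (q : ℕ) {c : ℕ} (hc : c ≠ 0) (hW : WeakUnipotentAt N q p c) :
    UnipotentCoreStatement p N S (s34Inertia q) := by
  have hpa : p ^ (c.factorization p) ≠ 0 := pow_ne_zero _ hp.ne_zero
  letI actI : DistribMulAction S31GQ ↥(mulRange (JZero N) (p ^ (c.factorization p))) :=
    mulRangeAction S31GQ (J := JZero N) (p ^ (c.factorization p))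
  refine unipotentCore_of_abstract (J := ↥(mulRange (JZero N) (p ^ (c.factorization p))))
    (T := fun ℓ => mulRangeEnd (p ^ (c.factorization p)) (heckeOperatorBar N ℓ))
    (s34Inertia q) hp hpS hNS ?_ ?_ ?_ ?_ ?_ hC hLat ?_
  · -- unramified
    intro ℓ hℓ hℓN m hm hℓm A hA σ hσ x hx
    apply Subtype.ext
    rw [coe_mulRangeAction_smul]
    exact hU ℓ hℓ hℓN m hm hℓm A hA σ hσ (x : JZero N) (coe_nsmul_eq_zero_of_mulRange hx)
  · -- Hecke / Galois
    intro ℓ hℓ hℓN σ n hn x hx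
    apply Subtype.ext
    rw [coe_mulRangeEnd, coe_mulRangeAction_smul, coe_mulRangeAction_smul, coe_mulRangeEnd]
    exact hG ℓ hℓ hℓN σ n hn (x : JZero N) (coe_nsmul_eq_zero_of_mulRange hx)
  · -- Eichler-Shimura
    intro ℓ hℓ hℓN n hn hℓn A hA σ hσ x hx
    apply Subtype.ext
    rw [coe_mulRange_es, AddSubgroup.coe_zero]
    exact hES ℓ hℓ hℓN n hn hℓn A hA σ hσ (x : JZero N) (coe_nsmul_eq_zero_of_mulRange hx)
  · -- finite level
    intro m hm
    obtain ⟨L, hLfin, hLfix⟩ := hL m hm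
    refine ⟨L, hLfin, fun σ hσ x hx => ?_⟩
    apply Subtype.ext
    rw [coe_mulRangeAction_smul]
    exact hLfix σ hσ (x : JZero N) (coe_nsmul_eq_zero_of_mulRange hx)
  · -- Kummer embedding
    intro m hm
    have hmpos : 0 < m * p ^ (c.factorization p) := Nat.mul_pos hm (Nat.pos_of_ne_zero hpa)
    obtain ⟨κ, hκtors, hκker, hκT⟩ := hK (m * p ^ (c.factorization p)) hmpos
    obtain ⟨κ₁, hκ₁⟩ := exists_mulRange_hom (p ^ (c.factorization p)) κ
    refine ⟨κ₁, ?_, ?_, ?_⟩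
    · intro ψ
      apply Subtype.ext
      rw [AddSubgroup.coe_nsmul, hκ₁, ← mul_smul, AddSubgroup.coe_zero]
      exact hκtors ψ
    · intro ψ hψ
      have h1 : p ^ (c.factorization p) • κ ψ = 0 := by
        rw [← hκ₁, hψ, AddSubgroup.coe_zero]
      rw [← map_nsmul] at h1
      obtain ⟨ψ', hψ'⟩ := hκker _ h1
      exact ⟨ψ', s31Lat_eq_nsmul_of_nsmul_eq hpa hψ'⟩
    · intro ℓ hℓ hℓN ψ ψ' hψ
      apply Subtype.ext
      rw [hκ₁ ψ', hκT ℓ hℓ hℓN ψ ψ' hψ, ← map_nsmul, ← hκ₁ ψ]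
      rfl
  · -- unipotency on the subgroup
    rintro s ⟨B, hB, hs⟩ n x hx
    obtain ⟨x₀, hx₀⟩ := mem_mulRange.1 x.2
    apply Subtype.ext
    have hz : p ^ n • (p ^ (c.factorization p) • x₀) = 0 := by
      rw [hx₀]
      exact coe_nsmul_eq_zero_of_mulRange hx
    have key := sqDiff_eq_zero_of_weak hp hc s (fun k y hy => hW B hB s hs k y hy) n x₀ hz
    rw [hx₀] at key
    rw [coe_mulRange_sqDiff, AddSubgroup.coe_zero]
    exact key

/-- **Unipotent CORE from the auxiliary level.** -/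
theorem unipotentCore_of_aux (hAux : UnipotentTorsionAuxStatement)
    (hp : p.Prime) (hpS : p ∈ S)
    (hNS : ∀ q : ℕ, q.Prime → q ∣ N → q ∈ S)
    (hU : Fermat.Agent.H22.ES.TorsionUnramifiedStatement N)
    (hG : Fermat.Agent.H36.HeckeGaloisTorsionStatement N)
    (hES : Fermat.Agent.H36.EichlerShimuraRelStatement N)
    (hL : TorsionLevelStatement N) (hK : KummerEmbeddingStatement N)
    (hC : CohFaithfulStatement N S) (hLat : LatticeBoundStatement)
    (q : ℕ) (hq : q.Prime) (hqp : q ≠ p) (hqN : q ∣ N) (hq2 : ¬ q ^ 2 ∣ N) :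
    UnipotentCoreStatement p N S (s34Inertia q) := by
  obtain ⟨c, hc, hW⟩ := weakUnipotentAt_of_aux hAux N hq hp hqp hqN hq2
  exact unipotentCore_of_weak hp hpS hNS hU hG hES hL hK hC hLat q hc hW

/-- **S34 from the auxiliary level**: the frozen statement S34 from Frobenius-power density,
the torsion package of `J₀(N)` (as for S31) and unipotent inertia on the torsion of the
Jacobians of AUXILIARY level only. -/
theorem s34_of_aux (hAux : UnipotentTorsionAuxStatement)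
    (hFrob : Fermat.Agent.H72.FrobPowStatement)
    (hU : Fermat.Agent.H22.ES.TorsionUnramifiedStatement N)
    (hG : Fermat.Agent.H36.HeckeGaloisTorsionStatement N)
    (hES : Fermat.Agent.H36.EichlerShimuraRelStatement N)
    (hL : TorsionLevelStatement N) (hK : KummerEmbeddingStatement N)
    (hC : CohFaithfulStatement N S) (hLat : LatticeBoundStatement)
    {𝒪 : Type} [CommRing 𝒪] [IsDomain 𝒪] [IsDiscreteValuationRing 𝒪]
    [IsAdicComplete (IsLocalRing.maximalIdeal 𝒪) 𝒪]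
    (hp : p.Prime) (hp𝒪 : (p : 𝒪) ∈ IsLocalRing.maximalIdeal 𝒪)
    (hpS : p ∈ S) (hNS : ∀ q : ℕ, q.Prime → q ∣ N → q ∈ S)
    {θ : CuspForm.heckeAlgebra N 2 (↑S : Set ℕ) →+* IsLocalRing.ResidueField 𝒪}
    {T : Type} [CommRing T] [IsLocalRing T] [IsNoetherianRing T]
    [IsAdicComplete (IsLocalRing.maximalIdeal T) T] [Algebra 𝒪 T] [IsLocalHom (algebraMap 𝒪 T)]
    [Module.Finite 𝒪 T] [Module.Free 𝒪 T]
    (H : CuspForm.HeckeGaloisRepDatum N (↑S : Set ℕ) 𝒪 θ T)
    (q : ℕ) (hq : q.Prime) (hqp : q ≠ p) (hqN : q ∣ N) (hq2 : ¬ q ^ 2 ∣ N) :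
    H.ρ.IsUnipotentOnInertiaAt q :=
  s34_of_unipotentCore hFrob hp hp𝒪 hpS hNS H q hq hqp
    (unipotentCore_of_aux hAux hp hpS hNS hU hG hES hL hK hC hLat q hq hqp hqN hq2)

end Core

end Fermat.Agent.H71.SS
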