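/-
helper71, P-SS block [B]-abstract (the EASY HALF), Mathlib only.

`F` a field, `V` a valuation subring (in the application: one of the two Gauss valuations
`v_∞`, `v_0 = v_∞ ∘ W_q` of the function field of `X₀(qM)` over a finite extension of `ℚ_q`),
`σ, τ` automorphisms of `F` (in the application: elements of the inertia group acting on the
coefficients).

* `secondDiff_sub_one_mem_nonunits`: if `σ` is trivial on the residue field of `V` and `τ`
  preserves the valuation, then the SECOND DIFFERENCE `g = στ(f) · f / (σ(f) · τ(f))` is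
  congruent to `1` modulo the maximal ideal of `V`, for every `f ≠ 0`.
* `frobDiff_sub_one_mem_nonunits`: if moreover `f = c · u` with `u` a `V`-unit and `c` a
  "constant" whose multiplier `ξ = σ(c)/c` is a unit with `φ(ξ) ≡ ξ ^ Q` (Frobenius on the
  constants), `φ` preserving the maximal ideal, then `φ(g₁) / g₁ ^ Q ≡ 1` for `g₁ = σ(f)/f`.
* `firstDiff_eq_const_mul`: the single difference `σ(f)/f` is `ξ · (1 + ε)`.
-/
import Mathlib

set_option linter.unusedSectionVars false
set_option linter.unusedVariables false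

namespace Fermat.Agent.H71.SS

variable {F : Type*} [Field F]

/-- Elements congruent to `1` modulo the maximal ideal have valuation `1`. -/
theorem valuation_eq_one_of_sub_one_mem_nonunits (V : ValuationSubring F) {x : F}
    (hx : x - 1 ∈ V.nonunits) : V.valuation x = 1 := by
  have h1 : V.valuation (x - 1) < 1 := V.mem_nonunits_iff.1 hx
  have h2 : V.valuation (x - 1) < V.valuation (1 : F) := by rwa [map_one]
  have h3 := Valuation.map_add_eq_of_lt_left V.valuation h2 (x := (1 : F)) (y := x - 1)
  have : (1 : F) + (x - 1) = x := by ring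
  rw [this, map_one] at h3
  exact h3

/-- Products of elements congruent to `1` are congruent to `1`. -/
theorem mul_sub_one_mem_nonunits (V : ValuationSubring F) {x y : F}
    (hx : x - 1 ∈ V.nonunits) (hy : y - 1 ∈ V.nonunits) : x * y - 1 ∈ V.nonunits := by
  have hxv := valuation_eq_one_of_sub_one_mem_nonunits V hx
  rw [V.mem_nonunits_iff] at hx hy ⊢
  have : x * y - 1 = x * (y - 1) + (x - 1) := by ring
  rw [this]
  refine lt_of_le_of_lt (Valuation.map_add _ _ _) (max_lt ?_ hx)
  rw [map_mul, hxv, one_mul]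
  exact hy

/-- Inverses of elements congruent to `1` are congruent to `1`. -/
theorem inv_sub_one_mem_nonunits (V : ValuationSubring F) {x : F}
    (hx : x - 1 ∈ V.nonunits) : x⁻¹ - 1 ∈ V.nonunits := by
  have hxv := valuation_eq_one_of_sub_one_mem_nonunits V hx
  have hx0 : x ≠ 0 := by
    intro h
    rw [h, map_zero] at hxv
    exact zero_ne_one hxv
  rw [V.mem_nonunits_iff] at hx ⊢
  have : x⁻¹ - 1 = -(x⁻¹ * (x - 1)) := by
    field_simp
    ring
  rw [this, Valuation.map_neg, map_mul, map_inv₀, hxv, inv_one, one_mul]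
  exact hx

/-- Quotients of elements congruent to `1` are congruent to `1`. -/
theorem div_sub_one_mem_nonunits (V : ValuationSubring F) {x y : F}
    (hx : x - 1 ∈ V.nonunits) (hy : y - 1 ∈ V.nonunits) : x / y - 1 ∈ V.nonunits := by
  rw [div_eq_mul_inv]
  exact mul_sub_one_mem_nonunits V hx (inv_sub_one_mem_nonunits V hy)

/-- Powers of elements congruent to `1` are congruent to `1`. -/
theorem pow_sub_one_mem_nonunits (V : ValuationSubring F) {x : F}
    (hx : x - 1 ∈ V.nonunits) (n : ℕ) (hn : n ≠ 0) : x ^ n - 1 ∈ V.nonunits := by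
  induction n with
  | zero => exact absurd rfl hn
  | succ k ih =>
    by_cases hk : k = 0
    · subst hk; simpa using hx
    · rw [pow_succ]
      exact mul_sub_one_mem_nonunits V (ih hk) hx

/-- If `σ` moves every integral element by an element of the maximal ideal (i.e. `σ` preserves
`V` and acts trivially on its residue field), then `σ(h)/h ≡ 1` for every unit `h`. -/
theorem map_div_self_sub_one_mem_nonunits (V : ValuationSubring F) (σ : F ≃+* F)
    (hσ : ∀ x ∈ V, σ x - x ∈ V.nonunits) {h : F} (hh : V.valuation h = 1) :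
    σ h / h - 1 ∈ V.nonunits := by
  have hh0 : h ≠ 0 := by
    intro h0
    rw [h0, map_zero] at hh
    exact zero_ne_one hh
  have hhV : h ∈ V := by
    rw [← V.valuation_le_one_iff, hh]
  have h1 := hσ h hhV
  rw [V.mem_nonunits_iff] at h1 ⊢
  have : σ h / h - 1 = (σ h - h) * h⁻¹ := by
    field_simp
  rw [this, map_mul, map_inv₀, hh, inv_one, mul_one]
  exact h1

/-- **Block [B], second difference.**  If `σ` acts trivially on the residue field of `V` and
`τ` preserves the valuation of `f`, then
`g = στ(f) · f / (σ(f) · τ(f)) ≡ 1` modulo the maximal ideal of `V`. -/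
theorem secondDiff_sub_one_mem_nonunits (V : ValuationSubring F) (σ τ : F ≃+* F)
    (hσ : ∀ x ∈ V, σ x - x ∈ V.nonunits)
    {f : F} (hf : f ≠ 0) (hτ : V.valuation (τ f) = V.valuation f) :
    σ (τ f) * f / (σ f * τ f) - 1 ∈ V.nonunits := by
  have hτf : τ f ≠ 0 := by simpa using hf
  have hσf : σ f ≠ 0 := by simpa using hf
  have hvf : V.valuation f ≠ 0 := (Valuation.ne_zero_iff _).2 hf
  have hh : V.valuation (τ f / f) = 1 := by
    rw [map_div₀, hτ, div_self hvf]
  have key := map_div_self_sub_one_mem_nonunits V σ hσ hh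
  have : σ (τ f) * f / (σ f * τ f) = σ (τ f / f) / (τ f / f) := by
    rw [map_div₀]
    field_simp
  rw [this]
  exact key

/-- The second difference is symmetric in `σ, τ` when they commute on `f`; this version has the
valuation hypothesis on `τ` for all elements. -/
theorem secondDiff_sub_one_mem_nonunits' (V : ValuationSubring F) (σ τ : F ≃+* F)
    (hσ : ∀ x ∈ V, σ x - x ∈ V.nonunits)
    (hτ : ∀ x : F, V.valuation (τ x) = V.valuation x)
    {f : F} (hf : f ≠ 0) :
    σ (τ f) * f / (σ f * τ f) - 1 ∈ V.nonunits :=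
  secondDiff_sub_one_mem_nonunits V σ τ hσ hf (hτ f)

/-- The single difference: if `f = c * u` with `u` a unit of `V`, then
`σ(f)/f = ξ · w` with `ξ = σ(c)/c` and `w ≡ 1`. -/
theorem firstDiff_eq_const_mul (V : ValuationSubring F) (σ : F ≃+* F)
    (hσ : ∀ x ∈ V, σ x - x ∈ V.nonunits)
    {c u : F} (hc : c ≠ 0) (hu : V.valuation u = 1) :
    ∃ w : F, w - 1 ∈ V.nonunits ∧ σ (c * u) / (c * u) = σ c / c * w := by
  have hu0 : u ≠ 0 := by
    intro h0
    rw [h0, map_zero] at hu
    exact zero_ne_one hu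
  refine ⟨σ u / u, map_div_self_sub_one_mem_nonunits V σ hσ hu, ?_⟩
  rw [map_mul]
  field_simp

/-- **Block [B], Frobenius variant.**  `f = c · u`, `u` a `V`-unit, `ξ = σ(c)/c` with
`φ(ξ)/ξ^Q ≡ 1`, `φ` mapping the maximal ideal into itself.  Then for `g₁ = σ(f)/f`:
`φ(g₁) / g₁ ^ Q ≡ 1`. -/
theorem frobDiff_sub_one_mem_nonunits (V : ValuationSubring F) (σ φ : F ≃+* F)
    (hσ : ∀ x ∈ V, σ x - x ∈ V.nonunits)
    (hφ : ∀ x ∈ V.nonunits, φ x ∈ V.nonunits)
    {Q : ℕ} (hQ : Q ≠ 0)
    {c u : F} (hc : c ≠ 0) (hu : V.valuation u = 1)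
    (hξ : φ (σ c / c) / (σ c / c) ^ Q - 1 ∈ V.nonunits) :
    φ (σ (c * u) / (c * u)) / (σ (c * u) / (c * u)) ^ Q - 1 ∈ V.nonunits := by
  obtain ⟨w, hw, hfw⟩ := firstDiff_eq_const_mul V σ hσ hc hu
  rw [hfw]
  have hσc : σ c ≠ 0 := by simpa using hc
  have hξ0 : σ c / c ≠ 0 := div_ne_zero hσc hc
  have hw1 := valuation_eq_one_of_sub_one_mem_nonunits V hw
  have hw0 : w ≠ 0 := by
    intro h0
    rw [h0, map_zero] at hw1
    exact zero_ne_one hw1
  have hφw : φ w - 1 ∈ V.nonunits := by
    have := hφ _ hw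
    rwa [map_sub, map_one] at this
  have hwQ : w ^ Q - 1 ∈ V.nonunits := pow_sub_one_mem_nonunits V hw Q hQ
  have h2 : φ w / w ^ Q - 1 ∈ V.nonunits := div_sub_one_mem_nonunits V hφw hwQ
  have : φ (σ c / c * w) / (σ c / c * w) ^ Q
      = (φ (σ c / c) / (σ c / c) ^ Q) * (φ w / w ^ Q) := by
    rw [map_mul, mul_pow]
    field_simp
  rw [this]
  exact mul_sub_one_mem_nonunits V hξ h2

end Fermat.Agent.H71.SS
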