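/-
helper71, P-SS / S35, block (KT), row KT-C3 (FROB), input (KR): KRONECKER'S CONGRUENCES in the
language of `Fermat.Agent.H55.SS.KTModel`.

Level `M q`, `K₁` a field, `A₀` a valuation ring of `K₁` with residue characteristic `q`,
`φ₁` a Frobenius lift (`IsModelFrobenius K₁ A₀ q φ₁`), `Φ = modelSigma φ₁` (coefficientwise),
`α`, `β` the two degeneracy maps, `V' = ktV M`, `V_∞ = ktV (M q)`, `V_0 = ktV0 M q W`.

* `ktk_laurent_frob` : Frobenius on Laurent series over a ring of characteristic `q`: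
  `g(t) ^ q = (Frob g)(t ^ q)`.
* `ktk_coeff_mem`, `ktk_qExpand_mem`, `ktk_twist_mem` : the coefficientwise action of `φ₁`, the
  substitution `t ↦ t ^ q`, and their composite on helper66's Gauss ring, with their reductions.
* `ktk_mem_nonunits_mgVal`, `ktk_red_eq_zero_of_mem_nonunits` : the maximal ideal of the Gauss
  valuation ring of the model field is the kernel of the reduction map.
* `ktKronecker_inf` : **(KR-∞)** `α(h) ^ q ≡ β(Φ h)` modulo `𝔪_{V_∞}` for `h ∈ V'`.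
* `ktKronecker_zero` : **(KR-0)** `β(h) ^ q ≡ α(Φ h)` modulo `𝔪_{V_0}` for `h ∈ V'`.
* `ktk_sigma_mem` : `Φ` preserves `V'`.
* `ktKronecker_twice` : for `h ∈ V'` with `α h`, `β (Φ h)`, `α (Φ² h) ∈ B(y)`, the element
  `α h` is Frobenius compatible (`Fermat.Agent.H71.SS.ChartFrobCompat`, `Q = q²`) at every closed
  point of `B(y)` through which `V_∞` and `V_0` pass.
-/
import Fermat.Agent.H55.SS.KTModel
import Fermat.Agent.H42.KroneckerFormal
import Fermat.Agent.H71.SS.FrobNode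

set_option autoImplicit false
set_option linter.unusedSectionVars false
set_option linter.unusedVariables false
set_option linter.style.haveILetI false

noncomputable section

namespace Fermat.Agent.H71.SS

open ModularCurve AlgebraicCurve
open Fermat.Agent.H22.KL Fermat.Agent.H66 Fermat.Agent.H55.SS Fermat.Agent.H82.SS
open Fermat.Agent.H11.SS2

/-! ## Frobenius on Laurent series -/

section Frob

variable {k : Type*} [CommRing k] (q : ℕ) [hq : Fact q.Prime] [CharP k q]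

/-- Frobenius on power series over a ring of characteristic `q`. -/
theorem ktk_powerSeries_frob (f : PowerSeries k) :
    PowerSeries.expand q hq.out.ne_zero (PowerSeries.map (frobenius k q) f) = f ^ q := by
  rw [← PowerSeries.map_expand]
  exact MvPowerSeries.map_frobenius_expand (σ := Unit) (R := k) q hq.out.ne_zero (f := f)

/-- **Frobenius on Laurent series** over a ring of characteristic `q`:
`(Frob g)(t ^ q) = g(t) ^ q`. -/
theorem ktk_laurent_frob [NeZero q] (g : LaurentSeries k) :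
    qExpand k q (coeffMap (frobenius k q) g) = g ^ q := by
  have hx := LaurentSeries.single_order_mul_powerSeriesPart g
  conv_lhs => rw [← hx]
  conv_rhs => rw [← hx]
  rw [map_mul, map_mul, coeffMap_single, map_one, qExpand_single, coeffMap_ofPowerSeries,
    Fermat.Agent.H42.qExpand_ofPowerSeries_eq_expand, ktk_powerSeries_frob, mul_pow,
    HahnSeries.single_pow, one_pow, map_pow, nsmul_eq_mul]

end Frob

/-! ## Twists of the Gauss ring -/

section Gauss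

variable {L : Type*} [Field L] (A : ValuationSubring L)

theorem ktk_coeffMap_injective {R S : Type*} [CommRing R] [CommRing S] (ψ : R →+* S)
    (hψ : Function.Injective ψ) : Function.Injective (coeffMap ψ) := by
  intro x y hxy
  refine HahnSeries.ext (funext fun m => ?_)
  have h1 := congrArg (fun z : LaurentSeries S => z.coeff m) hxy
  simp only [coeffMap_coeff] at h1
  exact hψ h1

theorem ktk_vIota_coeffMap (φ : L →+* L) (hφ : ∀ c ∈ A, φ c ∈ A) (a : LaurentSeries ↥A) :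
    coeffMap φ (vIota A a) = vIota A (coeffMap (RingHom.restrict φ A A hφ) a) := by
  refine HahnSeries.ext (funext fun m => ?_)
  rfl

theorem ktk_vRho_coeffMap (φ : L →+* L) (hφ : ∀ c ∈ A, φ c ∈ A)
    (ψ : IsLocalRing.ResidueField ↥A →+* IsLocalRing.ResidueField ↥A)
    (hψ : ∀ c : ↥A, IsLocalRing.residue ↥A (RingHom.restrict φ A A hφ c) =
      ψ (IsLocalRing.residue ↥A c)) (a : LaurentSeries ↥A) :
    vRho A (coeffMap (RingHom.restrict φ A A hφ) a) = coeffMap ψ (vRho A a) := by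
  refine HahnSeries.ext (funext fun m => ?_)
  show IsLocalRing.residue ↥A (RingHom.restrict φ A A hφ (a.coeff m)) =
    ψ (IsLocalRing.residue ↥A (a.coeff m))
  exact hψ _

/-- The coefficientwise action of a ring homomorphism preserving `A` on the Gauss ring. -/
theorem ktk_coeff_mem (φ : L →+* L) (hφ : ∀ c ∈ A, φ c ∈ A)
    (ψ : IsLocalRing.ResidueField ↥A →+* IsLocalRing.ResidueField ↥A)
    (hψ : ∀ c : ↥A, IsLocalRing.residue ↥A (RingHom.restrict φ A A hφ c) =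
      ψ (IsLocalRing.residue ↥A c))
    {x : LaurentSeries L} (hx : x ∈ vGaussRing A) :
    ∃ h : coeffMap φ x ∈ vGaussRing A,
      vGaussRed A ⟨_, h⟩ = coeffMap ψ (vGaussRed A ⟨x, hx⟩) := by
  obtain ⟨a, b, hb, hab⟩ := hx
  have hb' : vRho A (coeffMap (RingHom.restrict φ A A hφ) b) ≠ 0 := by
    rw [ktk_vRho_coeffMap A φ hφ ψ hψ]
    intro h0
    apply hb
    apply ktk_coeffMap_injective ψ ψ.injective
    rw [h0, map_zero]
  have hab' : coeffMap φ x * vIota A (coeffMap (RingHom.restrict φ A A hφ) b) =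
      vIota A (coeffMap (RingHom.restrict φ A A hφ) a) := by
    rw [← ktk_vIota_coeffMap, ← ktk_vIota_coeffMap, ← map_mul, hab]
  have hmem : coeffMap φ x ∈ vGaussRing A :=
    ⟨coeffMap (RingHom.restrict φ A A hφ) a, coeffMap (RingHom.restrict φ A A hφ) b, hb', hab'⟩
  refine ⟨hmem, ?_⟩
  have e1 := vGaussRed_eq A ⟨coeffMap φ x, hmem⟩ _ _ hb' hab'
  have e2 := vGaussRed_eq A ⟨x, ⟨a, b, hb, hab⟩⟩ a b hb hab
  rw [e1, e2, ktk_vRho_coeffMap A φ hφ ψ hψ, ktk_vRho_coeffMap A φ hφ ψ hψ, map_div₀]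

/-- The substitution `t ↦ t ^ n` on the Gauss ring. -/
theorem ktk_qExpand_mem (n : ℕ) [NeZero n] {x : LaurentSeries L} (hx : x ∈ vGaussRing A) :
    ∃ h : qExpand L n x ∈ vGaussRing A,
      vGaussRed A ⟨_, h⟩ = qExpand (IsLocalRing.ResidueField ↥A) n (vGaussRed A ⟨x, hx⟩) := by
  obtain ⟨a, b, hb, hab⟩ := hx
  have hI : ∀ c : LaurentSeries ↥A, vIota A (qExpand ↥A n c) = qExpand L n (vIota A c) :=
    fun c => coeffMap_qExpand _ n c
  have hR : ∀ c : LaurentSeries ↥A, vRho A (qExpand ↥A n c) =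
      qExpand (IsLocalRing.ResidueField ↥A) n (vRho A c) :=
    fun c => coeffMap_qExpand _ n c
  have hb' : vRho A (qExpand ↥A n b) ≠ 0 := by
    rw [hR]
    intro h0
    apply hb
    apply (qExpand (IsLocalRing.ResidueField ↥A) n).injective
    rw [h0, map_zero]
  have hab' : qExpand L n x * vIota A (qExpand ↥A n b) = vIota A (qExpand ↥A n a) := by
    rw [hI, hI, ← map_mul, hab]
  have hmem : qExpand L n x ∈ vGaussRing A := ⟨qExpand ↥A n a, qExpand ↥A n b, hb', hab'⟩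
  refine ⟨hmem, ?_⟩
  have e1 := vGaussRed_eq A ⟨qExpand L n x, hmem⟩ _ _ hb' hab'
  have e2 := vGaussRed_eq A ⟨x, ⟨a, b, hb, hab⟩⟩ a b hb hab
  rw [e1, e2, hR, hR, map_div₀]

/-- **The Frobenius twist on the Gauss ring**: if `φ` preserves `A` and induces the `q`-power
map on the residue field (of characteristic `q`), then `x ↦ (φ x)(t ^ q)` preserves the Gauss
ring and induces the `q`-power map on reductions. -/
theorem ktk_twist_mem (q : ℕ) [NeZero q] [hq : Fact q.Prime]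
    [CharP (IsLocalRing.ResidueField ↥A) q]
    (φ : L →+* L) (hφ : ∀ c ∈ A, φ c ∈ A)
    (hψ : ∀ c : ↥A, IsLocalRing.residue ↥A (RingHom.restrict φ A A hφ c) =
      (IsLocalRing.residue ↥A c) ^ q)
    {x : LaurentSeries L} (hx : x ∈ vGaussRing A) :
    ∃ h : qExpand L q (coeffMap φ x) ∈ vGaussRing A,
      vGaussRed A ⟨_, h⟩ = (vGaussRed A ⟨x, hx⟩) ^ q := by
  obtain ⟨h1, hr1⟩ := ktk_coeff_mem A φ hφ (frobenius (IsLocalRing.ResidueField ↥A) q)
    (fun c => by rw [hψ c, frobenius_def]) hx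
  obtain ⟨h2, hr2⟩ := ktk_qExpand_mem A q h1
  refine ⟨h2, ?_⟩
  rw [hr2, hr1, ktk_laurent_frob]

/-- **Kronecker on the Gauss ring**: `x ^ q - (φ x)(t ^ q)` lies in the kernel of the
reduction. -/
theorem ktk_twist_sub (q : ℕ) [NeZero q] [hq : Fact q.Prime]
    [CharP (IsLocalRing.ResidueField ↥A) q]
    (φ : L →+* L) (hφ : ∀ c ∈ A, φ c ∈ A)
    (hψ : ∀ c : ↥A, IsLocalRing.residue ↥A (RingHom.restrict φ A A hφ c) =
      (IsLocalRing.residue ↥A c) ^ q)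
    {x : LaurentSeries L} (hx : x ∈ vGaussRing A) :
    ∃ h : x ^ q - qExpand L q (coeffMap φ x) ∈ vGaussRing A, vGaussRed A ⟨_, h⟩ = 0 := by
  obtain ⟨h1, hr1⟩ := ktk_twist_mem A q φ hφ hψ hx
  refine ⟨sub_mem (pow_mem hx q) h1, ?_⟩
  have e : (⟨x ^ q - qExpand L q (coeffMap φ x), sub_mem (pow_mem hx q) h1⟩ : vGaussRing A) =
      (⟨x, hx⟩ : vGaussRing A) ^ q - ⟨_, h1⟩ := by
    apply Subtype.ext
    rfl
  rw [e, map_sub, map_pow, hr1, sub_self]

end Gauss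

/-! ## The Gauss valuation ring of the model field -/

section Model

variable {K₁ : Type} [Field K₁] [Algebra ℚ K₁]

/-- The kernel of the reduction map lies in the maximal ideal of the Gauss valuation ring. -/
theorem ktk_mem_nonunits_mgVal (A₁ : ValuationSubring K₁) (N : ℕ) (f : ModelField K₁ N)
    (hf : (f : LaurentSeries K₁) ∈ vGaussRing A₁) (hred : vGaussRed A₁ ⟨_, hf⟩ = 0) :
    f ∈ (Fermat.Agent.H65.mgVal A₁ N).nonunits := by
  rw [ValuationSubring.mem_nonunits_iff_or]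
  by_cases h0 : f = 0
  · exact Or.inl h0
  right
  intro hinv
  have hinv' : ((f⁻¹ : ModelField K₁ N) : LaurentSeries K₁) ∈ vGaussRing A₁ := hinv
  have h1 : (⟨_, hf⟩ : vGaussRing A₁) * ⟨_, hinv'⟩ = 1 := by
    apply Subtype.ext
    show (f : LaurentSeries K₁) * ((f⁻¹ : ModelField K₁ N) : LaurentSeries K₁) = 1
    have h2 : f * f⁻¹ = 1 := mul_inv_cancel₀ h0
    have h3 := congrArg (fun z : ModelField K₁ N => (z : LaurentSeries K₁)) h2
    exact h3
  have h4 := congrArg (vGaussRed A₁) h1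
  rw [map_mul, hred, zero_mul, map_one] at h4
  exact zero_ne_one h4

/-- The maximal ideal of the Gauss valuation ring is the kernel of the reduction map. -/
theorem ktk_red_eq_zero_of_mem_nonunits (A₁ : ValuationSubring K₁) (N : ℕ) (f : ModelField K₁ N)
    (hf : f ∈ (Fermat.Agent.H65.mgVal A₁ N).nonunits) :
    ∃ h : (f : LaurentSeries K₁) ∈ vGaussRing A₁, vGaussRed A₁ ⟨_, h⟩ = 0 := by
  have hmem : f ∈ Fermat.Agent.H65.mgVal A₁ N := ValuationSubring.nonunits_le hf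
  refine ⟨hmem, ?_⟩
  by_contra hne
  rw [ValuationSubring.mem_nonunits_iff_or] at hf
  rcases hf with h0 | hinv
  · apply hne
    have : (⟨(f : LaurentSeries K₁), hmem⟩ : vGaussRing A₁) = 0 := by
      apply Subtype.ext
      show (f : LaurentSeries K₁) = 0
      rw [h0]
      rfl
    rw [this, map_zero]
  · exact hinv (inv_mem_vGaussRing A₁ (x := ⟨_, hmem⟩) hne)

variable (A₀ : Type) [CommRing A₀] [IsDomain A₀] [ValuationRing A₀] [Algebra A₀ K₁]
  [IsFractionRing A₀ K₁]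

/-- A model Frobenius preserves `A₁ = rangeVal A₀ K₁`. -/
theorem ktk_frob_mem {q : ℕ} {φ₁ : K₁ ≃ₐ[ℚ] K₁} (hφ : IsModelFrobenius K₁ A₀ q φ₁) :
    ∀ c ∈ rangeVal A₀ K₁, (φ₁ : K₁ →+* K₁) c ∈ rangeVal A₀ K₁ := by
  rintro c ⟨a, rfl⟩
  obtain ⟨b, hb, -⟩ := hφ a
  exact ⟨b, hb⟩

/-- A model Frobenius induces the `q`-power map on the residue field of `A₁`. -/
theorem ktk_frob_residue {q : ℕ} {φ₁ : K₁ ≃ₐ[ℚ] K₁} (hφ : IsModelFrobenius K₁ A₀ q φ₁)
    (c : ↥(rangeVal A₀ K₁)) :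
    IsLocalRing.residue ↥(rangeVal A₀ K₁)
      (RingHom.restrict (φ₁ : K₁ →+* K₁) (rangeVal A₀ K₁) (rangeVal A₀ K₁)
        (ktk_frob_mem A₀ hφ) c) = (IsLocalRing.residue ↥(rangeVal A₀ K₁) c) ^ q := by
  obtain ⟨a, rfl⟩ := toRangeVal_surjective A₀ K₁ c
  obtain ⟨b, hb, hnu⟩ := hφ a
  have e : RingHom.restrict (φ₁ : K₁ →+* K₁) (rangeVal A₀ K₁) (rangeVal A₀ K₁)
      (ktk_frob_mem A₀ hφ) (toRangeVal A₀ K₁ a) = toRangeVal A₀ K₁ b := by
    apply Subtype.ext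
    show φ₁ (algebraMap A₀ K₁ a) = algebraMap A₀ K₁ b
    exact hb.symm
  rw [e, ← map_pow, ← sub_eq_zero, ← map_sub, IsLocalRing.residue_eq_zero_iff,
    IsLocalRing.mem_maximalIdeal, mem_nonunits_iff, ← map_pow, ← map_sub,
    isUnit_toRangeVal_iff]
  exact hnu

/-- The residue field of `A₁` has characteristic `q`. -/
theorem ktk_charP {q : ℕ} (hq : q.Prime) (hqA : ¬ IsUnit ((q : ℕ) : A₀)) :
    CharP (IsLocalRing.ResidueField ↥(rangeVal A₀ K₁)) q := by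
  rw [CharP.charP_iff_prime_eq_zero hq]
  have h1 : ¬ IsUnit (toRangeVal A₀ K₁ ((q : ℕ) : A₀)) := by
    rw [isUnit_toRangeVal_iff]
    exact hqA
  have h2 : IsLocalRing.residue ↥(rangeVal A₀ K₁) (toRangeVal A₀ K₁ ((q : ℕ) : A₀)) = 0 := by
    rw [IsLocalRing.residue_eq_zero_iff, IsLocalRing.mem_maximalIdeal, mem_nonunits_iff]
    exact h1
  rwa [map_natCast, map_natCast] at h2

/-- `Φ = modelSigma φ₁` preserves the Gauss valuation ring. -/
theorem ktk_sigma_mem (N : ℕ) {q : ℕ} (hq : q.Prime) (hqA : ¬ IsUnit ((q : ℕ) : A₀))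
    {φ₁ : K₁ ≃ₐ[ℚ] K₁} (hφ : IsModelFrobenius K₁ A₀ q φ₁)
    {h : ModelField K₁ N} (hh : h ∈ ktV K₁ A₀ N) :
    modelSigma K₁ N φ₁ h ∈ ktV K₁ A₀ N := by
  haveI : Fact q.Prime := ⟨hq⟩
  haveI := ktk_charP (K₁ := K₁) A₀ hq hqA
  obtain ⟨h1, -⟩ := ktk_coeff_mem (rangeVal A₀ K₁) (φ₁ : K₁ →+* K₁) (ktk_frob_mem A₀ hφ)
    (frobenius _ q) (fun c => by rw [ktk_frob_residue A₀ hφ c, frobenius_def]) hh
  exact h1

/-- **(KR-∞) Kronecker's congruence on the component `C_∞`**: `α(h) ^ q ≡ β(Φ h)` modulo the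
maximal ideal of `V_∞`, for every `h` of level `M` with integral `q`-expansion. -/
theorem ktKronecker_inf (M q : ℕ) [NeZero M] [NeZero q] (hq : q.Prime)
    (hqA : ¬ IsUnit ((q : ℕ) : A₀))
    {φ₁ : K₁ ≃ₐ[ℚ] K₁} (hφ : IsModelFrobenius K₁ A₀ q φ₁)
    {h : ModelField K₁ M} (hh : h ∈ ktV K₁ A₀ M) :
    (heckeAlphaBar K₁ M q h) ^ q - heckeBetaBar K₁ M q (modelSigma K₁ M φ₁ h) ∈
      (ktV K₁ A₀ (M * q)).nonunits := by
  haveI : Fact q.Prime := ⟨hq⟩
  haveI := ktk_charP (K₁ := K₁) A₀ hq hqA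
  obtain ⟨h1, hr1⟩ := ktk_twist_sub (rangeVal A₀ K₁) q (φ₁ : K₁ →+* K₁) (ktk_frob_mem A₀ hφ)
    (ktk_frob_residue A₀ hφ) hh
  exact ktk_mem_nonunits_mgVal (rangeVal A₀ K₁) (M * q) _ h1 hr1

/-- **(KR-0) Kronecker's congruence on the component `C_0`**: `β(h) ^ q ≡ α(Φ h)` modulo the
maximal ideal of `V_0 = W⁻¹ V_∞`. -/
theorem ktKronecker_zero (M q : ℕ) [NeZero M] [NeZero q] (hq : q.Prime)
    (hqA : ¬ IsUnit ((q : ℕ) : A₀))
    {W : ModelField K₁ (M * q) ≃ₐ[K₁] ModelField K₁ (M * q)} (hW : IsAtkinLehnerModel K₁ M q W)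
    {φ₁ : K₁ ≃ₐ[ℚ] K₁} (hφ : IsModelFrobenius K₁ A₀ q φ₁)
    {h : ModelField K₁ M} (hh : h ∈ ktV K₁ A₀ M) :
    (heckeBetaBar K₁ M q h) ^ q - heckeAlphaBar K₁ M q (modelSigma K₁ M φ₁ h) ∈
      (ktV0 K₁ A₀ M q W).nonunits := by
  have h1 := ktKronecker_inf A₀ M q hq hqA hφ hh
  have e : W ((heckeBetaBar K₁ M q h) ^ q - heckeAlphaBar K₁ M q (modelSigma K₁ M φ₁ h)) =
      (heckeAlphaBar K₁ M q h) ^ q - heckeBetaBar K₁ M q (modelSigma K₁ M φ₁ h) := by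
    rw [map_sub, map_pow, hW.2, hW.1]
  rw [← e] at h1
  rw [ValuationSubring.mem_nonunits_iff_or] at h1 ⊢
  rcases h1 with h0 | h2
  · left
    exact (map_eq_zero_iff W W.injective).mp h0
  · right
    intro h3
    apply h2
    rw [← map_inv₀]
    exact h3

/-- `Φ = modelSigma φ₁` preserves the maximal ideal of the Gauss valuation ring. -/
theorem ktk_sigma_mem_nonunits (N : ℕ) {q : ℕ} (hq : q.Prime) (hqA : ¬ IsUnit ((q : ℕ) : A₀))
    {φ₁ : K₁ ≃ₐ[ℚ] K₁} (hφ : IsModelFrobenius K₁ A₀ q φ₁)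
    {z : ModelField K₁ N} (hz : z ∈ (ktV K₁ A₀ N).nonunits) :
    modelSigma K₁ N φ₁ z ∈ (ktV K₁ A₀ N).nonunits := by
  haveI : Fact q.Prime := ⟨hq⟩
  haveI := ktk_charP (K₁ := K₁) A₀ hq hqA
  obtain ⟨hmem, hred⟩ := ktk_red_eq_zero_of_mem_nonunits (rangeVal A₀ K₁) N z hz
  obtain ⟨h1, hr1⟩ := ktk_coeff_mem (rangeVal A₀ K₁) (φ₁ : K₁ →+* K₁) (ktk_frob_mem A₀ hφ)
    (frobenius _ q) (fun c => by rw [ktk_frob_residue A₀ hφ c, frobenius_def]) hmem
  refine ktk_mem_nonunits_mgVal (rangeVal A₀ K₁) N _ h1 ?_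
  exact hr1.trans (by rw [hred, map_zero])

/-- `Ψ = modelSigma (φ₁ ∘ φ₁)` is the square of `Φ = modelSigma φ₁`. -/
theorem ktk_psi_apply (N : ℕ) (φ₁ : K₁ ≃ₐ[ℚ] K₁) (z : ModelField K₁ N) :
    modelSigma K₁ N (φ₁.trans φ₁) z = modelSigma K₁ N φ₁ (modelSigma K₁ N φ₁ z) := by
  apply Subtype.ext
  show coeffMap ((φ₁.trans φ₁ : K₁ ≃ₐ[ℚ] K₁) : K₁ →+* K₁) (z : LaurentSeries K₁) =
    coeffMap (φ₁ : K₁ →+* K₁) (coeffMap (φ₁ : K₁ →+* K₁) (z : LaurentSeries K₁))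
  rw [coeffMap_coeffMap]
  exact coeffMap_congr (RingHom.ext fun _ => rfl) _

/-- `Ψ` preserves the maximal ideal of `V_∞`. -/
theorem ktk_psi_mem_nonunits (N : ℕ) {q : ℕ} (hq : q.Prime) (hqA : ¬ IsUnit ((q : ℕ) : A₀))
    {φ₁ : K₁ ≃ₐ[ℚ] K₁} (hφ : IsModelFrobenius K₁ A₀ q φ₁)
    {z : ModelField K₁ N} (hz : z ∈ (ktV K₁ A₀ N).nonunits) :
    modelSigma K₁ N (φ₁.trans φ₁) z ∈ (ktV K₁ A₀ N).nonunits := by
  rw [ktk_psi_apply]
  exact ktk_sigma_mem_nonunits A₀ N hq hqA hφ (ktk_sigma_mem_nonunits A₀ N hq hqA hφ hz)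

/-- The coefficientwise action commutes with `α`. -/
theorem ktk_sigma_alpha (M q : ℕ) [NeZero M] [NeZero q] (σ₁ : K₁ ≃ₐ[ℚ] K₁)
    (h : ModelField K₁ M) :
    modelSigma K₁ (M * q) σ₁ (heckeAlphaBar K₁ M q h) =
      heckeAlphaBar K₁ M q (modelSigma K₁ M σ₁ h) := by
  apply Subtype.ext
  show coeffMap (σ₁ : K₁ →+* K₁) ((heckeAlphaBar K₁ M q h : ModelField K₁ (M * q)) :
      LaurentSeries K₁) =
    ((heckeAlphaBar K₁ M q (modelSigma K₁ M σ₁ h) : ModelField K₁ (M * q)) : LaurentSeries K₁)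
  rw [coe_heckeAlphaBar, coe_heckeAlphaBar]
  rfl

/-- The coefficientwise action commutes with `β`. -/
theorem ktk_sigma_beta (M q : ℕ) [NeZero M] [NeZero q] (σ₁ : K₁ ≃ₐ[ℚ] K₁)
    (h : ModelField K₁ M) :
    modelSigma K₁ (M * q) σ₁ (heckeBetaBar K₁ M q h) =
      heckeBetaBar K₁ M q (modelSigma K₁ M σ₁ h) := by
  apply Subtype.ext
  show coeffMap (σ₁ : K₁ →+* K₁) ((heckeBetaBar K₁ M q h : ModelField K₁ (M * q)) :
      LaurentSeries K₁) =
    ((heckeBetaBar K₁ M q (modelSigma K₁ M σ₁ h) : ModelField K₁ (M * q)) : LaurentSeries K₁)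
  rw [coe_heckeBetaBar, coe_heckeBetaBar, coeffMap_qExpand]
  rfl

/-- **KRONECKER TWICE, `α`-form**: for `h` of level `M` with integral `q`-expansion, `α h` is
Frobenius compatible (`Ψ (α h) ≡ (α h) ^ (q²)`) at every closed point of the chart `B(y)`
through which both `V_∞` and `V_0` pass, as soon as `α h`, `β (Φ h)` and `Ψ (α h)` lie in
`B(y)`. -/
theorem ktKronecker_twice_alpha (M q : ℕ) [NeZero M] [NeZero q] (hq : q.Prime)
    (hqA : ¬ IsUnit ((q : ℕ) : A₀)) [Algebra A₀ (ModelField K₁ (M * q))]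
    {W : ModelField K₁ (M * q) ≃ₐ[K₁] ModelField K₁ (M * q)} (hW : IsAtkinLehnerModel K₁ M q W)
    {φ₁ : K₁ ≃ₐ[ℚ] K₁} (hφ : IsModelFrobenius K₁ A₀ q φ₁)
    (y : ModelField K₁ (M * q)) (𝔪 : Ideal (chartClosure A₀ (ModelField K₁ (M * q)) y))
    (hinf : Through A₀ (ModelField K₁ (M * q)) y 𝔪 (ktV K₁ A₀ (M * q)))
    (hzero : Through A₀ (ModelField K₁ (M * q)) y 𝔪 (ktV0 K₁ A₀ M q W))
    {h : ModelField K₁ M} (hh : h ∈ ktV K₁ A₀ M)
    (hs : heckeAlphaBar K₁ M q h ∈ chartClosure A₀ (ModelField K₁ (M * q)) y)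
    (hs' : heckeBetaBar K₁ M q (modelSigma K₁ M φ₁ h) ∈
      chartClosure A₀ (ModelField K₁ (M * q)) y)
    (hs'' : modelSigma K₁ (M * q) (φ₁.trans φ₁) (heckeAlphaBar K₁ M q h) ∈
      chartClosure A₀ (ModelField K₁ (M * q)) y) :
    ChartFrobCompat A₀ (ModelField K₁ (M * q)) y 𝔪 (modelSigma K₁ (M * q) (φ₁.trans φ₁))
      (q ^ 2) (heckeAlphaBar K₁ M q h) := by
  refine frobNode_kronecker hinf hzero hs hs' hs'' (ktKronecker_inf A₀ M q hq hqA hφ hh) ?_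
  have e : modelSigma K₁ (M * q) (φ₁.trans φ₁) (heckeAlphaBar K₁ M q h) =
      heckeAlphaBar K₁ M q (modelSigma K₁ M φ₁ (modelSigma K₁ M φ₁ h)) := by
    rw [ktk_sigma_alpha, ktk_psi_apply]
  rw [e]
  exact ktKronecker_zero A₀ M q hq hqA hW hφ (ktk_sigma_mem A₀ M hq hqA hφ hh)

/-- **KRONECKER TWICE, `β`-form**: the same for `β h`. -/
theorem ktKronecker_twice_beta (M q : ℕ) [NeZero M] [NeZero q] (hq : q.Prime)
    (hqA : ¬ IsUnit ((q : ℕ) : A₀)) [Algebra A₀ (ModelField K₁ (M * q))]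
    {W : ModelField K₁ (M * q) ≃ₐ[K₁] ModelField K₁ (M * q)} (hW : IsAtkinLehnerModel K₁ M q W)
    {φ₁ : K₁ ≃ₐ[ℚ] K₁} (hφ : IsModelFrobenius K₁ A₀ q φ₁)
    (y : ModelField K₁ (M * q)) (𝔪 : Ideal (chartClosure A₀ (ModelField K₁ (M * q)) y))
    (hinf : Through A₀ (ModelField K₁ (M * q)) y 𝔪 (ktV K₁ A₀ (M * q)))
    (hzero : Through A₀ (ModelField K₁ (M * q)) y 𝔪 (ktV0 K₁ A₀ M q W))
    {h : ModelField K₁ M} (hh : h ∈ ktV K₁ A₀ M)
    (hs : heckeBetaBar K₁ M q h ∈ chartClosure A₀ (ModelField K₁ (M * q)) y)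
    (hs' : heckeAlphaBar K₁ M q (modelSigma K₁ M φ₁ h) ∈
      chartClosure A₀ (ModelField K₁ (M * q)) y)
    (hs'' : modelSigma K₁ (M * q) (φ₁.trans φ₁) (heckeBetaBar K₁ M q h) ∈
      chartClosure A₀ (ModelField K₁ (M * q)) y) :
    ChartFrobCompat A₀ (ModelField K₁ (M * q)) y 𝔪 (modelSigma K₁ (M * q) (φ₁.trans φ₁))
      (q ^ 2) (heckeBetaBar K₁ M q h) := by
  refine frobNode_kronecker hzero hinf hs hs' hs'' (ktKronecker_zero A₀ M q hq hqA hW hφ hh) ?_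
  have e : modelSigma K₁ (M * q) (φ₁.trans φ₁) (heckeBetaBar K₁ M q h) =
      heckeBetaBar K₁ M q (modelSigma K₁ M φ₁ (modelSigma K₁ M φ₁ h)) := by
    rw [ktk_sigma_beta, ktk_psi_apply]
  rw [e]
  exact ktKronecker_inf A₀ M q hq hqA hφ (ktk_sigma_mem A₀ M hq hqA hφ hh)

end Model

end Fermat.Agent.H71.SS
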