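/-
helper71, P-SS / S35, block (KT), row KT-C3 (FROB), input (SM): LEVEL-`M` REGULARITY in the
VALUATION FORM.

Twin of helper41's `Fermat.Agent.H41.SS.modelLevelReg_of_chart` (row 1049, SSH-18): the same
hypotheses, but the output keeps the second half of helper67's `localDVR`, namely
`Fermat.Agent.H67.SS.ValAt` : `(B'(x) / ϖ B'(x))_𝔫` is a valuation ring, at every closed point
`𝔫` of the special fibre of level `M` (`q ∤ M`).

* `ModelLevelValStatement M q x₀ R`, `modelLevelVal_of_chart`;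
* instances `modelLevelVal_j` (`q ≥ 5`), `modelLevelVal_t2` (`q` odd, `2 ∣ M`),
  `modelLevelVal_t3` (`q ≠ 3`, `3 ∣ M`).
-/
import Fermat.Agent.H41.SS.LevelRegInst

set_option autoImplicit false
set_option linter.style.haveILetI false
set_option linter.unusedSectionVars false
set_option linter.unusedVariables false

noncomputable section

namespace Fermat.Agent.H71.SS

open Polynomial ModularCurve
open Fermat.Agent.H22.KL Fermat.Agent.H45 Fermat.Agent.H7.SS Fermat.Agent.H48.QExp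
open Fermat.Agent.H82.SS Fermat.Agent.H41.SS
open Fermat.Agent.H91 Fermat.Agent.H91.KLNorm
open Fermat.Agent.H87.KL (evX IntX)
open Fermat.Agent.H67.KLConn (PiDvd)

/-- **(SM)** level `M` is regular at the closed points of the special fibre, valuation form:
`(B'(x) / ϖ B'(x))_𝔫` is a valuation ring for every maximal ideal `𝔫 ∋ ϖ` of `B'(x)`. -/
def ModelLevelValStatement (M q : ℕ) [NeZero M] (x₀ : LaurentSeries ℚ) (R : ℕ) : Prop :=
  ∀ (K₁ : Type) [Field K₁] [Algebra ℚ K₁] [FiniteDimensional ℚ K₁]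
    (A₀ : Type) [CommRing A₀] [IsDomain A₀] [IsDiscreteValuationRing A₀]
    [Algebra A₀ K₁] [IsFractionRing A₀ K₁]
    [Algebra A₀ (ModelField K₁ M)] [IsScalarTower A₀ K₁ (ModelField K₁ M)],
    ¬ IsUnit ((q : ℕ) : A₀) →
    (∃ ζ : K₁, IsPrimitiveRoot ζ R) →
    ∀ (ϖ : A₀), Irreducible ϖ →
    ∀ (x : ModelField K₁ M), (x : LaurentSeries K₁) = coeffEmb K₁ x₀ →
    ∀ 𝔫 : Ideal (chartClosure A₀ (ModelField K₁ M) x), 𝔫.IsMaximal →
      algebraMap A₀ (chartClosure A₀ (ModelField K₁ M) x) ϖ ∈ 𝔫 →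
      Fermat.Agent.H67.SS.ValAt A₀ (ModelField K₁ M) ϖ x 𝔫

/-- **(SM), generic theorem** (twin of `Fermat.Agent.H41.SS.modelLevelReg_of_chart`). -/
theorem modelLevelVal_of_chart (M q : ℕ) [NeZero M] (x₀ : LaurentSeries ℚ)
    (xZ : LaurentSeries ℤ) (hxZ : coeffMap (Int.castRingHom ℚ) xZ = x₀)
    (hord : ∀ (k : Type) [Field k], (coeffMap (Int.castRingHom k) xZ).order ≠ 0)
    (R : ℕ)
    (hTr : ModelTranscendentalStatement M x₀)
    (hGB : ModelGoodBasisStatement M q x₀)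
    (hBr : ModelBranchStatement M q x₀ R)
    (hQ : ModelQExpStatement M q x₀) :
    ModelLevelValStatement M q x₀ R := by
  intro K₁ _ _ _ A₀ _ _ _ _ _ _ _ hqA hζ ϖ hϖ x hx 𝔫 h𝔫 hϖ𝔫
  haveI : CharZero K₁ := charZero_of_injective_algebraMap (algebraMap ℚ K₁).injective
  haveI : CharZero (ModelField K₁ M) :=
    charZero_of_injective_algebraMap (algebraMap K₁ (ModelField K₁ M)).injective
  have hinj : Function.Injective (algebraMap A₀ (ModelField K₁ M)) := by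
    rw [IsScalarTower.algebraMap_eq A₀ K₁ (ModelField K₁ M)]
    exact (algebraMap K₁ (ModelField K₁ M)).injective.comp (IsFractionRing.injective A₀ K₁)
  have hxtr : Transcendental A₀ x := hTr K₁ A₀ x hx
  have hGBx : Fermat.Agent.H22.KL.GoodBasis A₀ (ModelField K₁ M) ϖ x := hGB K₁ A₀ hqA ϖ hϖ x hx
  have hfd : ∃ n : ℕ, Nonempty (Module.Basis (Fin n) (chartField A₀ (ModelField K₁ M) x)
      (ModelField K₁ M)) := by
    obtain ⟨n, b, -, -⟩ := hGBx
    exact ⟨n, ⟨b⟩⟩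
  obtain ⟨hBrAll, -⟩ := hBr K₁ A₀ hqA hζ ϖ hϖ x hx
  obtain ⟨g, hgm, hgirr, hg𝔫⟩ := ordPoint_exists_monic A₀ (ModelField K₁ M) ϖ hϖ x 𝔫 h𝔫 hϖ𝔫
  have hNorm := Fermat.Agent.H70.KL.normalityAtFull A₀ (ModelField K₁ M) hinj ϖ hϖ x hxtr hGBx
    g hgm hgirr (hBrAll g hgm hgirr)
  have hMax : ∀ z ∈ gaussClosure A₀ (ModelField K₁ M) ϖ x,
      ¬ PiDvdSet A₀ (ModelField K₁ M) ϖ (gaussClosure A₀ (ModelField K₁ M) ϖ x) z →
      z⁻¹ ∈ gaussClosure A₀ (ModelField K₁ M) ϖ x := fun z hz hzπ =>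
    gaussClosure_inv_mem M q x₀ xZ hxZ hord hQ hqA hϖ x hx hxtr z hz hzπ
  obtain ⟨U, -, -, hval⟩ := Fermat.Agent.H67.SS.localDVR hinj hϖ hxtr hfd hMax g hgm hgirr hNorm
    𝔫 h𝔫 hϖ𝔫 hg𝔫
  exact hval

/-- **(SM), chart `j`, `q ≥ 5`.** -/
theorem modelLevelVal_j (M q : ℕ) [NeZero M] (hq : q.Prime) (h5 : 5 ≤ q) (hqM : ¬ q ∣ M) :
    ModelLevelValStatement M q jq (3 * M) :=
  modelLevelVal_of_chart M q jq (jqModC ℤ) (by rw [coeffMap_jqModC, jqModC_rat])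
    (fun k _ => by
      rw [coeffMap_jqModC]
      have hc : (jqModC k).coeff (-1 : ℤ) ≠ 0 := by
        rw [ModularCurve.coeff_jqModC_neg_one]
        exact one_ne_zero
      have := HahnSeries.order_le_of_coeff_ne_zero hc
      omega)
    (3 * M)
    (Fermat.Agent.H58.modelTranscendental_jq M)
    (Fermat.Agent.H27.KLGB.modelGoodBasis_j M q hq hqM)
    (Fermat.Agent.H2.klbr_model_j_three M q hq h5 hqM)
    (Fermat.Agent.H48.QExp.modelQExp_j M q hq hqM)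

/-- **(SM), chart `t₂`** (`q` odd, `2 ∣ M`). -/
theorem modelLevelVal_t2 (M q : ℕ) [NeZero M] (hq : q.Prime) (hq2 : q ≠ 2) (hqM : ¬ q ∣ M)
    (h2 : 2 ∣ M) :
    ModelLevelValStatement M q (Fermat.Agent.H17.ESD.t2S ℚ) (2 * M) :=
  modelLevelVal_of_chart M q (Fermat.Agent.H17.ESD.t2S ℚ) (Fermat.Agent.H17.ESD.t2S ℤ)
    (Fermat.Agent.H17.ESD.coeffMap_t2S _)
    (fun k _ => by
      rw [Fermat.Agent.H17.ESD.coeffMap_t2S, Fermat.Agent.H17.ESD.t2S_order]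
      norm_num)
    (2 * M)
    (Fermat.Agent.H87.KL.modelTranscendental_t2S M)
    (Fermat.Agent.H27.KLGB.modelGoodBasis_t2 M q hq hqM hq2)
    (Fermat.Agent.H2.klbr_model_t2_all M h2 q
      ((Nat.coprime_primes Nat.prime_two hq).2 (Ne.symm hq2))
      (((Nat.Prime.coprime_iff_not_dvd hq).mpr hqM).symm) (2 * M)
      (mul_ne_zero (by norm_num) (NeZero.ne M)) (dvd_mul_right 2 M) (dvd_mul_left M 2))
    (Fermat.Agent.H87.KL.modelQExp_t2S M q hq hqM)

/-- **(SM), chart `t₃`** (`q ≠ 3`, `3 ∣ M`). -/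
theorem modelLevelVal_t3 (M q : ℕ) [NeZero M] (hq : q.Prime) (hq3 : q ≠ 3) (hqM : ¬ q ∣ M)
    (h3 : 3 ∣ M) :
    ModelLevelValStatement M q (Fermat.Agent.H1.ESD.t3 ℚ) (3 * M) :=
  modelLevelVal_of_chart M q (Fermat.Agent.H1.ESD.t3 ℚ) (Fermat.Agent.H1.ESD.t3 ℤ)
    (Fermat.Agent.H1.ESD.coeffMap_t3 _)
    (fun k _ => by
      rw [Fermat.Agent.H1.ESD.coeffMap_t3, Fermat.Agent.H1.ESD.order_t3]
      norm_num)
    (3 * M)
    (Fermat.Agent.H87.KL.modelTranscendental_t3S M)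
    (Fermat.Agent.H27.KLGB.modelGoodBasis_t3 M q hq hqM hq3)
    (Fermat.Agent.H2.klbr_model_t3_all M h3 q
      ((Nat.coprime_primes Nat.prime_three hq).2 (Ne.symm hq3))
      (((Nat.Prime.coprime_iff_not_dvd hq).mpr hqM).symm) (3 * M)
      (mul_ne_zero (by norm_num) (NeZero.ne M)) (dvd_mul_right 3 M) (dvd_mul_left M 3))
    (Fermat.Agent.H87.KL.modelQExp_t3S M q hq hqM)

end Fermat.Agent.H71.SS

end
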