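/-
helper71, P-SS / S35, block (KT), row KT-C3 (FROB), input (SM) for ALL `q`: chart change for the
valuation form of the level-`M` regularity.

Twin of helper9's `Fermat.Agent.H9.SS.regChart_of_chartChange` (row 1050): if
`B(y) = B(y')[1/d]`, then `ValAt` at all closed points of the chart `y'` gives `ValAt` at all
closed points of the chart `y`.

* `ValChart ϖ y`, `valChart_of_chartChange`, `valChart_of_rel_two`, `valChart_of_rel_three`;
* `modelLevelVal_j_of_t2S`, `modelLevelVal_j_of_t3` : chart change `t₂ → j`, `t₃ → j`;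
* `ktAuxRoot M q` : the order of the roots of unity needed (`3 M` if `q = 2`, `2 M` otherwise),
  `modelLevelVal_aux` : (SM) in the chart `j` at every auxiliary pair (`4 ∣ M` for `q` odd,
  `9 ∣ M` for `q = 2`).
-/
import Fermat.Agent.H71.SS.KtLevelVal
import Fermat.Agent.H9.SS.LevelRegChart

set_option autoImplicit false
set_option linter.style.haveILetI false
set_option linter.unusedSectionVars false
set_option linter.unusedVariables false

noncomputable section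

namespace Fermat.Agent.H71.SS

open Polynomial ModularCurve AlgebraicCurve
open Fermat.Agent.H22.KL Fermat.Agent.H9.SS Fermat.Agent.H67.SS

section Abs

variable {A : Type} [CommRing A] [IsDomain A] [IsDiscreteValuationRing A]
  {E : Type} [Field E] [Algebra A E]

/-- **(SM) in the chart `y`**: `(B(y) / ϖ B(y))_𝔫` is a valuation ring at every maximal ideal
`𝔫 ∋ ϖ` of `B(y)`. -/
def ValChart (ϖ : A) (y : E) : Prop :=
  ∀ 𝔫 : Ideal (chartClosure A E y), 𝔫.IsMaximal →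
    algebraMap A (chartClosure A E y) ϖ ∈ 𝔫 → ValAt A E ϖ y 𝔫

/-- The algebraic identity behind the chart change (all data opaque). -/
theorem valChart_transport {R S : Type} [CommRing R] [CommRing S] (ι : R →+* S)
    (a' c' t d₁ e ϖ' : R) (a c dk ϖS : S) (hιa : ι a' = dk * a) (hιc : ι c' = dk * c)
    (hιϖ : ι ϖ' = ϖS) (he : d₁ * a' = t * c' + ϖ' * e) :
    (ι d₁ * dk) * a = (ι t * dk) * c + ϖS * ι e := by
  have h1 := congrArg ι he
  rw [map_mul, map_add, map_mul, map_mul, hιa, hιc, hιϖ] at h1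
  linear_combination h1

theorem valChart_incl_commutes (ϖ : A) {y y' : E} (hy' : y' ∈ chartClosure A E y) :
    (Subalgebra.inclusion (lrc_chartClosure_le hy')).toRingHom
      (algebraMap A (chartClosure A E y') ϖ) = algebraMap A (chartClosure A E y) ϖ :=
  (Subalgebra.inclusion (lrc_chartClosure_le hy')).commutes ϖ

theorem valChart_incl_not_mem {S T : Subalgebra A E} (h : S ≤ T)
    (𝔫 : Ideal T) (z : S)
    (hz : z ∉ 𝔫.comap (Subalgebra.inclusion h).toRingHom) :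
    (Subalgebra.inclusion h).toRingHom z ∉ 𝔫 :=
  fun hmem => hz (Ideal.mem_comap.2 hmem)

theorem valChart_incl_coe {S T : Subalgebra A E} (h : S ≤ T) (z : S) :
    (((Subalgebra.inclusion h).toRingHom z : T) : E) = (z : E) := rfl

/-- **Chart change for (SM).** -/
theorem valChart_of_chartChange (ϖ : A) (hϖ : Irreducible ϖ) {y y' d : E}
    (hy' : y' ∈ chartClosure A E y) (hd : d ∈ chartClosure A E y')
    (hdinv : d⁻¹ ∈ chartClosure A E y) (hd0 : d ≠ 0) {n : ℕ}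
    (hdy : d ^ n * y ∈ chartClosure A E y')
    (hval : ValChart ϖ y') : ValChart ϖ y := by
  intro 𝔫 h𝔫 hϖ𝔫
  haveI := h𝔫
  have hmax := lrc_comap_isMaximal ϖ hϖ hy' 𝔫 hϖ𝔫
  have hcomm := valChart_incl_commutes ϖ hy'
  have hϖ' : algebraMap A (chartClosure A E y') ϖ ∈
      𝔫.comap (Subalgebra.inclusion (lrc_chartClosure_le hy')).toRingHom := by
    rw [Ideal.mem_comap, hcomm]
    exact hϖ𝔫
  have hv := hval _ hmax hϖ'
  obtain ⟨ι, hιmem, hιcoe, hιϖ⟩ : ∃ ι : chartClosure A E y' →+* chartClosure A E y,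
      (∀ z, z ∉ 𝔫.comap (Subalgebra.inclusion (lrc_chartClosure_le hy')).toRingHom →
        ι z ∉ 𝔫) ∧
      (∀ z, ((ι z : chartClosure A E y) : E) = (z : E)) ∧
      ι (algebraMap A (chartClosure A E y') ϖ) = algebraMap A (chartClosure A E y) ϖ :=
    ⟨(Subalgebra.inclusion (lrc_chartClosure_le hy')).toRingHom,
      valChart_incl_not_mem (lrc_chartClosure_le hy') 𝔫,
      valChart_incl_coe (lrc_chartClosure_le hy'), hcomm⟩
  obtain ⟨dS, hdSv⟩ : ∃ dS : chartClosure A E y, (dS : E) = d :=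
    ⟨⟨d, lrc_chartClosure_le hy' hd⟩, rfl⟩
  have hdS : ∀ k : ℕ, dS ^ k ∉ 𝔫 := by
    intro k hmem
    have hdS' : dS ∈ 𝔫 := h𝔫.isPrime.mem_of_pow_mem k hmem
    have h1 : (1 : chartClosure A E y) ∈ 𝔫 := by
      have h2 := 𝔫.mul_mem_left (⟨d⁻¹, hdinv⟩ : chartClosure A E y) hdS'
      have e : (⟨d⁻¹, hdinv⟩ : chartClosure A E y) * dS = 1 := by
        apply Subtype.ext
        rw [Subalgebra.coe_mul, hdSv]
        exact inv_mul_cancel₀ hd0
      rw [e] at h2
      exact h2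
    exact h𝔫.ne_top ((Ideal.eq_top_iff_one _).2 h1)
  intro a c
  obtain ⟨k₁, hk₁⟩ := lrc_exists_pow_mul_mem hd hdy (a : E) a.2
  obtain ⟨k₂, hk₂⟩ := lrc_exists_pow_mul_mem hd hdy (c : E) c.2
  obtain ⟨k, hka, hkc⟩ : ∃ k : ℕ, d ^ k * (a : E) ∈ chartClosure A E y' ∧
      d ^ k * (c : E) ∈ chartClosure A E y' :=
    ⟨k₁ + k₂, lrc_pow_mul_mem_of_le _ hd (Nat.le_add_right k₁ k₂) hk₁,
      lrc_pow_mul_mem_of_le _ hd (Nat.le_add_left k₂ k₁) hk₂⟩
  obtain ⟨a', ha'⟩ : ∃ a' : chartClosure A E y', (a' : E) = d ^ k * (a : E) :=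
    ⟨⟨_, hka⟩, rfl⟩
  obtain ⟨c', hc'⟩ : ∃ c' : chartClosure A E y', (c' : E) = d ^ k * (c : E) :=
    ⟨⟨_, hkc⟩, rfl⟩
  have hιa : ι a' = dS ^ k * a := by
    apply Subtype.ext
    rw [hιcoe, Subalgebra.coe_mul, Subalgebra.coe_pow, ha', hdSv]
  have hιc : ι c' = dS ^ k * c := by
    apply Subtype.ext
    rw [hιcoe, Subalgebra.coe_mul, Subalgebra.coe_pow, hc', hdSv]
  have hnot : ∀ d₁ : chartClosure A E y',
      d₁ ∉ 𝔫.comap (Subalgebra.inclusion (lrc_chartClosure_le hy')).toRingHom →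
      ι d₁ * dS ^ k ∉ 𝔫 := by
    intro d₁ hd₁ hmem
    rcases h𝔫.isPrime.mem_or_mem hmem with h | h
    · exact hιmem d₁ hd₁ h
    · exact hdS k h
  rcases hv a' c' with ⟨t, d₁, hd₁, e, he⟩ | ⟨t, d₁, hd₁, e, he⟩
  · left
    exact ⟨ι t * dS ^ k, ι d₁ * dS ^ k, hnot d₁ hd₁, ι e,
      valChart_transport ι a' c' t d₁ e _ a c (dS ^ k) _ hιa hιc hιϖ he⟩
  · right
    exact ⟨ι t * dS ^ k, ι d₁ * dS ^ k, hnot d₁ hd₁, ι e,
      valChart_transport ι c' a' t d₁ e _ c a (dS ^ k) _ hιc hιa hιϖ he⟩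

/-- **Chart change along `x T² = (T + 256)³`** (`256` invertible in `A`). -/
theorem valChart_of_rel_two (ϖ : A) (hϖ : Irreducible ϖ) {x T : E}
    (hrel : x * T ^ 2 = (T + 256) ^ 3) (c : A) (hc : c * 256 = 1)
    (hval : ValChart ϖ T) : ValChart ϖ x :=
  valChart_of_chartChange ϖ hϖ (y := x) (y' := T) (d := T) (lrc_two_mem hrel)
    (lrc_self_mem_chartClosure T) (lrc_two_inv_mem hrel c hc (lrc_two_ne_zero hrel c hc))
    (lrc_two_ne_zero hrel c hc) (n := 2) (lrc_two_pow_mul_mem hrel) hval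

/-- **Chart change along `x T³ = (T + 27)(T + 243)³`** (`27` invertible in `A`). -/
theorem valChart_of_rel_three (ϖ : A) (hϖ : Irreducible ϖ) {x T : E}
    (hrel : x * T ^ 3 = (T + 27) * (T + 243) ^ 3) (c : A) (hc : c * 27 = 1)
    (hval : ValChart ϖ T) : ValChart ϖ x :=
  valChart_of_chartChange ϖ hϖ (y := x) (y' := T) (d := T) (lrc_three_mem hrel)
    (lrc_self_mem_chartClosure T) (lrc_three_inv_mem hrel c hc (lrc_three_ne_zero hrel c hc))
    (lrc_three_ne_zero hrel c hc) (n := 3) (lrc_three_pow_mul_mem hrel) hval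

end Abs

/-- **chart change `t₂ → j`** for (SM) (`q` odd, `2 ∣ M`). -/
theorem modelLevelVal_j_of_t2S (M q : ℕ) [NeZero M] (hq : q.Prime) (hq2 : q ≠ 2) (h2 : 2 ∣ M)
    (R : ℕ) (h : ModelLevelValStatement M q (Fermat.Agent.H17.ESD.t2S ℚ) R) :
    ModelLevelValStatement M q jq R := by
  intro K₁ _ _ _ A₀ _ _ _ _ _ _ _ hqA hζ ϖ hϖ x hx
  let T : ModelField K₁ M := ⟨coeffEmb K₁ (Fermat.Agent.H17.ESD.t2S ℚ),
    coeffEmb_mem_laurentBaseChange K₁ (Fermat.Agent.H17.ESD.t2S_rat_mem M h2)⟩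
  have hT : ValChart ϖ T := h K₁ A₀ hqA hζ ϖ hϖ T rfl
  have hrel : x * T ^ 2 = (T + 256) ^ 3 := by
    apply Subtype.ext
    have h1 := Fermat.Agent.H17.ESD.t2S_identity K₁
    rw [← lrc_coeffEmb_jq, ← Fermat.Agent.H17.ESD.coeffEmb_t2S K₁] at h1
    rw [← hx] at h1
    push_cast
    exact h1
  have hcop : Nat.Coprime q 256 := by
    have : (256 : ℕ) = 2 ^ 8 := by norm_num
    rw [this]
    exact Nat.Coprime.pow_right 8 ((Nat.coprime_primes hq Nat.prime_two).2 hq2)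
  obtain ⟨u, hu⟩ := lrc_isUnit_natCast_of_coprime (A := A₀) hcop hqA
  have hc : (↑u⁻¹ : A₀) * 256 = 1 := by
    have : ((256 : ℕ) : A₀) = 256 := by norm_num
    rw [← this, ← hu]
    exact u.inv_mul
  exact valChart_of_rel_two ϖ hϖ hrel _ hc hT

/-- **chart change `t₃ → j`** for (SM) (`q ≠ 3`, `3 ∣ M`). -/
theorem modelLevelVal_j_of_t3 (M q : ℕ) [NeZero M] (hq : q.Prime) (hq3 : q ≠ 3) (h3 : 3 ∣ M)
    (R : ℕ) (h : ModelLevelValStatement M q (Fermat.Agent.H1.ESD.t3 ℚ) R) :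
    ModelLevelValStatement M q jq R := by
  intro K₁ _ _ _ A₀ _ _ _ _ _ _ _ hqA hζ ϖ hϖ x hx
  let T : ModelField K₁ M := ⟨coeffEmb K₁ (Fermat.Agent.H1.ESD.t3 ℚ),
    coeffEmb_mem_laurentBaseChange K₁ (Fermat.Agent.H27.KLGB.t3_mem_full_rat M h3)⟩
  have hT : ValChart ϖ T := h K₁ A₀ hqA hζ ϖ hϖ T rfl
  have hrel : x * T ^ 3 = (T + 27) * (T + 243) ^ 3 := by
    apply Subtype.ext
    have h1 := Fermat.Agent.H1.ESD.t3_rel K₁
    have h2 : coeffEmb K₁ (Fermat.Agent.H1.ESD.t3 ℚ) = Fermat.Agent.H1.ESD.t3 K₁ := by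
      rw [coeffEmb, Fermat.Agent.H1.ESD.coeffMap_t3]
    rw [← lrc_coeffEmb_jq, ← h2] at h1
    rw [← hx] at h1
    push_cast
    exact h1
  have hcop : Nat.Coprime q 27 := by
    have : (27 : ℕ) = 3 ^ 3 := by norm_num
    rw [this]
    exact Nat.Coprime.pow_right 3 ((Nat.coprime_primes hq Nat.prime_three).2 hq3)
  obtain ⟨u, hu⟩ := lrc_isUnit_natCast_of_coprime (A := A₀) hcop hqA
  have hc : (↑u⁻¹ : A₀) * 27 = 1 := by
    have : ((27 : ℕ) : A₀) = 27 := by norm_num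
    rw [← this, ← hu]
    exact u.inv_mul
  exact valChart_of_rel_three ϖ hϖ hrel _ hc hT

/-- The order of the roots of unity needed in `K₁` at the auxiliary pair `(M, q)`:
`3 M` for `q = 2` (chart `t₃`), `2 M` otherwise (chart `t₂`). -/
def ktAuxRoot (M q : ℕ) : ℕ := if q = 2 then 3 * M else 2 * M

theorem ktAuxRoot_pos (M q : ℕ) [NeZero M] : 0 < ktAuxRoot M q := by
  unfold ktAuxRoot
  have hM : 0 < M := Nat.pos_of_ne_zero (NeZero.ne M)
  split_ifs <;> omega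

/-- `q` does not divide `ktAuxRoot M q` (so a field containing these roots of unity may be
unramified at `q`). -/
theorem not_dvd_ktAuxRoot (M q : ℕ) (hq : q.Prime) (hqM : ¬ q ∣ M) : ¬ q ∣ ktAuxRoot M q := by
  unfold ktAuxRoot
  split_ifs with h2
  · subst h2
    intro h
    rcases (Nat.Prime.dvd_mul Nat.prime_two).1 h with h' | h'
    · norm_num at h'
    · exact hqM h'
  · intro h
    rcases (Nat.Prime.dvd_mul hq).1 h with h' | h'
    · exact h2 ((Nat.prime_dvd_prime_iff_eq hq Nat.prime_two).1 h')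
    · exact hqM h'

/-- **(SM) in the chart `j` at every auxiliary pair** (`4 ∣ M` for `q` odd, `9 ∣ M` for
`q = 2`), for fields containing the `ktAuxRoot M q`-th roots of unity. -/
theorem modelLevelVal_aux (M q : ℕ) [NeZero M] (hq : q.Prime) (hqM : ¬ q ∣ M)
    (h4 : q ≠ 2 → 4 ∣ M) (h9 : q = 2 → 9 ∣ M) :
    ModelLevelValStatement M q jq (ktAuxRoot M q) := by
  unfold ktAuxRoot
  split_ifs with h2
  · have h3 : 3 ∣ M := Dvd.dvd.trans (by norm_num) (h9 h2)
    have hq3 : q ≠ 3 := by rw [h2]; norm_num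
    exact modelLevelVal_j_of_t3 M q hq hq3 h3 _ (modelLevelVal_t3 M q hq hq3 hqM h3)
  · have h2M : 2 ∣ M := Dvd.dvd.trans (by norm_num) (h4 h2)
    exact modelLevelVal_j_of_t2S M q hq h2 h2M _ (modelLevelVal_t2 M q hq h2 hqM h2M)

end Fermat.Agent.H71.SS

end
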