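/-
helper71, P-SS / S35, block (KT), row KT-C3 (FROB): **FRAC-loc** at the nodes of the chart
`x = j`, from the regularity of level `M`.

`ModelFracLocRootsStatement M q R` is helper65's `Fermat.Agent.H65.SS.ModelFracLocStatement M q`
with the additional hypothesis that `K₁` contains a primitive `R`-th root of unity (needed by
the only available proof of the regularity of level `M`: tame branch hypothesis).

* `modelFracLocRoots_of_levelVal` : FRAC-loc from (SM) `ModelLevelValStatement M q jq R`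
  (`Fermat.Agent.H71.SS.KtLevelVal`), using helper66's FRAC (`Fermat.Agent.H66.SS.modelFrac`),
  helper7's `isVertical_vInf`, helper67's `pullIdeal`, helper41's `ordPoint_exists_monic`.
* `modelFracLocRoots_j` : the case `q ≥ 5`, `R = 3 M`, UNCONDITIONAL.
* `modelFracLocRoots_odd` (`q` odd, `2 ∣ M`, `R = 2 M`), `modelFracLocRoots_three` (`q ≠ 3`,
  `3 ∣ M`, `R = 3 M`), `modelFracLocRoots_aux` (every auxiliary pair, `R = ktAuxRoot M q`).
-/
import Fermat.Agent.H71.SS.KtFracLocal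
import Fermat.Agent.H71.SS.KtLevelVal
import Fermat.Agent.H71.SS.KtLevelValChart
import Fermat.Agent.H65.SS.KtFrobNode
import Fermat.Agent.H34.SS.ModelVal2
import Fermat.Agent.H67.SS.CuspAbs

set_option autoImplicit false
set_option linter.unusedSectionVars false
set_option linter.unusedVariables false
set_option linter.style.haveILetI false

noncomputable section

namespace Fermat.Agent.H71.SS

open Polynomial ModularCurve AlgebraicCurve
open Fermat.Agent.H22.KL Fermat.Agent.H66 Fermat.Agent.H55.SS Fermat.Agent.H82.SS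
open Fermat.Agent.H11.SS2 Fermat.Agent.H67.SS Fermat.Agent.H7.SS Fermat.Agent.H7.SS2
open Fermat.Agent.H41.SS

section Abs

variable {A : Type} [CommRing A]
  {E' : Type} [Field E'] [Algebra A E']
  {E : Type} [Field E] [Algebra A E]

/-- `ι ∘ ev_{y'} = ev_{ι y'}` (local copy of helper67's `comp_evX`). -/
theorem ktfl_comp_evX (ι : E' →+* E) (hι : ∀ a : A, ι (algebraMap A E' a) = algebraMap A E a)
    (y' : E') : ι.comp (Fermat.Agent.H87.KL.evX (A := A) y') =
      Fermat.Agent.H87.KL.evX (A := A) (ι y') := by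
  apply Polynomial.ringHom_ext
  · intro a
    show ι (aeval y' (C a)) = aeval (ι y') (C a)
    rw [aeval_C, aeval_C, hι]
  · show ι (aeval y' X) = aeval (ι y') X
    rw [aeval_X, aeval_X]

/-- Integrality over `A[y']` is transported by `ι`. -/
theorem ktfl_map_mem_chartClosure (ι : E' →+* E)
    (hι : ∀ a : A, ι (algebraMap A E' a) = algebraMap A E a) {y' s' : E'}
    (hs : s' ∈ chartClosure A E' y') : ι s' ∈ chartClosure A E (ι y') := by
  rw [Fermat.Agent.H87.KL.mem_chartClosure_iff] at hs ⊢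
  obtain ⟨p, hpm, hp⟩ := hs
  refine ⟨p, hpm, ?_⟩
  rw [← ktfl_comp_evX ι hι y', ← Polynomial.hom_eval₂, hp, map_zero]

/-- Integrality over `A[y']` is reflected by an embedding `ι` over `A`. -/
theorem ktfl_mem_chartClosure_of_map (ι : E' →+* E)
    (hι : ∀ a : A, ι (algebraMap A E' a) = algebraMap A E a) {y' s' : E'}
    (hs : ι s' ∈ chartClosure A E (ι y')) : s' ∈ chartClosure A E' y' := by
  rw [Fermat.Agent.H87.KL.mem_chartClosure_iff] at hs ⊢
  obtain ⟨p, hpm, hp⟩ := hs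
  refine ⟨p, hpm, ?_⟩
  rw [← ktfl_comp_evX ι hι y', ← Polynomial.hom_eval₂] at hp
  exact (map_eq_zero_iff ι ι.injective).mp hp

end Abs

/-- **(FRAC-loc), rooted form**: helper65's `ModelFracLocStatement M q` for fields `K₁`
containing a primitive `R`-th root of unity. -/
def ModelFracLocRootsStatement (M q R : ℕ) [NeZero M] [NeZero q] : Prop :=
  ∀ (K₁ : Type) [Field K₁] [Algebra ℚ K₁] [FiniteDimensional ℚ K₁]
    (A₀ : Type) [CommRing A₀] [IsDomain A₀] [IsDiscreteValuationRing A₀]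
    [Algebra A₀ K₁] [IsFractionRing A₀ K₁]
    [Algebra A₀ (ModelField K₁ (M * q))] [IsScalarTower A₀ K₁ (ModelField K₁ (M * q))],
    Irreducible ((q : ℕ) : A₀) →
    (∃ ζ : K₁, IsPrimitiveRoot ζ R) →
    ∀ (x : ModelField K₁ (M * q)), (x : LaurentSeries K₁) = coeffEmb K₁ jq →
    ∀ (W : ModelField K₁ (M * q) ≃ₐ[K₁] ModelField K₁ (M * q)), IsAtkinLehnerModel K₁ M q W →
    ∀ 𝔪 : Ideal (chartClosure A₀ (ModelField K₁ (M * q)) x), 𝔪.IsMaximal →
      algebraMap A₀ (chartClosure A₀ (ModelField K₁ (M * q)) x) ((q : ℕ) : A₀) ∈ 𝔪 →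
      Through A₀ (ModelField K₁ (M * q)) x 𝔪 (ktV K₁ A₀ (M * q)) →
      Through A₀ (ModelField K₁ (M * q)) x 𝔪 (ktV0 K₁ A₀ M q W) →
      ∀ z ∈ chartClosure A₀ (ModelField K₁ (M * q)) x, ∃ a b : ModelField K₁ M,
        heckeAlphaBar K₁ M q a ∈ chartClosure A₀ (ModelField K₁ (M * q)) x ∧
        (∃ hb : heckeAlphaBar K₁ M q b ∈ chartClosure A₀ (ModelField K₁ (M * q)) x,
          (⟨heckeAlphaBar K₁ M q b, hb⟩ : chartClosure A₀ (ModelField K₁ (M * q)) x) ∉ 𝔪) ∧
        heckeAlphaBar K₁ M q b * z - heckeAlphaBar K₁ M q a ∈ (ktV K₁ A₀ (M * q)).nonunits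

/-- **(FRAC-loc) from the regularity of level `M`.** -/
theorem modelFracLocRoots_of_levelVal (M q R : ℕ) [NeZero M] [NeZero q] (hq : q.Prime)
    (hqM : ¬ q ∣ M) (hLV : ModelLevelValStatement M q jq R) :
    ModelFracLocRootsStatement M q R := by
  intro K₁ _ _ _ A₀ _ _ _ _ _ _ _ hirr hζ x hx W hW 𝔪 h𝔪 hq𝔪 hT₁ hT₂ z hz
  haveI h𝔪p : 𝔪.IsPrime := h𝔪.isPrime
  have hqA : ¬ IsUnit ((q : ℕ) : A₀) := hirr.not_isUnit
  letI : Algebra A₀ (ModelField K₁ M) :=
    ((algebraMap K₁ (ModelField K₁ M)).comp (algebraMap A₀ K₁)).toAlgebra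
  haveI : IsScalarTower A₀ K₁ (ModelField K₁ M) :=
    IsScalarTower.of_algebraMap_eq (fun _ => rfl)
  haveI : CharZero K₁ := charZero_of_injective_algebraMap (algebraMap ℚ K₁).injective
  haveI : CharZero (ModelField K₁ M) :=
    charZero_of_injective_algebraMap (algebraMap K₁ (ModelField K₁ M)).injective
  haveI : CharZero (ModelField K₁ (M * q)) :=
    charZero_of_injective_algebraMap (algebraMap K₁ (ModelField K₁ (M * q))).injective
  -- the coordinate of level `M`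
  obtain ⟨x', hx', hαx⟩ := Fermat.Agent.H65.SS.ktf_exists_level_coord M q x hx
  have hxtr : Transcendental A₀ x := Fermat.Agent.H58.modelTranscendental_jq (M * q) K₁ A₀ x hx
  -- `ι = α`
  set ι : ModelField K₁ M →+* ModelField K₁ (M * q) :=
    ((heckeAlphaBar K₁ M q : ModelField K₁ M →ₐ[K₁] ModelField K₁ (M * q)) :
      ModelField K₁ M →+* ModelField K₁ (M * q)) with hιdef
  have hιx : ι x' = x := hαx
  have hι : ∀ a : A₀, ι (algebraMap A₀ (ModelField K₁ M) a) =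
      algebraMap A₀ (ModelField K₁ (M * q)) a := by
    intro a
    rw [IsScalarTower.algebraMap_apply A₀ K₁ (ModelField K₁ M),
      IsScalarTower.algebraMap_apply A₀ K₁ (ModelField K₁ (M * q))]
    exact (heckeAlphaBar K₁ M q).commutes _
  have hαB : ∀ s' : chartClosure A₀ (ModelField K₁ M) x',
      ι (s' : ModelField K₁ M) ∈ chartClosure A₀ (ModelField K₁ (M * q)) x := by
    intro s'
    have h := ktfl_map_mem_chartClosure ι hι s'.2
    rwa [hιx] at h
  -- `B(x) ⊆ V_∞`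
  have hvert := isVertical_vInf M q K₁ A₀ hqA ((q : ℕ) : A₀) hirr x hx W hW
  have hBVinf : ∀ s : chartClosure A₀ (ModelField K₁ (M * q)) x,
      (s : ModelField K₁ (M * q)) ∈ vInf K₁ A₀ (M * q) := fun s =>
    hvert.2.2.1 _ (Fermat.Agent.H89.klg_chartClosure_le_gaussClosure hirr hxtr s.2)
  have hVeq : ktV K₁ A₀ (M * q) = vInf K₁ A₀ (M * q) :=
    Fermat.Agent.H34.SS.ktV_eq_vInf K₁ A₀ (M * q)
  have hBV : ∀ s : chartClosure A₀ (ModelField K₁ (M * q)) x,
      (s : ModelField K₁ (M * q)) ∈ ktV K₁ A₀ (M * q) := by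
    intro s
    rw [hVeq]
    exact hBVinf s
  -- FRAC in the chart form
  have hFRAC : ∀ s : chartClosure A₀ (ModelField K₁ (M * q)) x,
      ∃ a' c' : chartClosure A₀ (ModelField K₁ M) x',
        ι (c' : ModelField K₁ M) ∉ (ktV K₁ A₀ (M * q)).nonunits ∧
        ι (c' : ModelField K₁ M) * (s : ModelField K₁ (M * q)) - ι (a' : ModelField K₁ M) ∈
          (ktV K₁ A₀ (M * q)).nonunits := by
    intro s
    obtain ⟨b₁, b₂, hb₁, hb₂, hb₂m, hzm⟩ :=
      Fermat.Agent.H66.SS.modelFrac M q hq hqM K₁ A₀ hqA ((q : ℕ) : A₀) hirr x hx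
        (s : ModelField K₁ (M * q)) (InV.exists_quot _ ((mem_vInf_iff _).1 (hBVinf s)))
    have hb₂u : heckeAlphaBar K₁ M q b₂ ∉ (vInf K₁ A₀ (M * q)).nonunits := by
      intro h
      exact hb₂m (Fermat.Agent.H66.SS.fv_inM_exists_quot _ ((mem_nonunits_vInf_iff _).1 h) hirr)
    have hzm' : (s : ModelField K₁ (M * q)) * heckeAlphaBar K₁ M q b₂ -
        heckeAlphaBar K₁ M q b₁ ∈ (vInf K₁ A₀ (M * q)).nonunits :=
      (mem_nonunits_vInf_iff _).2 (Fermat.Agent.H66.SS.fv_inM_of_quot _ hqA hzm)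
    have hb₁' : b₁ ∈ chartClosure A₀ (ModelField K₁ M) x' := by
      apply ktfl_mem_chartClosure_of_map ι hι
      rw [hιx]
      exact hb₁
    have hb₂' : b₂ ∈ chartClosure A₀ (ModelField K₁ M) x' := by
      apply ktfl_mem_chartClosure_of_map ι hι
      rw [hιx]
      exact hb₂
    refine ⟨⟨b₁, hb₁'⟩, ⟨b₂, hb₂'⟩, ?_, ?_⟩
    · rw [hVeq]
      exact hb₂u
    · rw [hVeq]
      show heckeAlphaBar K₁ M q b₂ * (s : ModelField K₁ (M * q)) - heckeAlphaBar K₁ M q b₁ ∈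
        (vInf K₁ A₀ (M * q)).nonunits
      rw [mul_comm (heckeAlphaBar K₁ M q b₂)]
      exact hzm'
  -- the contraction of `𝔪`
  have h1𝔪 : (1 : chartClosure A₀ (ModelField K₁ (M * q)) x) ∉ 𝔪 :=
    fun h => h𝔪p.ne_top ((Ideal.eq_top_iff_one _).2 h)
  have hιBloc : ∀ s' : chartClosure A₀ (ModelField K₁ M) x',
      ∃ b : chartClosure A₀ (ModelField K₁ (M * q)) x, b ∉ 𝔪 ∧
        (b : ModelField K₁ (M * q)) * ι (s' : ModelField K₁ M) ∈
          chartClosure A₀ (ModelField K₁ (M * q)) x := by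
    intro s'
    refine ⟨1, h1𝔪, ?_⟩
    have e : ((1 : chartClosure A₀ (ModelField K₁ (M * q)) x) : ModelField K₁ (M * q)) *
        ι (s' : ModelField K₁ M) = ι (s' : ModelField K₁ M) := by
      rw [OneMemClass.coe_one, one_mul]
    rw [e]
    exact hαB s'
  haveI hp' := pullIdeal_isPrime ι x' x 𝔪 hιBloc
  have hϖ' : algebraMap A₀ (chartClosure A₀ (ModelField K₁ M) x') ((q : ℕ) : A₀) ∈
      pullIdeal ι x' x 𝔪 hιBloc := by
    refine ⟨1, algebraMap A₀ (chartClosure A₀ (ModelField K₁ (M * q)) x) ((q : ℕ) : A₀),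
      h1𝔪, hq𝔪, ?_⟩
    show ((1 : chartClosure A₀ (ModelField K₁ (M * q)) x) : ModelField K₁ (M * q)) *
      ι (algebraMap A₀ (ModelField K₁ M) ((q : ℕ) : A₀)) =
        algebraMap A₀ (ModelField K₁ (M * q)) ((q : ℕ) : A₀)
    rw [hι, OneMemClass.coe_one, one_mul]
  obtain ⟨g, hgm, hgirr, hg𝔪⟩ :=
    ordPoint_exists_monic A₀ (ModelField K₁ (M * q)) ((q : ℕ) : A₀) hirr x 𝔪 h𝔪 hq𝔪
  have hg' : evB (A := A₀) x' g ∈ pullIdeal ι x' x 𝔪 hιBloc := by
    refine ⟨1, ⟨aeval x g, etale_aeval_mem_chartClosure A₀ (ModelField K₁ (M * q)) x g⟩,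
      h1𝔪, hg𝔪, ?_⟩
    show ((1 : chartClosure A₀ (ModelField K₁ (M * q)) x) : ModelField K₁ (M * q)) *
      ι (aeval x' g) = aeval x g
    rw [OneMemClass.coe_one, one_mul]
    have h2 := congrArg (fun f : A₀[X] →+* ModelField K₁ (M * q) => f g)
      (ktfl_comp_evX ι hι x')
    simp only [RingHom.comp_apply, Fermat.Agent.H87.KL.evX_apply] at h2
    rw [h2, hιx]
  have hmax' : (pullIdeal ι x' x 𝔪 hιBloc).IsMaximal :=
    isMaximal_of_isPrime_of_mem hirr g hgirr _ hϖ' hg'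
  have hval := hLV K₁ A₀ hqA hζ ((q : ℕ) : A₀) hirr x' hx' _ hmax' hϖ'
  have h𝔫 : ∀ d : chartClosure A₀ (ModelField K₁ M) x', d ∉ pullIdeal ι x' x 𝔪 hιBloc →
      (⟨ι (d : ModelField K₁ M), hαB d⟩ : chartClosure A₀ (ModelField K₁ (M * q)) x) ∉ 𝔪 := by
    intro d hd hmem
    refine hd ⟨1, ⟨ι (d : ModelField K₁ M), hαB d⟩, h1𝔪, hmem, ?_⟩
    rw [OneMemClass.coe_one, one_mul]
  -- FRAC-local
  obtain ⟨t, d, hd, hr⟩ := ktfl_fracLocal_abs ι hι ((q : ℕ) : A₀) x' x 𝔪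
    (ktV K₁ A₀ (M * q)) hBV (ktfl_q_mem_nonunits A₀ (M * q) hq hqA) hT₁ hαB hFRAC _ h𝔫 hval
    ⟨z, hz⟩
  exact ⟨t, d, hαB t, ⟨hαB d, hd⟩, hr⟩

/-- **(FRAC-loc), `q ≥ 5`**, unconditional (for fields containing the `3 M`-th roots of
unity). -/
theorem modelFracLocRoots_j (M q : ℕ) [NeZero M] [NeZero q] (hq : q.Prime) (h5 : 5 ≤ q)
    (hqM : ¬ q ∣ M) : ModelFracLocRootsStatement M q (3 * M) :=
  modelFracLocRoots_of_levelVal M q (3 * M) hq hqM (modelLevelVal_j M q hq h5 hqM)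

/-- **(FRAC-loc), `q` odd, `2 ∣ M`**, unconditional (for fields containing the `2 M`-th roots
of unity). -/
theorem modelFracLocRoots_odd (M q : ℕ) [NeZero M] [NeZero q] (hq : q.Prime) (hq2 : q ≠ 2)
    (hqM : ¬ q ∣ M) (h2 : 2 ∣ M) : ModelFracLocRootsStatement M q (2 * M) :=
  modelFracLocRoots_of_levelVal M q (2 * M) hq hqM
    (modelLevelVal_j_of_t2S M q hq hq2 h2 _ (modelLevelVal_t2 M q hq hq2 hqM h2))

/-- **(FRAC-loc), `q ≠ 3`, `3 ∣ M`**, unconditional (for fields containing the `3 M`-th roots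
of unity). -/
theorem modelFracLocRoots_three (M q : ℕ) [NeZero M] [NeZero q] (hq : q.Prime) (hq3 : q ≠ 3)
    (hqM : ¬ q ∣ M) (h3 : 3 ∣ M) : ModelFracLocRootsStatement M q (3 * M) :=
  modelFracLocRoots_of_levelVal M q (3 * M) hq hqM
    (modelLevelVal_j_of_t3 M q hq hq3 h3 _ (modelLevelVal_t3 M q hq hq3 hqM h3))

/-- **(FRAC-loc) at every auxiliary pair** (`4 ∣ M` for `q` odd, `9 ∣ M` for `q = 2`),
UNCONDITIONAL, for fields `K₁` containing the `ktAuxRoot M q`-th roots of unity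
(`ktAuxRoot M q = 3 M` for `q = 2`, `2 M` otherwise; prime to `q`). -/
theorem modelFracLocRoots_aux (M q : ℕ) [NeZero M] [NeZero q] (hq : q.Prime) (hqM : ¬ q ∣ M)
    (h4 : q ≠ 2 → 4 ∣ M) (h9 : q = 2 → 9 ∣ M) :
    ModelFracLocRootsStatement M q (ktAuxRoot M q) :=
  modelFracLocRoots_of_levelVal M q _ hq hqM (modelLevelVal_aux M q hq hqM h4 h9)

end Fermat.Agent.H71.SS

end
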