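/-
helper71, P-SS / S35, block (KT), row KT-C3 (FROB), part FR-3: the FINAL forms.

(FRAC-loc) of `Fermat.Agent.H71.SS.KtFracModel` in helper65's rooted contract
`Fermat.Agent.H65.SS.ModelFracLocRootsStatement M q R`, and FR-3 in helper55's rooted contract
`Fermat.Agent.H55.SS.ModelNodeStableRStatement M q R`, UNCONDITIONAL at every auxiliary pair
(`q` prime, `q ∤ M`, `4 ∣ M` if `q` is odd, `9 ∣ M` if `q = 2`), with
`R = ktAuxRoot M q` (`= 3 M` for `q = 2`, `2 M` otherwise; prime to `q`).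
-/
import Fermat.Agent.H71.SS.KtFracModel
import Fermat.Agent.H65.SS.KtFrobRoots

set_option autoImplicit false
set_option linter.unusedSectionVars false
set_option linter.unusedVariables false

noncomputable section

namespace Fermat.Agent.H71.SS

open ModularCurve AlgebraicCurve

/-- (FRAC-loc) in helper65's rooted contract, from the form of `KtFracModel`. -/
theorem ktFracLocRoots_of (M q R : ℕ) [NeZero M] [NeZero q]
    (h : ModelFracLocRootsStatement M q R) :
    Fermat.Agent.H65.SS.ModelFracLocRootsStatement M q R := by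
  intro K₁ _ _ _ A₀ _ _ _ _ _ _ _ hroot hirr x hx W hW
  exact h K₁ A₀ hirr hroot x hx W hW

/-- **(FRAC-loc), helper65's rooted contract, at every auxiliary pair.** -/
theorem ktFracLocRoots_aux (M q : ℕ) [NeZero M] [NeZero q] (hq : q.Prime) (hqM : ¬ q ∣ M)
    (h4 : q ≠ 2 → 4 ∣ M) (h9 : q = 2 → 9 ∣ M) :
    Fermat.Agent.H65.SS.ModelFracLocRootsStatement M q (ktAuxRoot M q) :=
  ktFracLocRoots_of M q _ (modelFracLocRoots_aux M q hq hqM h4 h9)

/-- **FR-3 (stability of the nodes under `σ²`), helper55's rooted contract, at every auxiliary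
pair**: UNCONDITIONAL. -/
theorem ktNodeStableR_aux (M q : ℕ) [NeZero M] [NeZero q] (hq : q.Prime) (hqM : ¬ q ∣ M)
    (h4 : q ≠ 2 → 4 ∣ M) (h9 : q = 2 → 9 ∣ M) :
    Fermat.Agent.H55.SS.ModelNodeStableRStatement M q (ktAuxRoot M q) :=
  Fermat.Agent.H65.SS.modelNodeStableR_of_fracLocRoots M q _ hq hqM
    (ktFracLocRoots_aux M q hq hqM h4 h9)

/-- **KT-C3 (FROB), rooted form (all five clauses), at every auxiliary pair**:
UNCONDITIONAL. -/
theorem ktFrobRoots_aux (M q : ℕ) [NeZero M] [NeZero q] (hq : q.Prime) (hqM : ¬ q ∣ M)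
    (h4 : q ≠ 2 → 4 ∣ M) (h9 : q = 2 → 9 ∣ M) :
    Fermat.Agent.H65.SS.ModelFrobRootsStatement M q (ktAuxRoot M q) :=
  Fermat.Agent.H65.SS.modelFrobRoots M q _ hq hqM (ktFracLocRoots_aux M q hq hqM h4 h9)

/-- **FR-3, rooted form of helper65, at every auxiliary pair**: UNCONDITIONAL. -/
theorem ktFrobNodeRoots_aux (M q : ℕ) [NeZero M] [NeZero q] (hq : q.Prime) (hqM : ¬ q ∣ M)
    (h4 : q ≠ 2 → 4 ∣ M) (h9 : q = 2 → 9 ∣ M) :
    Fermat.Agent.H65.SS.ModelFrobNodeRootsStatement M q (ktAuxRoot M q) :=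
  Fermat.Agent.H65.SS.modelFrobNodeRoots M q _ hq hqM (ktFracLocRoots_aux M q hq hqM h4 h9)

end Fermat.Agent.H71.SS

end
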