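/-
helper71, P-SS / S35, block (KT), row KT-C3 (FROB), part FR-3: monotonicity in the roots of
unity.  (FRAC-loc) in helper65's rooted contract for EVERY `R > 0` divisible by
`ktAuxRoot M q`.
-/
import Fermat.Agent.H71.SS.KtNodeFinal

set_option autoImplicit false
set_option linter.unusedSectionVars false
set_option linter.unusedVariables false

noncomputable section

namespace Fermat.Agent.H71.SS

open ModularCurve AlgebraicCurve

/-- A field containing a primitive `R`-th root of unity contains a primitive `R₁`-th root of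
unity for every divisor `R₁` of `R > 0`. -/
theorem ktfl_exists_primitiveRoot_of_dvd {K : Type} [Field K] {R₁ R : ℕ} (hdvd : R₁ ∣ R)
    (hR : 0 < R) (h : ∃ ζ : K, IsPrimitiveRoot ζ R) : ∃ ζ : K, IsPrimitiveRoot ζ R₁ := by
  obtain ⟨ζ, hζ⟩ := h
  obtain ⟨c, hc⟩ := hdvd
  exact ⟨ζ ^ c, hζ.pow hR (by rw [hc, mul_comm])⟩

/-- **Monotonicity of (FRAC-loc)** in the roots of unity (helper65's rooted contract). -/
theorem ktFracLocRoots_mono (M q R₁ R : ℕ) [NeZero M] [NeZero q] (hdvd : R₁ ∣ R) (hR : 0 < R)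
    (h : Fermat.Agent.H65.SS.ModelFracLocRootsStatement M q R₁) :
    Fermat.Agent.H65.SS.ModelFracLocRootsStatement M q R :=
  fun K₁ _ _ _ A₀ _ _ _ _ _ _ _ hζ =>
    h K₁ A₀ (ktfl_exists_primitiveRoot_of_dvd hdvd hR hζ)

/-- **(FRAC-loc), helper65's rooted contract, at every auxiliary pair, for every `R > 0`
divisible by `ktAuxRoot M q`** (e.g. `R = 6 M`, `R = 12 M`). -/
theorem ktFracLocRoots_of_dvd (M q R : ℕ) [NeZero M] [NeZero q] (hq : q.Prime) (hqM : ¬ q ∣ M)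
    (h4 : q ≠ 2 → 4 ∣ M) (h9 : q = 2 → 9 ∣ M) (hdvd : ktAuxRoot M q ∣ R) (hR : 0 < R) :
    Fermat.Agent.H65.SS.ModelFracLocRootsStatement M q R :=
  ktFracLocRoots_mono M q _ R hdvd hR (ktFracLocRoots_aux M q hq hqM h4 h9)

/-- `q` odd, `2 ∣ M`: (FRAC-loc) for every `R > 0` divisible by `2 M`. -/
theorem ktFracLocRoots_odd_of_dvd (M q R : ℕ) [NeZero M] [NeZero q] (hq : q.Prime)
    (hq2 : q ≠ 2) (hqM : ¬ q ∣ M) (h2 : 2 ∣ M) (hdvd : 2 * M ∣ R) (hR : 0 < R) :
    Fermat.Agent.H65.SS.ModelFracLocRootsStatement M q R :=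
  ktFracLocRoots_mono M q _ R hdvd hR
    (ktFracLocRoots_of M q _ (modelFracLocRoots_odd M q hq hq2 hqM h2))

/-- `q ≠ 3`, `3 ∣ M`: (FRAC-loc) for every `R > 0` divisible by `3 M`. -/
theorem ktFracLocRoots_three_of_dvd (M q R : ℕ) [NeZero M] [NeZero q] (hq : q.Prime)
    (hq3 : q ≠ 3) (hqM : ¬ q ∣ M) (h3 : 3 ∣ M) (hdvd : 3 * M ∣ R) (hR : 0 < R) :
    Fermat.Agent.H65.SS.ModelFracLocRootsStatement M q R :=
  ktFracLocRoots_mono M q _ R hdvd hR
    (ktFracLocRoots_of M q _ (modelFracLocRoots_three M q hq hq3 hqM h3))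

end Fermat.Agent.H71.SS

end
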