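/-
helper71, P-SS / S35, item (a): the FROBENIUS DIFFERENCE statement.

`FrobDifferenceStatement N q` is the function-field form of `(φ² - q²)(τ - 1) = 0` on the
prime-to-`q` torsion of `J₀(N)` (`τ` in an inertia group at `q ∥ N`, `φ` a Frobenius lift at the
same place): for a function `f` whose divisor is divisible by `m` (`q ∤ m`),
`G = φ²(g₁) / g₁ ^ (q²)`, `g₁ = τ(f)/f`, is an `m`-th power in the function field.

`frobTorsion_of_frobDifference` turns it into the `J`-side statement `FrobTorsionStatement N`,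
which is the primitive local clause of `Fermat.Agent.H52.NewformRamifiedLatticeStatement`.

Twin of `Fermat.Agent.H45.SecondDifferenceStatement` (helper45).
-/
import Fermat.Agent.H45.SS.SecondDiff

set_option autoImplicit false
set_option linter.unusedSectionVars false
set_option linter.unusedVariables false

open AlgebraicCurve ModularCurve

namespace Fermat.Agent.H71.SS

/-- **FROBENIUS DIFFERENCE (function-field form).**  `A` a valuation subring of `ℚ̄` over `q`,
`τ` in its inertia group, `φ` a Frobenius element at `A`, `m > 0` prime to `q`, `f ≠ 0` in the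
function field of `X₀(N)` over `ℚ̄` with `m ∣ ord_P f` at every place.  Then
`φ²(τ f) f ^ (q²) / (φ²(f) (τ f) ^ (q²))` is an `m`-th power. -/
def FrobDifferenceStatement (N q : ℕ) : Prop :=
  ∀ (A : ValuationSubring (AlgebraicClosure ℚ)), A.LiesOverPrime q →
    ∀ τ ∈ A.inertiaSubgroupIn ℚ,
    ∀ φ : AlgebraicClosure ℚ ≃ₐ[ℚ] AlgebraicClosure ℚ, A.IsFrobeniusAt φ q →
    ∀ (m : ℕ), 0 < m → ¬ q ∣ m →
      ∀ f : modularFunctionFieldBar N, f ≠ 0 →
        (∀ P : Place (AlgebraicClosure ℚ) (modularFunctionFieldBar N), (m : ℤ) ∣ P.ord f) →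
        ∃ w : modularFunctionFieldBar N,
          w ^ m * ((arithmeticGalois (modularFunctionFieldFull N) τ • f) ^ (q ^ 2)
              * (arithmeticGalois (modularFunctionFieldFull N) φ •
                  arithmeticGalois (modularFunctionFieldFull N) φ • f))
            = (arithmeticGalois (modularFunctionFieldFull N) φ •
                arithmeticGalois (modularFunctionFieldFull N) φ •
                  arithmeticGalois (modularFunctionFieldFull N) τ • f) * f ^ (q ^ 2)

/-- **Frobenius on the inertia-coinvariants of the torsion** (`J`-side form): for `q ∥ N`,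
`q ∤ m`, `τ` in an inertia group at `q` and `φ` a Frobenius element at the same place,
`(φ² - q²)(τ - 1) = 0` on `J₀(N)[m]`. -/
def FrobTorsionStatement (N : ℕ) [NeZero N] : Prop :=
  ∀ (q : ℕ), q.Prime → q ∣ N → ¬ q ^ 2 ∣ N → ∀ (m : ℕ), 0 < m → ¬ q ∣ m →
    ∀ (B : ValuationSubring (AlgebraicClosure ℚ)), B.LiesOverPrime q →
      ∀ τ ∈ B.inertiaSubgroupIn ℚ,
      ∀ φ : AlgebraicClosure ℚ ≃ₐ[ℚ] AlgebraicClosure ℚ, B.IsFrobeniusAt φ q →
        ∀ x : JZero N, m • x = 0 →
          φ • φ • (τ • x - x) - (q ^ 2) • (τ • x - x) = 0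

section Abstract

variable {K F : Type*} [Field K] [Field F] [Algebra K F]

/-- If `m D = div f` and `h(g f) f^Q / (h(f) (g f)^Q)` is an `m`-th power, then
`(h - Q)(g - 1) [D] = 0`. -/
theorem frob_pic0_of_pow (g h : SemilinearAut K F)
    (D : Divisor.degZero (K := K) (F := F)) (m : ℕ) (hm : 0 < m) (Q : ℕ)
    (f w : F) (hf : f ≠ 0)
    (hfD : ∀ P : Place K F, P.ord f = (m : ℤ) * (D : Divisor K F) P)
    (hw : w ^ m * ((g • f) ^ Q * (h • f)) = (h • g • f) * f ^ Q) :
    h • (g • Pic0.mk D - Pic0.mk D) - Q • (g • Pic0.mk D - Pic0.mk D) = 0 := by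
  have hgf0 : g • f ≠ 0 := by simpa using hf
  have hhf0 : h • f ≠ 0 := by simpa using hf
  have hhgf0 : h • g • f ≠ 0 := by simpa using hgf0
  have hw0 : w ≠ 0 := by
    intro h0
    rw [h0, zero_pow hm.ne', zero_mul] at hw
    exact mul_ne_zero hhgf0 (pow_ne_zero Q hf) hw.symm
  have hm' : (m : ℤ) ≠ 0 := by exact_mod_cast hm.ne'
  have hwD : ∀ P : Place K F,
      P.ord w = (h • g • (D : Divisor K F)) P - (h • (D : Divisor K F)) P
        - (Q : ℤ) * ((g • (D : Divisor K F)) P - (D : Divisor K F) P) := by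
    intro P
    have h1 := congrArg P.ord hw
    rw [P.ord_mul (pow_ne_zero m hw0) (mul_ne_zero (pow_ne_zero Q hgf0) hhf0),
      P.ord_mul (pow_ne_zero Q hgf0) hhf0, P.ord_mul hhgf0 (pow_ne_zero Q hf),
      ← zpow_natCast, P.ord_zpow, ← zpow_natCast, P.ord_zpow, ← zpow_natCast, P.ord_zpow,
      Fermat.Agent.H45.ssd_ord_smul g (D : Divisor K F) (m : ℤ) f hfD P,
      Fermat.Agent.H45.ssd_ord_smul h (D : Divisor K F) (m : ℤ) f hfD P,
      Fermat.Agent.H45.ssd_ord_smul h (g • (D : Divisor K F)) (m : ℤ) (g • f)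
        (Fermat.Agent.H45.ssd_ord_smul g (D : Divisor K F) (m : ℤ) f hfD) P, hfD P] at h1
    have h2 : (m : ℤ) * P.ord w = (m : ℤ) * ((h • g • (D : Divisor K F)) P
        - (h • (D : Divisor K F)) P
        - (Q : ℤ) * ((g • (D : Divisor K F)) P - (D : Divisor K F) P)) := by
      linarith
    exact mul_left_cancel₀ hm' h2
  rw [SemilinearAut.pic0_smul_mk]
  have e0 : Pic0.mk (SemilinearAut.degZeroSMulHom g D) - Pic0.mk D
      = Pic0.mk (SemilinearAut.degZeroSMulHom g D - D) := rfl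
  rw [e0, SemilinearAut.pic0_smul_mk]
  have e : Pic0.mk (SemilinearAut.degZeroSMulHom h (SemilinearAut.degZeroSMulHom g D - D))
      - Q • Pic0.mk (SemilinearAut.degZeroSMulHom g D - D)
      = Pic0.mk (SemilinearAut.degZeroSMulHom h (SemilinearAut.degZeroSMulHom g D - D)
          - Q • (SemilinearAut.degZeroSMulHom g D - D)) := rfl
  rw [e]
  refine (QuotientAddGroup.eq_zero_iff _).mpr ?_
  rw [AddSubgroup.mem_addSubgroupOf]
  refine ⟨w, hw0, fun P => ?_⟩
  rw [hwD P]
  simp only [map_sub, AddSubgroup.coe_sub, AddSubgroup.coe_nsmul,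
    SemilinearAut.coe_degZeroSMulHom, Finsupp.coe_sub, Finsupp.smul_apply,
    Pi.sub_apply]
  rw [nsmul_eq_mul]

/-- Two-step form of `frob_pic0_of_pow` (`h = h₁ h₂`). -/
theorem frob_pic0_of_pow₂ (g h₁ h₂ : SemilinearAut K F)
    (D : Divisor.degZero (K := K) (F := F)) (m : ℕ) (hm : 0 < m) (Q : ℕ)
    (f w : F) (hf : f ≠ 0)
    (hfD : ∀ P : Place K F, P.ord f = (m : ℤ) * (D : Divisor K F) P)
    (hw : w ^ m * ((g • f) ^ Q * (h₁ • h₂ • f)) = (h₁ • h₂ • g • f) * f ^ Q) :
    h₁ • h₂ • (g • Pic0.mk D - Pic0.mk D) - Q • (g • Pic0.mk D - Pic0.mk D) = 0 := by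
  have hw' : w ^ m * ((g • f) ^ Q * ((h₁ * h₂) • f)) = ((h₁ * h₂) • g • f) * f ^ Q := by
    rw [mul_smul, mul_smul]
    exact hw
  have := frob_pic0_of_pow g (h₁ * h₂) D m hm Q f w hf hfD hw'
  rwa [mul_smul] at this

end Abstract

/-- **`(φ² - q²)(τ - 1) = 0` on torsion from the Frobenius difference statement.** -/
theorem frobTorsion_of_frobDifference (N : ℕ) [NeZero N]
    (h : ∀ q : ℕ, q.Prime → q ∣ N → ¬ q ^ 2 ∣ N → FrobDifferenceStatement N q) :
    FrobTorsionStatement N := by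
  intro q hq hqN hq2 m hm hqm B hB τ hτ φ hφ x hx
  obtain ⟨D, rfl⟩ := Pic0.mk_surjective x
  have hmD : ((m • D : Divisor.degZero (K := AlgebraicClosure ℚ)
      (F := modularFunctionFieldBar N)) : Divisor (AlgebraicClosure ℚ)
        (modularFunctionFieldBar N)) ∈
      Divisor.principal (K := AlgebraicClosure ℚ) (F := modularFunctionFieldBar N) := by
    have h1 : Pic0.mk (m • D) = 0 := hx
    have h2 := (QuotientAddGroup.eq_zero_iff _).mp h1
    exact h2
  obtain ⟨f, hf0, hfD⟩ := hmD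
  have hfD' : ∀ P : Place (AlgebraicClosure ℚ) (modularFunctionFieldBar N),
      P.ord f = (m : ℤ) * (D : Divisor (AlgebraicClosure ℚ) (modularFunctionFieldBar N)) P := by
    intro P
    rw [← hfD P]
    simp
  obtain ⟨w, hw⟩ := h q hq hqN hq2 B hB τ hτ φ hφ m hm hqm f hf0
    (fun P => by rw [hfD' P]; exact dvd_mul_right _ _)
  exact frob_pic0_of_pow₂ (arithmeticGalois (modularFunctionFieldFull N) τ)
    (arithmeticGalois (modularFunctionFieldFull N) φ)
    (arithmeticGalois (modularFunctionFieldFull N) φ) D m hm (q ^ 2) f w hf0 hfD' hw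

end Fermat.Agent.H71.SS
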