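/-
helper71, P-SS / S35, item (a), level change for the FROBENIUS DIFFERENCE.

* abstract (Mathlib only): `weak_descend_hom`, `hom_eq_zero_of_weak` (any natural additive
  operator `E`), `frobOp τ φ Q = (φ² - Q)(τ - 1)`.
* `FrobTorsionAuxStatement` : `(φ² - q²)(τ - 1) = 0` on `J₀(N')[m]` only for the auxiliary
  levels (`4 ∣ N'` if `q ≠ 2`, `9 ∣ N'` if `q = 2`).
* `weakFrobAt_of_aux` : then for EVERY level `N` (`q ∥ N`) and every prime `p ≠ q` there is
  `c ≠ 0` with `c • (φ² - q²)(τ - 1) = 0` on `J₀(N)[p ^ k]` for all `k`.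
* `frob_eq_zero_on_multiples` : hence `(φ² - q²)(τ - 1) = 0` on the points `p ^ a • x`
  (`a = v_p(c)`) killed by a power of `p`; in particular on every compatible system
  `(x_n)`, `p • x_{n+1} = x_n` (Tate module).
-/
import Fermat.Agent.H71.SS.LevelAbs
import Fermat.Agent.H71.SS.LevelMap
import Fermat.Agent.H71.SS.FrobDiff

set_option autoImplicit false
set_option synthInstance.maxHeartbeats 400000
set_option linter.style.haveILetI false
set_option linter.unusedSectionVars false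
set_option linter.unusedVariables false

noncomputable section

namespace Fermat.Agent.H71.SS

open AlgebraicCurve ModularCurve

section Abstract

variable {G : Type*} [Monoid G]
variable {J J' : Type*} [AddCommGroup J] [AddCommGroup J']
  [DistribMulAction G J] [DistribMulAction G J']

/-- **Level step for a natural operator.** -/
theorem weak_descend_hom (f : J →+ J') (E : J →+ J) (E' : J' →+ J')
    (hE : ∀ x : J, f (E x) = E' (f x))
    {d : ℕ} (hker : ∀ x : J, f x = 0 → d • x = 0) {c m : ℕ}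
    (hU : ∀ x' : J', m • x' = 0 → c • E' x' = 0)
    (x : J) (hx : m • x = 0) : (d * c) • E x = 0 := by
  have h1 : m • f x = 0 := by rw [← map_nsmul, hx, map_zero]
  have h2 := hU (f x) h1
  rw [← hE, ← map_nsmul] at h2
  have h3 := hker _ h2
  rwa [← mul_smul] at h3

/-- **A natural operator vanishes on the multiples.** -/
theorem hom_eq_zero_of_weak {p : ℕ} (hp : p.Prime) {c : ℕ} (hc : c ≠ 0) (E : J →+ J)
    (hW : ∀ (k : ℕ) (x : J), p ^ k • x = 0 → c • E x = 0)
    (n : ℕ) (x : J) (hz : p ^ n • (p ^ (c.factorization p) • x) = 0) :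
    E (p ^ (c.factorization p) • x) = 0 := by
  have hx : p ^ (n + c.factorization p) • x = 0 := by
    rw [pow_add, mul_smul]
    exact hz
  have h1 := hW _ x hx
  have h2 : p ^ (n + c.factorization p) • E x = 0 := by
    rw [← map_nsmul, hx, map_zero]
  rw [map_nsmul]
  exact pPart_nsmul_eq_zero hp hc h1 h2

variable (J) in
/-- The operator `(φ² - Q)(τ - 1)`. -/
def frobOp (τ φ : G) (Q : ℕ) : J →+ J :=
  (((DistribSMul.toAddMonoidHom J φ).comp (DistribSMul.toAddMonoidHom J φ))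
      - Q • AddMonoidHom.id J).comp
    (DistribSMul.toAddMonoidHom J τ - AddMonoidHom.id J)

theorem frobOp_apply (τ φ : G) (Q : ℕ) (x : J) :
    frobOp J τ φ Q x = φ • φ • (τ • x - x) - Q • (τ • x - x) := rfl

theorem map_frobOp (f : J →+ J') (hf : ∀ (g : G) (x : J), f (g • x) = g • f x)
    (τ φ : G) (Q : ℕ) (x : J) : f (frobOp J τ φ Q x) = frobOp J' τ φ Q (f x) := by
  rw [frobOp_apply, frobOp_apply, map_sub, map_nsmul, hf, hf, map_sub, hf]

end Abstract

/-- **Weak Frobenius identity** at level `N` for the prime `q`, on `p`-power torsion, with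
constant `c`. -/
def WeakFrobAt (N q p c : ℕ) : Prop :=
  ∀ B : ValuationSubring (AlgebraicClosure ℚ), B.LiesOverPrime q →
    ∀ τ ∈ B.inertiaSubgroupIn ℚ,
    ∀ φ : AlgebraicClosure ℚ ≃ₐ[ℚ] AlgebraicClosure ℚ, B.IsFrobeniusAt φ q →
      ∀ (k : ℕ) (x : JZero N), p ^ k • x = 0 →
        c • (φ • φ • (τ • x - x) - (q ^ 2) • (τ • x - x)) = 0

/-- **Level step.** -/
theorem weakFrobAt_of_level (N ℓ : ℕ) [NeZero N] [NeZero ℓ] (hℓ : ℓ.Prime) {q p c : ℕ}
    (h : WeakFrobAt (N * ℓ) q p c) :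
    ∃ d : ℕ, d ≠ 0 ∧ WeakFrobAt N q p (d * c) := by
  obtain ⟨f, d, hd, hf, hker⟩ := exists_levelMap N ℓ hℓ
  refine ⟨d, hd, ?_⟩
  intro B hB τ hτ φ hφ k x hx
  exact weak_descend_hom f (frobOp (JZero N) τ φ (q ^ 2)) (frobOp (JZero (N * ℓ)) τ φ (q ^ 2))
    (map_frobOp f hf τ φ (q ^ 2)) hker (fun x' hx' => h B hB τ hτ φ hφ k x' hx') x hx

/-- **The geometric target of P-SS for S35** (auxiliary level): `(φ² - q²)(τ - 1) = 0` on the
torsion of `J₀(N)` for `q ∥ N`, only for levels divisible by `4` (`q` odd) resp. `9`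
(`q = 2`). -/
def FrobTorsionAuxStatement : Prop :=
  ∀ (N : ℕ) [NeZero N] (q : ℕ), q.Prime → q ∣ N → ¬ q ^ 2 ∣ N →
    (q ≠ 2 → 4 ∣ N) → (q = 2 → 9 ∣ N) →
    ∀ (m : ℕ), 0 < m → ¬ q ∣ m →
      ∀ (B : ValuationSubring (AlgebraicClosure ℚ)), B.LiesOverPrime q →
        ∀ τ ∈ B.inertiaSubgroupIn ℚ,
        ∀ φ : AlgebraicClosure ℚ ≃ₐ[ℚ] AlgebraicClosure ℚ, B.IsFrobeniusAt φ q →
          ∀ x : JZero N, m • x = 0 →
            φ • φ • (τ • x - x) - (q ^ 2) • (τ • x - x) = 0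

/-- The auxiliary statement follows from the Frobenius difference statement at the auxiliary
levels. -/
theorem frobTorsionAux_of_frobDifference
    (h : ∀ (N : ℕ) [NeZero N] (q : ℕ), q.Prime → q ∣ N → ¬ q ^ 2 ∣ N →
      (q ≠ 2 → 4 ∣ N) → (q = 2 → 9 ∣ N) → FrobDifferenceStatement N q) :
    FrobTorsionAuxStatement := by
  intro N _ q hq hqN hq2 h4 h9 m hm hqm B hB τ hτ φ hφ x hx
  obtain ⟨D, rfl⟩ := Pic0.mk_surjective x
  have hmD : ((m • D : Divisor.degZero (K := AlgebraicClosure ℚ)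
      (F := modularFunctionFieldBar N)) : Divisor (AlgebraicClosure ℚ)
        (modularFunctionFieldBar N)) ∈
      Divisor.principal (K := AlgebraicClosure ℚ) (F := modularFunctionFieldBar N) := by
    have h1 : Pic0.mk (m • D) = 0 := hx
    have h2 := (QuotientAddGroup.eq_zero_iff _).mp h1
    exact h2
  obtain ⟨f, hf0, hfD⟩ := hmD
  have hfD' : ∀ P : Place (AlgebraicClosure ℚ) (modularFunctionFieldBar N),
      P.ord f = (m : ℤ) * (D : Divisor (AlgebraicClosure ℚ) (modularFunctionFieldBar N)) P := by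
    intro P
    rw [← hfD P]
    simp
  obtain ⟨w, hw⟩ := h N q hq hqN hq2 h4 h9 B hB τ hτ φ hφ m hm hqm f hf0
    (fun P => by rw [hfD' P]; exact dvd_mul_right _ _)
  exact frob_pic0_of_pow₂ (arithmeticGalois (modularFunctionFieldFull N) τ)
    (arithmeticGalois (modularFunctionFieldFull N) φ)
    (arithmeticGalois (modularFunctionFieldFull N) φ) D m hm (q ^ 2) f w hf0 hfD' hw

/-- From the auxiliary statement: the weak Frobenius identity at every level. -/
theorem weakFrobAt_of_aux (hAux : FrobTorsionAuxStatement) (N : ℕ) [NeZero N]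
    {q p : ℕ} (hq : q.Prime) (hp : p.Prime) (hqp : q ≠ p) (hqN : q ∣ N) (hq2 : ¬ q ^ 2 ∣ N) :
    ∃ c : ℕ, c ≠ 0 ∧ WeakFrobAt N q p c := by
  obtain ⟨r, hr, hqr, hr4, hr9⟩ : ∃ r : ℕ, r.Prime ∧ q ≠ r ∧ (q ≠ 2 → r = 2) ∧ (q = 2 → r = 3) := by
    by_cases h2 : q = 2
    · exact ⟨3, by norm_num, by omega, fun h => absurd h2 h, fun _ => rfl⟩
    · exact ⟨2, by norm_num, h2, fun _ => rfl, fun h => absurd h h2⟩
  haveI : NeZero r := ⟨hr.ne_zero⟩
  have hcop : Nat.Coprime (q ^ 2) (r * r) := by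
    have h1 : Nat.Coprime q r := (Nat.coprime_primes hq hr).2 hqr
    exact Nat.Coprime.pow_left 2 (Nat.Coprime.mul_right h1 h1)
  have hqN' : q ∣ N * r * r := by
    rw [mul_assoc]
    exact Dvd.dvd.mul_right hqN _
  have hq2' : ¬ q ^ 2 ∣ N * r * r := by
    intro hdvd
    rw [mul_assoc] at hdvd
    exact hq2 (hcop.dvd_of_dvd_mul_right hdvd)
  have h4 : q ≠ 2 → 4 ∣ N * r * r := by
    intro h
    rw [hr4 h, mul_assoc]
    exact Dvd.intro_left N rfl
  have h9 : q = 2 → 9 ∣ N * r * r := by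
    intro h
    rw [hr9 h, mul_assoc]
    exact Dvd.intro_left N rfl
  have hqpk : ∀ k : ℕ, ¬ q ∣ p ^ k := by
    intro k hdvd
    exact hqp ((Nat.prime_dvd_prime_iff_eq hq hp).mp (hq.dvd_of_dvd_pow hdvd))
  have h0 : WeakFrobAt (N * r * r) q p 1 := by
    intro B hB τ hτ φ hφ k x hx
    rw [one_smul]
    exact hAux (N * r * r) q hq hqN' hq2' h4 h9 (p ^ k) (pow_pos hp.pos k) (hqpk k) B hB τ hτ
      φ hφ x hx
  obtain ⟨d₂, hd₂, h1⟩ := weakFrobAt_of_level (N * r) r hr h0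
  obtain ⟨d₁, hd₁, h2⟩ := weakFrobAt_of_level N r hr h1
  exact ⟨d₁ * (d₂ * 1), by simp [hd₁, hd₂], h2⟩

/-- **The Frobenius identity on the multiples**: if `c • (φ² - q²)(τ - 1) = 0` on
`J₀(N)[p ^ k]` for all `k`, then `(φ² - q²)(τ - 1) = 0` on the points `p ^ a • x`
(`a = v_p(c)`) killed by a power of `p`. -/
theorem frob_eq_zero_on_multiples {N q p c : ℕ} (hp : p.Prime) (hc : c ≠ 0)
    (hW : WeakFrobAt N q p c)
    (B : ValuationSubring (AlgebraicClosure ℚ)) (hB : B.LiesOverPrime q)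
    (τ : AlgebraicClosure ℚ ≃ₐ[ℚ] AlgebraicClosure ℚ) (hτ : τ ∈ B.inertiaSubgroupIn ℚ)
    (φ : AlgebraicClosure ℚ ≃ₐ[ℚ] AlgebraicClosure ℚ) (hφ : B.IsFrobeniusAt φ q)
    (n : ℕ) (x : JZero N) (hz : p ^ n • (p ^ (c.factorization p) • x) = 0) :
    φ • φ • (τ • (p ^ (c.factorization p) • x) - p ^ (c.factorization p) • x)
      - (q ^ 2) • (τ • (p ^ (c.factorization p) • x) - p ^ (c.factorization p) • x) = 0 :=
  hom_eq_zero_of_weak hp hc (frobOp (JZero N) τ φ (q ^ 2))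
    (fun k y hy => hW B hB τ hτ φ hφ k y hy) n x hz

/-- **Tate-module form**: on a `p`-compatible system `(x_n)` (`p • x_{n+1} = x_n`,
`x_0 = 0`) the identity `(φ² - q²)(τ - 1) x_n = 0` holds for every `n`. -/
theorem frob_eq_zero_of_compatible {N q p c : ℕ} (hp : p.Prime) (hc : c ≠ 0)
    (hW : WeakFrobAt N q p c)
    (B : ValuationSubring (AlgebraicClosure ℚ)) (hB : B.LiesOverPrime q)
    (τ : AlgebraicClosure ℚ ≃ₐ[ℚ] AlgebraicClosure ℚ) (hτ : τ ∈ B.inertiaSubgroupIn ℚ)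
    (φ : AlgebraicClosure ℚ ≃ₐ[ℚ] AlgebraicClosure ℚ) (hφ : B.IsFrobeniusAt φ q)
    (x : ℕ → JZero N) (h0 : x 0 = 0) (hx : ∀ n, p • x (n + 1) = x n) (n : ℕ) :
    φ • φ • (τ • x n - x n) - (q ^ 2) • (τ • x n - x n) = 0 := by
  have hpow : ∀ (a n : ℕ), p ^ a • x (n + a) = x n := by
    intro a
    induction a with
    | zero => intro n; simp
    | succ a ih =>
      intro n
      rw [pow_succ, mul_smul, ← add_assoc, hx, ih]
  have hkill : ∀ n : ℕ, p ^ n • x n = 0 := by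
    intro n
    have := hpow n 0
    rw [zero_add] at this
    rw [this, h0]
  have hz : p ^ n • (p ^ (c.factorization p) • x (n + c.factorization p)) = 0 := by
    rw [hpow]
    exact hkill n
  have key := frob_eq_zero_on_multiples hp hc hW B hB τ hτ φ hφ n
    (x (n + c.factorization p)) hz
  rw [hpow] at key
  exact key

end Fermat.Agent.H71.SS
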