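/-
helper71, P-SS / S35, block (KT), row KT-C3 (FROB), FR-3: the nodes are stable under `Ψ = Φ²`.

FORMAL REDUCTION of FR-3 (fifth clause of `Fermat.Agent.H55.SS.ModelFrobStatement`) at a closed
point `𝔪` of the chart `B(y)`, `y = α(y')`, to statements which are outputs of other rows:

* (SM) `Fermat.Agent.H67.SS.ValAt A₀ (ModelField K₁ M) q y' 𝔫` : the special fibre of level `M`
  is a discrete valuation ring at the image `𝔫` of `𝔪` (output of helper67's `localDVR`);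
* (FRAC) the residue field of `V_∞` is generated by level `M` (helper67's shape `hFRAC`);
* integrality: `α(B'(y')) ⊆ B(y)`, `β(B'(y')) ⊆ B(y)`, `B'(y') ⊆ V'`, `B(y) ⊆ V_∞`, and `Φ`,
  `Ψ` preserve the charts.

* `ktfl_fracLocal_abs` : (abstract, two levels) FRAC + (SM) ⟹ FRAC-local: every `z ∈ B(y)` is
  congruent modulo `𝔪_V` to a quotient `ι t / ι d` with `t, d ∈ B'(y')`, `ι d ∉ 𝔪`.
* `ktFrobNode_of_valAt` : FR-3 at `𝔪`.
-/
import Fermat.Agent.H71.SS.KtKronecker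
import Fermat.Agent.H67.SS.Transfer

set_option autoImplicit false
set_option linter.unusedSectionVars false
set_option linter.unusedVariables false
set_option linter.style.haveILetI false

noncomputable section

namespace Fermat.Agent.H71.SS

open ModularCurve AlgebraicCurve
open Fermat.Agent.H22.KL Fermat.Agent.H66 Fermat.Agent.H55.SS Fermat.Agent.H82.SS
open Fermat.Agent.H11.SS2 Fermat.Agent.H67.SS

section Abs

variable {A : Type} [CommRing A]
  {E' : Type} [Field E'] [Algebra A E']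
  {E : Type} [Field E] [Algebra A E]

/-- **FRAC-local from FRAC and the valuation property of the lower level** (abstract, two
levels).  `ι : E' → E` over `A`, `ι(B'(y')) ⊆ B(y)`, `𝔪` a prime ideal of `B(y)`, `V` a
valuation ring of `E` containing `B(y)`, passing through `𝔪`, with `ϖ ∈ 𝔪_V`; `𝔫` an ideal of
`B'(y')` containing the contraction of `𝔪`.  If the residue field of `V` is generated by
`ι(B')` (FRAC) and `(B' / ϖ B')_𝔫` is a valuation ring (`ValAt`), then every `z ∈ B(y)` is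
congruent modulo `𝔪_V` to `ι t / ι d` with `t, d ∈ B'`, `ι d ∉ 𝔪`. -/
theorem ktfl_fracLocal_abs
    (ι : E' →+* E) (hι : ∀ a : A, ι (algebraMap A E' a) = algebraMap A E a)
    (ϖ : A) (y' : E') (y : E)
    (𝔪 : Ideal ↥(chartClosure A E y)) [h𝔪 : 𝔪.IsPrime]
    (V : ValuationSubring E)
    (hBV : ∀ s : ↥(chartClosure A E y), (s : E) ∈ V)
    (hϖV : algebraMap A E ϖ ∈ V.nonunits)
    (hV : Through A E y 𝔪 V)
    (hιB : ∀ s' : ↥(chartClosure A E' y'), ι (s' : E') ∈ chartClosure A E y)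
    (hFRAC : ∀ s : ↥(chartClosure A E y), ∃ a' c' : ↥(chartClosure A E' y'),
      ι (c' : E') ∉ V.nonunits ∧ ι (c' : E') * (s : E) - ι (a' : E') ∈ V.nonunits)
    (𝔫 : Ideal ↥(chartClosure A E' y'))
    (h𝔫 : ∀ d : ↥(chartClosure A E' y'), d ∉ 𝔫 →
      (⟨ι (d : E'), hιB d⟩ : ↥(chartClosure A E y)) ∉ 𝔪)
    (hval : ValAt A E' ϖ y' 𝔫)
    (z : ↥(chartClosure A E y)) :
    ∃ t d : ↥(chartClosure A E' y'),
      (⟨ι (d : E'), hιB d⟩ : ↥(chartClosure A E y)) ∉ 𝔪 ∧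
        ι (d : E') * (z : E) - ι (t : E') ∈ V.nonunits := by
  obtain ⟨a', c', hc, hr⟩ := hFRAC z
  have hιV : ∀ s' : ↥(chartClosure A E' y'), ι (s' : E') ∈ V := fun s' => hBV ⟨_, hιB s'⟩
  have hιϖ : ∀ e : ↥(chartClosure A E' y'),
      ι ((algebraMap A ↥(chartClosure A E' y') ϖ * e : ↥(chartClosure A E' y')) : E')
        = algebraMap A E ϖ * ι (e : E') := by
    intro e
    push_cast
    rw [map_mul]
    congr 1
    exact hι ϖ
  have hϖe : ∀ e : ↥(chartClosure A E' y'), algebraMap A E ϖ * ι (e : E') ∈ V.nonunits := by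
    intro e
    rw [mul_comm]
    exact nu_mul_left V (hιV e) hϖV
  rcases hval a' c' with ⟨t, d, hd, e, he⟩ | ⟨t, d, hd, e, he⟩
  · -- `d a' = t c' + ϖ e`
    refine ⟨t, d, h𝔫 d hd, ?_⟩
    have he' : ι (d : E') * ι (a' : E') = ι (t : E') * ι (c' : E') +
        algebraMap A E ϖ * ι (e : E') := by
      have h1 : ι ((d * a' : ↥(chartClosure A E' y')) : E') =
          ι ((t * c' + algebraMap A ↥(chartClosure A E' y') ϖ * e :
            ↥(chartClosure A E' y')) : E') := by rw [he]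
      have h1' : ι ((t * c' + algebraMap A ↥(chartClosure A E' y') ϖ * e :
            ↥(chartClosure A E' y')) : E') = ι (t : E') * ι (c' : E') +
          ι ((algebraMap A ↥(chartClosure A E' y') ϖ * e : ↥(chartClosure A E' y')) : E') := by
        rw [← map_mul, ← map_add]
        rfl
      rw [h1', hιϖ e] at h1
      rw [← h1, ← map_mul]
      rfl
    have h2 : ι (c' : E') * (ι (d : E') * (z : E) - ι (t : E')) =
        ι (d : E') * (ι (c' : E') * (z : E) - ι (a' : E')) + algebraMap A E ϖ * ι (e : E') := by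
      linear_combination he'
    refine nu_cancel V (hιV c') hc ?_
    rw [h2]
    exact nu_add V (nu_mul_left V (hιV d) hr) (hϖe e)
  · -- `d c' = t a' + ϖ e`
    have he' : ι (d : E') * ι (c' : E') = ι (t : E') * ι (a' : E') +
        algebraMap A E ϖ * ι (e : E') := by
      have h1 : ι ((d * c' : ↥(chartClosure A E' y')) : E') =
          ι ((t * a' + algebraMap A ↥(chartClosure A E' y') ϖ * e :
            ↥(chartClosure A E' y')) : E') := by rw [he]
      have h1' : ι ((t * a' + algebraMap A ↥(chartClosure A E' y') ϖ * e :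
            ↥(chartClosure A E' y')) : E') = ι (t : E') * ι (a' : E') +
          ι ((algebraMap A ↥(chartClosure A E' y') ϖ * e : ↥(chartClosure A E' y')) : E') := by
        rw [← map_mul, ← map_add]
        rfl
      rw [h1', hιϖ e] at h1
      rw [← h1, ← map_mul]
      rfl
    have h2 : ι (c' : E') * (ι (t : E') * (z : E) - ι (d : E')) =
        ι (t : E') * (ι (c' : E') * (z : E) - ι (a' : E')) - algebraMap A E ϖ * ι (e : E') := by
      linear_combination -he'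
    have h3 : ι (t : E') * (z : E) - ι (d : E') ∈ V.nonunits := by
      refine nu_cancel V (hιV c') hc ?_
      rw [h2]
      exact nu_sub V (nu_mul_left V (hιV t) hr) (hϖe e)
    refine ⟨d, t, ?_, h3⟩
    intro ht
    have h4 : ((⟨ι (t : E'), hιB t⟩ : ↥(chartClosure A E y)) * z - ⟨ι (d : E'), hιB d⟩) ∈ 𝔪 :=
      hV _ h3
    have h5 : (⟨ι (d : E'), hιB d⟩ : ↥(chartClosure A E y)) ∈ 𝔪 := by
      have h6 := 𝔪.sub_mem (𝔪.mul_mem_right z ht) h4
      have e6 : (⟨ι (t : E'), hιB t⟩ : ↥(chartClosure A E y)) * z -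
          ((⟨ι (t : E'), hιB t⟩ : ↥(chartClosure A E y)) * z - ⟨ι (d : E'), hιB d⟩) =
          ⟨ι (d : E'), hιB d⟩ := by ring
      rwa [e6] at h6
    exact h𝔫 d hd h5

end Abs

section Model

variable {K₁ : Type} [Field K₁] [Algebra ℚ K₁]
variable (A₀ : Type) [CommRing A₀] [IsDomain A₀] [ValuationRing A₀] [Algebra A₀ K₁]
  [IsFractionRing A₀ K₁]

/-- `q` lies in the maximal ideal of the Gauss valuation ring. -/
theorem ktfl_q_mem_nonunits (N : ℕ) [Algebra A₀ (ModelField K₁ N)]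
    [IsScalarTower A₀ K₁ (ModelField K₁ N)] {q : ℕ} (hq : q.Prime)
    (hqA : ¬ IsUnit ((q : ℕ) : A₀)) :
    algebraMap A₀ (ModelField K₁ N) ((q : ℕ) : A₀) ∈ (ktV K₁ A₀ N).nonunits := by
  have hmemA : algebraMap A₀ K₁ ((q : ℕ) : A₀) ∈ rangeVal A₀ K₁ := ⟨_, rfl⟩
  have hcoe : ((algebraMap A₀ (ModelField K₁ N) ((q : ℕ) : A₀) : ModelField K₁ N) :
      LaurentSeries K₁) = algebraMap K₁ (LaurentSeries K₁) (algebraMap A₀ K₁ ((q : ℕ) : A₀)) := by
    rw [IsScalarTower.algebraMap_apply A₀ K₁ (ModelField K₁ N)]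
    rfl
  have hmem : ((algebraMap A₀ (ModelField K₁ N) ((q : ℕ) : A₀) : ModelField K₁ N) :
      LaurentSeries K₁) ∈ vGaussRing (rangeVal A₀ K₁) := by
    rw [hcoe]
    exact algebraMap_mem_vGaussRing _ hmemA
  refine ktk_mem_nonunits_mgVal (rangeVal A₀ K₁) N _ hmem ?_
  have e : (⟨_, hmem⟩ : vGaussRing (rangeVal A₀ K₁)) =
      ⟨algebraMap K₁ (LaurentSeries K₁) (algebraMap A₀ K₁ ((q : ℕ) : A₀)),
        algebraMap_mem_vGaussRing _ hmemA⟩ := Subtype.ext hcoe
  rw [e, vGaussRed_algebraMap _ hmemA]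
  have h1 : IsLocalRing.residue ↥(rangeVal A₀ K₁)
      ⟨algebraMap A₀ K₁ ((q : ℕ) : A₀), hmemA⟩ = 0 := by
    rw [IsLocalRing.residue_eq_zero_iff, IsLocalRing.mem_maximalIdeal, mem_nonunits_iff]
    have h2 : (⟨algebraMap A₀ K₁ ((q : ℕ) : A₀), hmemA⟩ : ↥(rangeVal A₀ K₁)) =
        toRangeVal A₀ K₁ ((q : ℕ) : A₀) := rfl
    rw [h2, isUnit_toRangeVal_iff]
    exact hqA
  rw [h1, map_zero]

/-- **FR-3 at a node, from the regularity of the lower level.**
Chart `y = α(y')` of level `M q`, `𝔪` a prime ideal of `B(y)` over `q` through which `V_∞` and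
`V_0` pass.  If the charts are compatible with `α`, `β`, `Φ`, `Ψ`, the residue field of `V_∞`
is generated by level `M` (FRAC) and the special fibre of level `M` is a discrete valuation ring
at (an ideal `𝔫` containing) the contraction of `𝔪` (`ValAt`), then `Ψ 𝔪 ⊆ 𝔪`. -/
theorem ktFrobNode_of_valAt (M q : ℕ) [NeZero M] [NeZero q] (hq : q.Prime)
    (hqA : ¬ IsUnit ((q : ℕ) : A₀))
    [Algebra A₀ (ModelField K₁ M)] [IsScalarTower A₀ K₁ (ModelField K₁ M)]
    [Algebra A₀ (ModelField K₁ (M * q))] [IsScalarTower A₀ K₁ (ModelField K₁ (M * q))]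
    {W : ModelField K₁ (M * q) ≃ₐ[K₁] ModelField K₁ (M * q)} (hW : IsAtkinLehnerModel K₁ M q W)
    {φ₁ : K₁ ≃ₐ[ℚ] K₁} (hφ : IsModelFrobenius K₁ A₀ q φ₁)
    (y' : ModelField K₁ M) (y : ModelField K₁ (M * q))
    (𝔪 : Ideal (chartClosure A₀ (ModelField K₁ (M * q)) y)) [h𝔪 : 𝔪.IsPrime]
    (hq𝔪 : algebraMap A₀ (chartClosure A₀ (ModelField K₁ (M * q)) y) ((q : ℕ) : A₀) ∈ 𝔪)
    (hinf : Through A₀ (ModelField K₁ (M * q)) y 𝔪 (ktV K₁ A₀ (M * q)))
    (hzero : Through A₀ (ModelField K₁ (M * q)) y 𝔪 (ktV0 K₁ A₀ M q W))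
    (hBV : ∀ s : chartClosure A₀ (ModelField K₁ (M * q)) y,
      (s : ModelField K₁ (M * q)) ∈ ktV K₁ A₀ (M * q))
    (hB'V' : ∀ s' : chartClosure A₀ (ModelField K₁ M) y',
      (s' : ModelField K₁ M) ∈ ktV K₁ A₀ M)
    (hαB : ∀ s' : chartClosure A₀ (ModelField K₁ M) y',
      heckeAlphaBar K₁ M q (s' : ModelField K₁ M) ∈ chartClosure A₀ (ModelField K₁ (M * q)) y)
    (hβB : ∀ s' : chartClosure A₀ (ModelField K₁ M) y',
      heckeBetaBar K₁ M q (s' : ModelField K₁ M) ∈ chartClosure A₀ (ModelField K₁ (M * q)) y)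
    (hΦB' : ∀ s' : chartClosure A₀ (ModelField K₁ M) y',
      modelSigma K₁ M φ₁ (s' : ModelField K₁ M) ∈ chartClosure A₀ (ModelField K₁ M) y')
    (hΨB : ∀ s ∈ chartClosure A₀ (ModelField K₁ (M * q)) y,
      modelSigma K₁ (M * q) (φ₁.trans φ₁) s ∈ chartClosure A₀ (ModelField K₁ (M * q)) y)
    (hFRAC : ∀ s : chartClosure A₀ (ModelField K₁ (M * q)) y,
      ∃ a' c' : chartClosure A₀ (ModelField K₁ M) y',
        heckeAlphaBar K₁ M q (c' : ModelField K₁ M) ∉ (ktV K₁ A₀ (M * q)).nonunits ∧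
        heckeAlphaBar K₁ M q (c' : ModelField K₁ M) * (s : ModelField K₁ (M * q)) -
          heckeAlphaBar K₁ M q (a' : ModelField K₁ M) ∈ (ktV K₁ A₀ (M * q)).nonunits)
    (𝔫 : Ideal (chartClosure A₀ (ModelField K₁ M) y'))
    (h𝔫 : ∀ d : chartClosure A₀ (ModelField K₁ M) y', d ∉ 𝔫 →
      (⟨heckeAlphaBar K₁ M q (d : ModelField K₁ M), hαB d⟩ :
        chartClosure A₀ (ModelField K₁ (M * q)) y) ∉ 𝔪)
    (hval : ValAt A₀ (ModelField K₁ M) ((q : ℕ) : A₀) y' 𝔫) :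
    ∀ s : chartClosure A₀ (ModelField K₁ (M * q)) y, s ∈ 𝔪 →
      ∀ h : modelSigma K₁ (M * q) (φ₁.trans φ₁) (s : ModelField K₁ (M * q)) ∈
          chartClosure A₀ (ModelField K₁ (M * q)) y,
        (⟨modelSigma K₁ (M * q) (φ₁.trans φ₁) (s : ModelField K₁ (M * q)), h⟩ :
          chartClosure A₀ (ModelField K₁ (M * q)) y) ∈ 𝔪 := by
  haveI : Fact q.Prime := ⟨hq⟩
  have hq𝔪' : ((q : ℕ) : chartClosure A₀ (ModelField K₁ (M * q)) y) ∈ 𝔪 := by
    rwa [map_natCast] at hq𝔪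
  have hι : ∀ a : A₀, ((heckeAlphaBar K₁ M q : ModelField K₁ M →ₐ[K₁] ModelField K₁ (M * q)) :
      ModelField K₁ M →+* ModelField K₁ (M * q)) (algebraMap A₀ (ModelField K₁ M) a) =
      algebraMap A₀ (ModelField K₁ (M * q)) a := by
    intro a
    rw [IsScalarTower.algebraMap_apply A₀ K₁ (ModelField K₁ M),
      IsScalarTower.algebraMap_apply A₀ K₁ (ModelField K₁ (M * q))]
    exact (heckeAlphaBar K₁ M q).commutes _
  refine frobNode_map_mem y 𝔪 q hq𝔪' 2 (ktV K₁ A₀ (M * q)) hinf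
    (modelSigma K₁ (M * q) (φ₁.trans φ₁)) hΨB
    (fun z hz => ktk_psi_mem_nonunits A₀ (M * q) hq hqA hφ hz) ?_
  intro z hz
  obtain ⟨t, d, hd, hr⟩ := ktfl_fracLocal_abs
    ((heckeAlphaBar K₁ M q : ModelField K₁ M →ₐ[K₁] ModelField K₁ (M * q)) :
      ModelField K₁ M →+* ModelField K₁ (M * q)) hι ((q : ℕ) : A₀) y' y 𝔪
    (ktV K₁ A₀ (M * q)) hBV (ktfl_q_mem_nonunits A₀ (M * q) hq hqA) hinf hαB hFRAC 𝔫 h𝔫 hval
    ⟨z, hz⟩
  have hcompat : ∀ s' : chartClosure A₀ (ModelField K₁ M) y',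
      ChartFrobCompat A₀ (ModelField K₁ (M * q)) y 𝔪 (modelSigma K₁ (M * q) (φ₁.trans φ₁))
        (q ^ 2) (heckeAlphaBar K₁ M q (s' : ModelField K₁ M)) := by
    intro s'
    exact ktKronecker_twice_alpha A₀ M q hq hqA hW hφ y 𝔪 hinf hzero (hB'V' s') (hαB s')
      (hβB ⟨_, hΦB' s'⟩) (hΨB _ (hαB s'))
  exact ⟨heckeAlphaBar K₁ M q (t : ModelField K₁ M), heckeAlphaBar K₁ M q (d : ModelField K₁ M),
    hcompat t, hcompat d, fun h => hd, hr⟩

end Model

end Fermat.Agent.H71.SS
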