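/-
helper71, P-SS / S35, item (a), MIXED form: the MIXED SECOND DIFFERENCE statement.

`MixedDifferenceStatement N q` is the function-field form of `(τ - 1)(φ² - 1) = 0` on the
prime-to-`q` torsion of `J₀(N)` (`τ` in an inertia group at `q ∥ N`, `φ` a Frobenius element at
the same place): for `f` with `m ∣ div f`, `τ(φ² f) f / (τ(f) φ²(f))` is an `m`-th power.
For `φ² ↦ τ` this is helper45's `SecondDifferenceStatement`.

* `mixedTorsion_of_mixedDifference` : the `J`-side statement `MixedTorsionStatement N`.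
* level change: `MixedTorsionAuxStatement` (auxiliary levels only) gives
  `weakMixedAt_of_aux`, `mixed_eq_zero_on_multiples`, `mixed_eq_zero_of_compatible`.
* `exists_eigen_of_mixed` : the ALGEBRA of the local clause of S35: on a torsion-free module,
  `Φ² - t Φ + q = 0`, `N (Φ² - 1) = 0` for all `N` in a set `𝒯` normalised by `Φ`, some
  `N₀ ∈ 𝒯` nonzero  ⟹  `t² = (1 + q)²` and `Φ` has an eigenvector with eigenvalue in
  `{1, -1, q, -q}`.
-/
import Fermat.Agent.H71.SS.FrobLevel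

set_option autoImplicit false
set_option synthInstance.maxHeartbeats 400000
set_option linter.style.haveILetI false
set_option linter.unusedSectionVars false
set_option linter.unusedVariables false

noncomputable section

open AlgebraicCurve ModularCurve

namespace Fermat.Agent.H71.SS

/-- **MIXED SECOND DIFFERENCE (function-field form).** -/
def MixedDifferenceStatement (N q : ℕ) : Prop :=
  ∀ (A : ValuationSubring (AlgebraicClosure ℚ)), A.LiesOverPrime q →
    ∀ τ ∈ A.inertiaSubgroupIn ℚ,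
    ∀ φ : AlgebraicClosure ℚ ≃ₐ[ℚ] AlgebraicClosure ℚ, A.IsFrobeniusAt φ q →
    ∀ (m : ℕ), 0 < m → ¬ q ∣ m →
      ∀ f : modularFunctionFieldBar N, f ≠ 0 →
        (∀ P : Place (AlgebraicClosure ℚ) (modularFunctionFieldBar N), (m : ℤ) ∣ P.ord f) →
        ∃ w : modularFunctionFieldBar N,
          w ^ m * ((arithmeticGalois (modularFunctionFieldFull N) τ • f)
              * (arithmeticGalois (modularFunctionFieldFull N) φ •
                  arithmeticGalois (modularFunctionFieldFull N) φ • f))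
            = (arithmeticGalois (modularFunctionFieldFull N) τ •
                arithmeticGalois (modularFunctionFieldFull N) φ •
                  arithmeticGalois (modularFunctionFieldFull N) φ • f) * f

/-- **`(τ - 1)(φ² - 1) = 0` on torsion** (`J`-side form). -/
def MixedTorsionStatement (N : ℕ) [NeZero N] : Prop :=
  ∀ (q : ℕ), q.Prime → q ∣ N → ¬ q ^ 2 ∣ N → ∀ (m : ℕ), 0 < m → ¬ q ∣ m →
    ∀ (B : ValuationSubring (AlgebraicClosure ℚ)), B.LiesOverPrime q →
      ∀ τ ∈ B.inertiaSubgroupIn ℚ,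
      ∀ φ : AlgebraicClosure ℚ ≃ₐ[ℚ] AlgebraicClosure ℚ, B.IsFrobeniusAt φ q →
        ∀ x : JZero N, m • x = 0 →
          τ • (φ • φ • x - x) - (φ • φ • x - x) = 0

section Abstract

variable {K F : Type*} [Field K] [Field F] [Algebra K F]

/-- If `m D = div f` and `h(g₁ g₂ f) f / (h(f) g₁ g₂(f))` is an `m`-th power, then
`(h - 1)(g₁ g₂ - 1) [D] = 0`. -/
theorem mixed_pic0_of_pow (h g₁ g₂ : SemilinearAut K F)
    (D : Divisor.degZero (K := K) (F := F)) (m : ℕ) (hm : 0 < m)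
    (f w : F) (hf : f ≠ 0)
    (hfD : ∀ P : Place K F, P.ord f = (m : ℤ) * (D : Divisor K F) P)
    (hw : w ^ m * ((h • f) * (g₁ • g₂ • f)) = (h • g₁ • g₂ • f) * f) :
    h • (g₁ • g₂ • Pic0.mk D - Pic0.mk D) - (g₁ • g₂ • Pic0.mk D - Pic0.mk D) = 0 := by
  have hw' : w ^ m * (((g₁ * g₂) • f) ^ 1 * (h • f)) = (h • (g₁ * g₂) • f) * f ^ 1 := by
    rw [mul_smul, pow_one, pow_one, mul_comm (g₁ • g₂ • f) (h • f)]
    exact hw
  have := frob_pic0_of_pow (g₁ * g₂) h D m hm 1 f w hf hfD hw'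
  rwa [one_smul, mul_smul] at this

end Abstract

/-- **`(τ - 1)(φ² - 1) = 0` on torsion from the mixed second difference statement.** -/
theorem mixedTorsion_of_mixedDifference (N : ℕ) [NeZero N]
    (h : ∀ q : ℕ, q.Prime → q ∣ N → ¬ q ^ 2 ∣ N → MixedDifferenceStatement N q) :
    MixedTorsionStatement N := by
  intro q hq hqN hq2 m hm hqm B hB τ hτ φ hφ x hx
  obtain ⟨D, rfl⟩ := Pic0.mk_surjective x
  have hmD : ((m • D : Divisor.degZero (K := AlgebraicClosure ℚ)
      (F := modularFunctionFieldBar N)) : Divisor (AlgebraicClosure ℚ)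
        (modularFunctionFieldBar N)) ∈
      Divisor.principal (K := AlgebraicClosure ℚ) (F := modularFunctionFieldBar N) := by
    have h1 : Pic0.mk (m • D) = 0 := hx
    have h2 := (QuotientAddGroup.eq_zero_iff _).mp h1
    exact h2
  obtain ⟨f, hf0, hfD⟩ := hmD
  have hfD' : ∀ P : Place (AlgebraicClosure ℚ) (modularFunctionFieldBar N),
      P.ord f = (m : ℤ) * (D : Divisor (AlgebraicClosure ℚ) (modularFunctionFieldBar N)) P := by
    intro P
    rw [← hfD P]
    simp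
  obtain ⟨w, hw⟩ := h q hq hqN hq2 B hB τ hτ φ hφ m hm hqm f hf0
    (fun P => by rw [hfD' P]; exact dvd_mul_right _ _)
  exact mixed_pic0_of_pow (arithmeticGalois (modularFunctionFieldFull N) τ)
    (arithmeticGalois (modularFunctionFieldFull N) φ)
    (arithmeticGalois (modularFunctionFieldFull N) φ) D m hm f w hf0 hfD' hw

section Operator

variable {G : Type*} [Monoid G]
variable {J J' : Type*} [AddCommGroup J] [AddCommGroup J']
  [DistribMulAction G J] [DistribMulAction G J']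

variable (J) in
/-- The operator `(τ - 1)(φ² - 1)`. -/
def mixedOp (τ φ : G) : J →+ J :=
  (DistribSMul.toAddMonoidHom J τ - AddMonoidHom.id J).comp
    (((DistribSMul.toAddMonoidHom J φ).comp (DistribSMul.toAddMonoidHom J φ))
      - AddMonoidHom.id J)

theorem mixedOp_apply (τ φ : G) (x : J) :
    mixedOp J τ φ x = τ • (φ • φ • x - x) - (φ • φ • x - x) := rfl

theorem map_mixedOp (f : J →+ J') (hf : ∀ (g : G) (x : J), f (g • x) = g • f x)
    (τ φ : G) (x : J) : f (mixedOp J τ φ x) = mixedOp J' τ φ (f x) := by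
  rw [mixedOp_apply, mixedOp_apply, map_sub, hf, map_sub, hf, hf]

end Operator

/-- **Weak mixed identity** at level `N`. -/
def WeakMixedAt (N q p c : ℕ) : Prop :=
  ∀ B : ValuationSubring (AlgebraicClosure ℚ), B.LiesOverPrime q →
    ∀ τ ∈ B.inertiaSubgroupIn ℚ,
    ∀ φ : AlgebraicClosure ℚ ≃ₐ[ℚ] AlgebraicClosure ℚ, B.IsFrobeniusAt φ q →
      ∀ (k : ℕ) (x : JZero N), p ^ k • x = 0 →
        c • (τ • (φ • φ • x - x) - (φ • φ • x - x)) = 0

/-- **Level step.** -/
theorem weakMixedAt_of_level (N ℓ : ℕ) [NeZero N] [NeZero ℓ] (hℓ : ℓ.Prime) {q p c : ℕ}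
    (h : WeakMixedAt (N * ℓ) q p c) :
    ∃ d : ℕ, d ≠ 0 ∧ WeakMixedAt N q p (d * c) := by
  obtain ⟨f, d, hd, hf, hker⟩ := exists_levelMap N ℓ hℓ
  refine ⟨d, hd, ?_⟩
  intro B hB τ hτ φ hφ k x hx
  exact weak_descend_hom f (mixedOp (JZero N) τ φ) (mixedOp (JZero (N * ℓ)) τ φ)
    (map_mixedOp f hf τ φ) hker (fun x' hx' => h B hB τ hτ φ hφ k x' hx') x hx

/-- **The geometric target of P-SS for S35, mixed form** (auxiliary levels only). -/
def MixedTorsionAuxStatement : Prop :=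
  ∀ (N : ℕ) [NeZero N] (q : ℕ), q.Prime → q ∣ N → ¬ q ^ 2 ∣ N →
    (q ≠ 2 → 4 ∣ N) → (q = 2 → 9 ∣ N) →
    ∀ (m : ℕ), 0 < m → ¬ q ∣ m →
      ∀ (B : ValuationSubring (AlgebraicClosure ℚ)), B.LiesOverPrime q →
        ∀ τ ∈ B.inertiaSubgroupIn ℚ,
        ∀ φ : AlgebraicClosure ℚ ≃ₐ[ℚ] AlgebraicClosure ℚ, B.IsFrobeniusAt φ q →
          ∀ x : JZero N, m • x = 0 →
            τ • (φ • φ • x - x) - (φ • φ • x - x) = 0

/-- The auxiliary statement from the mixed difference statement at the auxiliary levels. -/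
theorem mixedTorsionAux_of_mixedDifference
    (h : ∀ (N : ℕ) [NeZero N] (q : ℕ), q.Prime → q ∣ N → ¬ q ^ 2 ∣ N →
      (q ≠ 2 → 4 ∣ N) → (q = 2 → 9 ∣ N) → MixedDifferenceStatement N q) :
    MixedTorsionAuxStatement := by
  intro N _ q hq hqN hq2 h4 h9 m hm hqm B hB τ hτ φ hφ x hx
  obtain ⟨D, rfl⟩ := Pic0.mk_surjective x
  have hmD : ((m • D : Divisor.degZero (K := AlgebraicClosure ℚ)
      (F := modularFunctionFieldBar N)) : Divisor (AlgebraicClosure ℚ)
        (modularFunctionFieldBar N)) ∈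
      Divisor.principal (K := AlgebraicClosure ℚ) (F := modularFunctionFieldBar N) := by
    have h1 : Pic0.mk (m • D) = 0 := hx
    have h2 := (QuotientAddGroup.eq_zero_iff _).mp h1
    exact h2
  obtain ⟨f, hf0, hfD⟩ := hmD
  have hfD' : ∀ P : Place (AlgebraicClosure ℚ) (modularFunctionFieldBar N),
      P.ord f = (m : ℤ) * (D : Divisor (AlgebraicClosure ℚ) (modularFunctionFieldBar N)) P := by
    intro P
    rw [← hfD P]
    simp
  obtain ⟨w, hw⟩ := h N q hq hqN hq2 h4 h9 B hB τ hτ φ hφ m hm hqm f hf0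
    (fun P => by rw [hfD' P]; exact dvd_mul_right _ _)
  exact mixed_pic0_of_pow (arithmeticGalois (modularFunctionFieldFull N) τ)
    (arithmeticGalois (modularFunctionFieldFull N) φ)
    (arithmeticGalois (modularFunctionFieldFull N) φ) D m hm f w hf0 hfD' hw

/-- From the auxiliary statement: the weak mixed identity at every level. -/
theorem weakMixedAt_of_aux (hAux : MixedTorsionAuxStatement) (N : ℕ) [NeZero N]
    {q p : ℕ} (hq : q.Prime) (hp : p.Prime) (hqp : q ≠ p) (hqN : q ∣ N) (hq2 : ¬ q ^ 2 ∣ N) :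
    ∃ c : ℕ, c ≠ 0 ∧ WeakMixedAt N q p c := by
  obtain ⟨r, hr, hqr, hr4, hr9⟩ : ∃ r : ℕ, r.Prime ∧ q ≠ r ∧ (q ≠ 2 → r = 2) ∧ (q = 2 → r = 3) := by
    by_cases h2 : q = 2
    · exact ⟨3, by norm_num, by omega, fun h => absurd h2 h, fun _ => rfl⟩
    · exact ⟨2, by norm_num, h2, fun _ => rfl, fun h => absurd h h2⟩
  haveI : NeZero r := ⟨hr.ne_zero⟩
  have hcop : Nat.Coprime (q ^ 2) (r * r) := by
    have h1 : Nat.Coprime q r := (Nat.coprime_primes hq hr).2 hqr
    exact Nat.Coprime.pow_left 2 (Nat.Coprime.mul_right h1 h1)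
  have hqN' : q ∣ N * r * r := by
    rw [mul_assoc]
    exact Dvd.dvd.mul_right hqN _
  have hq2' : ¬ q ^ 2 ∣ N * r * r := by
    intro hdvd
    rw [mul_assoc] at hdvd
    exact hq2 (hcop.dvd_of_dvd_mul_right hdvd)
  have h4 : q ≠ 2 → 4 ∣ N * r * r := by
    intro h
    rw [hr4 h, mul_assoc]
    exact Dvd.intro_left N rfl
  have h9 : q = 2 → 9 ∣ N * r * r := by
    intro h
    rw [hr9 h, mul_assoc]
    exact Dvd.intro_left N rfl
  have hqpk : ∀ k : ℕ, ¬ q ∣ p ^ k := by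
    intro k hdvd
    exact hqp ((Nat.prime_dvd_prime_iff_eq hq hp).mp (hq.dvd_of_dvd_pow hdvd))
  have h0 : WeakMixedAt (N * r * r) q p 1 := by
    intro B hB τ hτ φ hφ k x hx
    rw [one_smul]
    exact hAux (N * r * r) q hq hqN' hq2' h4 h9 (p ^ k) (pow_pos hp.pos k) (hqpk k) B hB τ hτ
      φ hφ x hx
  obtain ⟨d₂, hd₂, h1⟩ := weakMixedAt_of_level (N * r) r hr h0
  obtain ⟨d₁, hd₁, h2⟩ := weakMixedAt_of_level N r hr h1
  exact ⟨d₁ * (d₂ * 1), by simp [hd₁, hd₂], h2⟩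

/-- **The mixed identity on the multiples.** -/
theorem mixed_eq_zero_on_multiples {N q p c : ℕ} (hp : p.Prime) (hc : c ≠ 0)
    (hW : WeakMixedAt N q p c)
    (B : ValuationSubring (AlgebraicClosure ℚ)) (hB : B.LiesOverPrime q)
    (τ : AlgebraicClosure ℚ ≃ₐ[ℚ] AlgebraicClosure ℚ) (hτ : τ ∈ B.inertiaSubgroupIn ℚ)
    (φ : AlgebraicClosure ℚ ≃ₐ[ℚ] AlgebraicClosure ℚ) (hφ : B.IsFrobeniusAt φ q)
    (n : ℕ) (x : JZero N) (hz : p ^ n • (p ^ (c.factorization p) • x) = 0) :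
    τ • (φ • φ • (p ^ (c.factorization p) • x) - p ^ (c.factorization p) • x)
      - (φ • φ • (p ^ (c.factorization p) • x) - p ^ (c.factorization p) • x) = 0 :=
  hom_eq_zero_of_weak hp hc (mixedOp (JZero N) τ φ)
    (fun k y hy => hW B hB τ hτ φ hφ k y hy) n x hz

/-- **Tate-module form** of the mixed identity. -/
theorem mixed_eq_zero_of_compatible {N q p c : ℕ} (hp : p.Prime) (hc : c ≠ 0)
    (hW : WeakMixedAt N q p c)
    (B : ValuationSubring (AlgebraicClosure ℚ)) (hB : B.LiesOverPrime q)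
    (τ : AlgebraicClosure ℚ ≃ₐ[ℚ] AlgebraicClosure ℚ) (hτ : τ ∈ B.inertiaSubgroupIn ℚ)
    (φ : AlgebraicClosure ℚ ≃ₐ[ℚ] AlgebraicClosure ℚ) (hφ : B.IsFrobeniusAt φ q)
    (x : ℕ → JZero N) (h0 : x 0 = 0) (hx : ∀ n, p • x (n + 1) = x n) (n : ℕ) :
    τ • (φ • φ • x n - x n) - (φ • φ • x n - x n) = 0 := by
  have hpow : ∀ (a n : ℕ), p ^ a • x (n + a) = x n := by
    intro a
    induction a with
    | zero => intro n; simp
    | succ a ih =>
      intro n
      rw [pow_succ, mul_smul, ← add_assoc, hx, ih]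
  have hkill : ∀ n : ℕ, p ^ n • x n = 0 := by
    intro n
    have := hpow n 0
    rw [zero_add] at this
    rw [this, h0]
  have hz : p ^ n • (p ^ (c.factorization p) • x (n + c.factorization p)) = 0 := by
    rw [hpow]
    exact hkill n
  have key := mixed_eq_zero_on_multiples hp hc hW B hB τ hτ φ hφ n
    (x (n + c.factorization p)) hz
  rw [hpow] at key
  exact key

section Algebra

variable {O Λ : Type*} [CommRing O] [IsDomain O] [AddCommGroup Λ] [Module O Λ]
  [Module.IsTorsionFree O Λ]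

/-- **The algebra of the local clause of S35.**  `Φ² - t Φ + q = 0` on a torsion-free module,
`N (Φ² - 1) = 0` for every `N` in a set `𝒯` of endomorphisms normalised by `Φ`
(`N Φ = Φ N'`), and some `N₀ ∈ 𝒯` is nonzero.  Then `t² = (1 + q)²`. -/
theorem trace_sq_of_mixed (Φ : Module.End O Λ) (t q : O)
    (hES : Φ * Φ - t • Φ + q • (1 : Module.End O Λ) = 0)
    (𝒯 : Set (Module.End O Λ))
    (hmix : ∀ N ∈ 𝒯, N * (Φ * Φ - 1) = 0)
    (hnorm : ∀ N ∈ 𝒯, ∃ N' ∈ 𝒯, N * Φ = Φ * N')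
    (hram : ∃ N ∈ 𝒯, N ≠ 0) :
    t ^ 2 = (1 + q) ^ 2 := by
  obtain ⟨N₀, hN₀, hN₀0⟩ := hram
  -- `N (t Φ - (1 + q)) = 0` for all `N ∈ 𝒯`
  have h1 : ∀ N ∈ 𝒯, N * (t • Φ - (1 + q) • (1 : Module.End O Λ)) = 0 := by
    intro N hN
    have e : t • Φ - (1 + q) • (1 : Module.End O Λ)
        = (Φ * Φ - 1) - (Φ * Φ - t • Φ + q • (1 : Module.End O Λ)) := by
      rw [add_smul, one_smul]
      abel
    rw [e, hES, sub_zero]
    exact hmix N hN
  -- `N (t Φ + (1 + q)) (t Φ - (1 + q)) = 0`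
  have h2 : ∀ N ∈ 𝒯, N * ((t • Φ + (1 + q) • (1 : Module.End O Λ))
      * (t • Φ - (1 + q) • (1 : Module.End O Λ))) = 0 := by
    intro N hN
    obtain ⟨N', hN', hNN'⟩ := hnorm N hN
    have e : N * ((t • Φ + (1 + q) • (1 : Module.End O Λ))
        * (t • Φ - (1 + q) • (1 : Module.End O Λ)))
        = t • (Φ * (N' * (t • Φ - (1 + q) • (1 : Module.End O Λ))))
          + (1 + q) • (N * (t • Φ - (1 + q) • (1 : Module.End O Λ))) := by
      rw [add_mul, mul_add, smul_mul_assoc, smul_mul_assoc, one_mul, mul_smul_comm,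
        mul_smul_comm, ← mul_assoc N Φ, hNN', mul_assoc]
    rw [e, h1 N hN, h1 N' hN', mul_zero, smul_zero, smul_zero, add_zero]
  -- `((1 + q)² - t²) N₀ = 0`
  have h3 : ((1 + q) ^ 2 - t ^ 2) • N₀ = 0 := by
    have e : ((1 + q) ^ 2 - t ^ 2) • N₀
        = (t ^ 2) • (N₀ * (Φ * Φ - 1))
          - N₀ * ((t • Φ + (1 + q) • (1 : Module.End O Λ))
              * (t • Φ - (1 + q) • (1 : Module.End O Λ))) := by
      ext v
      simp only [LinearMap.smul_apply, LinearMap.sub_apply, LinearMap.add_apply,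
        Module.End.mul_apply, Module.End.one_apply, map_sub, map_add, map_smul]
      module
    rw [e, hmix N₀ hN₀, h2 N₀ hN₀, smul_zero, sub_zero]
  by_contra hne
  apply hN₀0
  have hc : (1 + q) ^ 2 - t ^ 2 ≠ 0 := fun h => hne (sub_eq_zero.1 h).symm
  ext v
  have := congrArg (fun E : Module.End O Λ => E v) h3
  simp only [LinearMap.smul_apply, LinearMap.zero_apply] at this
  rcases smul_eq_zero.1 this with h | h
  · exact absurd h hc
  · simpa using h

/-- **Eigenvector.**  Under the hypotheses of `trace_sq_of_mixed` (and `Λ ≠ 0`), `Φ` has a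
nonzero eigenvector with eigenvalue in `{1, -1, q, -q}`. -/
theorem exists_eigen_of_mixed [Nontrivial Λ] (Φ : Module.End O Λ) (t q : O)
    (hES : Φ * Φ - t • Φ + q • (1 : Module.End O Λ) = 0)
    (𝒯 : Set (Module.End O Λ))
    (hmix : ∀ N ∈ 𝒯, N * (Φ * Φ - 1) = 0)
    (hnorm : ∀ N ∈ 𝒯, ∃ N' ∈ 𝒯, N * Φ = Φ * N')
    (hram : ∃ N ∈ 𝒯, N ≠ 0) :
    ∃ v : Λ, v ≠ 0 ∧ (Φ v = v ∨ Φ v = -v ∨ Φ v = q • v ∨ Φ v = -(q • v)) := by
  have ht := trace_sq_of_mixed Φ t q hES 𝒯 hmix hnorm hram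
  have ht' : t = 1 + q ∨ t = -(1 + q) := sq_eq_sq_iff_eq_or_eq_neg.1 ht
  obtain ⟨v₀, hv₀⟩ := exists_ne (0 : Λ)
  have hESv : ∀ v : Λ, Φ (Φ v) - t • Φ v + q • v = 0 := by
    intro v
    have := congrArg (fun E : Module.End O Λ => E v) hES
    simpa using this
  rcases ht' with ht | ht
  · -- `(Φ - 1)(Φ - q) = 0`
    by_cases h : Φ v₀ - q • v₀ = 0
    · exact ⟨v₀, hv₀, Or.inr (Or.inr (Or.inl (sub_eq_zero.1 h)))⟩
    · refine ⟨Φ v₀ - q • v₀, h, Or.inl ?_⟩
      have := hESv v₀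
      rw [ht, add_smul, one_smul] at this
      rw [map_sub, map_smul]
      have e : Φ (Φ v₀) - q • Φ v₀ - (Φ v₀ - q • v₀)
          = Φ (Φ v₀) - (Φ v₀ + q • Φ v₀) + q • v₀ := by abel
      exact sub_eq_zero.1 (e.trans this)
  · -- `(Φ + 1)(Φ + q) = 0`
    by_cases h : Φ v₀ + q • v₀ = 0
    · refine ⟨v₀, hv₀, Or.inr (Or.inr (Or.inr ?_))⟩
      exact eq_neg_of_add_eq_zero_left h
    · refine ⟨Φ v₀ + q • v₀, h, Or.inr (Or.inl ?_)⟩
      have := hESv v₀
      rw [ht, neg_smul, add_smul, one_smul] at this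
      rw [map_add, map_smul]
      have e : Φ (Φ v₀) + q • Φ v₀ + (Φ v₀ + q • v₀)
          = Φ (Φ v₀) - -(Φ v₀ + q • Φ v₀) + q • v₀ := by abel
      exact eq_neg_of_add_eq_zero_left (e.trans this)

end Algebra

end Fermat.Agent.H71.SS
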