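/-
helper71, P-SS: reduction of norms.

Mathlib-only.  For a finite free algebra `B` over a commutative ring `O` and a ring
homomorphism `O → κ` (in the application: `O` a discrete valuation ring, `κ` its residue
field), the norm commutes with reduction; if the reduced algebra splits as a product
`κ₁ × κ₂` then the reduced norm is the product of the two norms; and the norm of a purely
inseparable extension of prime degree `q = char` is the `q`-th power.

Application (P-SS): `O` = Gauss valuation ring of the function field `F_M`, `B` = integral
closure in `F_N`, `N = q M`; `B / m B = κ_∞ × κ_0` with `κ_∞ = κ` and `κ_0 / κ` purely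
inseparable of degree `q`; hence `Red (Norm w) = Red_∞ w * (Red_0 w) ^ q`.
-/
import Mathlib

namespace Fermat.Agent.H71.SS

open scoped TensorProduct

section BaseChange

variable {R : Type*} [CommRing R] {S : Type*} [CommRing S] [Algebra R S]
  [Module.Free R S] [Module.Finite R S]
  (A : Type*) [CommRing A] [Algebra R A]

/-- The norm commutes with base change. -/
theorem norm_tmul_one (s : S) :
    Algebra.norm A ((1 : A) ⊗ₜ[R] s : A ⊗[R] S) = algebraMap R A (Algebra.norm R s) := by
  rw [Algebra.norm_apply, Algebra.norm_apply, ← LinearMap.det_baseChange]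
  congr 1
  ext x
  simp [Algebra.TensorProduct.tmul_mul_tmul]

end BaseChange

section Prod

variable {R : Type*} [CommRing R] {S T : Type*} [CommRing S] [CommRing T]
  [Algebra R S] [Algebra R T]
  [Module.Free R S] [Module.Finite R S] [Module.Free R T] [Module.Finite R T]

/-- The norm of a product algebra is the product of the norms. -/
theorem norm_prod_apply (x : S × T) :
    Algebra.norm R x = Algebra.norm R x.1 * Algebra.norm R x.2 := by
  rw [Algebra.norm_apply, Algebra.norm_apply, Algebra.norm_apply, ← LinearMap.det_prodMap]
  congr 1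

end Prod

section PurelyInsep

variable {K : Type*} [Field K] {L : Type*} [Field L] [Algebra K L]

/-- In a field extension of prime degree `q`, if `u ^ q` lies in the base field but `u` does
not, then the norm of `u` is `(-1) ^ (q + 1) * u ^ q`. -/
theorem norm_eq_of_pow_mem {q : ℕ} (hq : q.Prime) (hdeg : Module.finrank K L = q)
    (u : L) (a : K) (hua : u ^ q = algebraMap K L a) (hu : u ∉ (algebraMap K L).range) :
    Algebra.norm K u = (-1) ^ (q + 1) * a := by
  classical
  have hfin : FiniteDimensional K L :=
    Module.finite_of_finrank_pos (by rw [hdeg]; exact hq.pos)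
  have hint : IsIntegral K u := Algebra.IsIntegral.isIntegral u
  -- `K⟮u⟯ = ⊤` since the degree is prime
  have htop : IntermediateField.adjoin K {u} = ⊤ := by
    have := IntermediateField.isSimpleOrder_of_finrank_prime K L (hdeg ▸ hq)
    rcases eq_bot_or_eq_top (IntermediateField.adjoin K {u}) with h | h
    · exfalso
      apply hu
      have : u ∈ (⊥ : IntermediateField K L) := by
        rw [← h]; exact IntermediateField.mem_adjoin_simple_self K u
      rw [IntermediateField.mem_bot] at this
      exact this
    · exact h
  have hdegmin : (minpoly K u).natDegree = q := by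
    rw [← hdeg]
    exact (Field.primitive_element_iff_minpoly_natDegree_eq K u).1 htop
  -- the minimal polynomial is `X ^ q - C a`
  have hmin : minpoly K u = Polynomial.X ^ q - Polynomial.C a := by
    have hmonic : (Polynomial.X ^ q - Polynomial.C a : Polynomial K).Monic :=
      Polynomial.monic_X_pow_sub_C a hq.ne_zero
    have hroot : Polynomial.aeval u (Polynomial.X ^ q - Polynomial.C a : Polynomial K) = 0 := by
      simp [hua]
    have hdvd := minpoly.dvd K u hroot
    have hdeg' : (Polynomial.X ^ q - Polynomial.C a : Polynomial K).natDegree = q :=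
      Polynomial.natDegree_X_pow_sub_C
    symm
    exact Polynomial.eq_of_monic_of_dvd_of_natDegree_le (minpoly.monic hint) hmonic hdvd
      (by rw [hdeg', hdegmin])
  -- a power basis of `L / K` with generator `u`
  let pb0 := IntermediateField.adjoin.powerBasis hint
  let e : (IntermediateField.adjoin K {u}) ≃ₐ[K] L :=
    (IntermediateField.equivOfEq htop).trans IntermediateField.topEquiv
  let pb : PowerBasis K L := pb0.map e
  have hgen : pb.gen = u := by
    simp [pb, pb0, e, IntermediateField.adjoin.powerBasis_gen]
  have hdim : pb.dim = q := by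
    simp only [pb, pb0, PowerBasis.map_dim, IntermediateField.adjoin.powerBasis_dim]
    exact hdegmin
  have h1 := Algebra.PowerBasis.norm_gen_eq_coeff_zero_minpoly pb
  rw [hgen, hdim, hmin] at h1
  rw [h1]
  simp only [Polynomial.coeff_sub, Polynomial.coeff_X_pow, Polynomial.coeff_C_zero]
  rw [if_neg (Ne.symm hq.ne_zero)]
  ring

/-- In a field extension of prime degree `q` of fields of characteristic `q`, the norm of an
element whose `q`-th power lies in the base field is that `q`-th power.  (Purely inseparable
extension of degree `q`.) -/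
theorem norm_eq_pow_of_charP {q : ℕ} (hq : q.Prime) [CharP K q]
    (hdeg : Module.finrank K L = q)
    (u : L) (a : K) (hua : u ^ q = algebraMap K L a) :
    Algebra.norm K u = a := by
  classical
  by_cases hu : u ∈ (algebraMap K L).range
  · obtain ⟨b, rfl⟩ := hu
    have hfin : FiniteDimensional K L :=
      Module.finite_of_finrank_pos (by rw [hdeg]; exact hq.pos)
    rw [Algebra.norm_algebraMap, hdeg]
    rw [← map_pow] at hua
    exact (algebraMap K L).injective hua
  · rw [norm_eq_of_pow_mem hq hdeg u a hua hu]
    rcases hq.eq_two_or_odd' with h2 | hodd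
    · subst h2
      have : (2 : K) = 0 := by
        have := CharP.cast_eq_zero K 2
        exact_mod_cast this
      have h1 : (-1 : K) = 1 := by
        have : (1 : K) + 1 = 0 := by rw [one_add_one_eq_two]; exact this
        exact neg_eq_of_add_eq_zero_left this
      simp [h1]
    · have : Even (q + 1) := hodd.add_one
      rw [this.neg_one_pow, one_mul]

end PurelyInsep

section Residue

variable {O : Type*} [CommRing O] {B : Type*} [CommRing B] [Algebra O B]
  {κ : Type*} [CommRing κ] {C : Type*} [CommRing C] [Algebra κ C]
  {ι : Type*} [Fintype ι] [DecidableEq ι]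

/-- Norm and reduction, basis form: if `ρ : B → C` is a ring homomorphism over `π : O → κ`
carrying an `O`-basis of `B` to a `κ`-basis of `C`, then `π (Norm x) = Norm (ρ x)`. -/
theorem norm_map_of_basis (π : O →+* κ) (ρ : B →+* C)
    (hρ : ∀ x : O, ρ (algebraMap O B x) = algebraMap κ C (π x))
    (b : Module.Basis ι O B) (c : Module.Basis ι κ C) (hbc : ∀ i, c i = ρ (b i)) (x : B) :
    π (Algebra.norm O x) = Algebra.norm κ (ρ x) := by
  rw [Algebra.norm_eq_matrix_det b, Algebra.norm_eq_matrix_det c, RingHom.map_det]
  congr 1
  ext i j
  simp only [RingHom.mapMatrix_apply, Matrix.map_apply]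
  rw [Algebra.leftMulMatrix_eq_repr_mul, Algebra.leftMulMatrix_eq_repr_mul]
  -- expand `x * b j` in the basis `b` and apply `ρ`
  have h := b.sum_repr (x * b j)
  have h2 : ρ (x * b j) = ∑ k, (π (b.repr (x * b j) k)) • c k := by
    conv_lhs => rw [← h]
    rw [map_sum]
    refine Finset.sum_congr rfl fun k _ => ?_
    rw [Algebra.smul_def, map_mul, hρ, hbc, Algebra.smul_def]
  rw [hbc j, ← map_mul, h2]
  have h3 : c.repr (∑ k, (π (b.repr (x * b j) k)) • c k) =
      Finsupp.equivFunOnFinite.symm (fun k => π (b.repr (x * b j) k)) := by
    apply c.repr.symm.injective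
    rw [LinearEquiv.symm_apply_apply]
    simp [Module.Basis.repr_symm_apply, Finsupp.linearCombination_apply, Finsupp.sum_fintype]
  rw [h3]
  simp

/-- Norm and reduction for a reduction splitting as a product `C₁ × C₂`. -/
theorem norm_map_prod_of_basis {C₁ C₂ : Type*} [CommRing C₁] [CommRing C₂]
    [Algebra κ C₁] [Algebra κ C₂]
    [Module.Free κ C₁] [Module.Finite κ C₁] [Module.Free κ C₂] [Module.Finite κ C₂]
    (π : O →+* κ) (ρ : B →+* C₁ × C₂)
    (hρ : ∀ x : O, ρ (algebraMap O B x) = algebraMap κ (C₁ × C₂) (π x))
    (b : Module.Basis ι O B) (c : Module.Basis ι κ (C₁ × C₂)) (hbc : ∀ i, c i = ρ (b i))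
    (x : B) :
    π (Algebra.norm O x) = Algebra.norm κ (ρ x).1 * Algebra.norm κ (ρ x).2 := by
  rw [norm_map_of_basis π ρ hρ b c hbc x, norm_prod_apply]

/-- **Two-branch norm reduction.**  `O → κ` a reduction to a field of characteristic `q`,
`B` finite free over `O`, `B → κ × L` a reduction carrying a basis to a basis, where `L / κ`
has degree `q` (purely inseparable in the application).  If the second component of the
reduction of `x` has its `q`-th power in `κ`, equal to `a`, then
`π (Norm x) = (first component) * a`.

P-SS: `Red (Norm_α w) = Red_∞ (w) * (Red_0 w) ^ q`. -/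
theorem norm_residue_two_branch {κ' : Type*} [Field κ'] {L : Type*} [Field L] [Algebra κ' L]
    {q : ℕ} (hq : q.Prime) [CharP κ' q] (hdeg : Module.finrank κ' L = q)
    (π : O →+* κ') (ρ : B →+* κ' × L)
    (hρ : ∀ x : O, ρ (algebraMap O B x) = algebraMap κ' (κ' × L) (π x))
    (b : Module.Basis ι O B) (c : Module.Basis ι κ' (κ' × L)) (hbc : ∀ i, c i = ρ (b i))
    (x : B) (a : κ') (ha : (ρ x).2 ^ q = algebraMap κ' L a) :
    π (Algebra.norm O x) = (ρ x).1 * a := by
  have hfin : FiniteDimensional κ' L :=
    Module.finite_of_finrank_pos (by rw [hdeg]; exact hq.pos)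
  rw [norm_map_prod_of_basis π ρ hρ b c hbc x, norm_eq_pow_of_charP hq hdeg _ a ha]
  simp

end Residue

end Fermat.Agent.H71.SS
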