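/-
helper71, P-SS / S35: the local clause of S35 from UNIPOTENT INERTIA + the identity on the
inertia invariants, by helper52's Kolchin-type lemma.

`NewformUnipToricLatticeStatement` : as `Fermat.Agent.H52.NewformLatticeStatement`, with the
local clause at `q ∥ M` replaced by

* (u)  `(τ - 1)² = 0` for every inertia element `τ` at `q` (the lattice form of S34);
* (a') `φ² = q²` on the inertia invariants, for every Frobenius lift `φ` at `q`.

`newformLattice_of_unipToric` : it implies `NewformLatticeStatement` (hence the frozen S35 by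
`Fermat.Agent.H52.s35_of_lattice`).  Proof: by `Fermat.Agent.H52.es_exists_fixed_of_unipotent`
the inertia group fixes a nonzero vector `w`; `φ² w = q² w`, so `w` or `φ w + q w` is an
eigenvector of `φ` with eigenvalue `-q` or `q`.

Consequence for the architecture: the identity (a) `(φ² - q²)(τ - 1) = 0` is NOT needed for S35
once (a') is known; S35 = S34 (lattice form) + (a') + occurrence.
-/
import Fermat.Agent.H52.ESS35Toric
import Fermat.Agent.H52.ESKolchin

set_option autoImplicit false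
set_option linter.unusedSectionVars false
set_option linter.style.haveILetI false

namespace Fermat.Agent.H71.SS

open Polynomial Module

/-- **Eigenvector from a fixed vector.**  If a subgroup `H` acts unipotently of level two on a
nonzero Noetherian module without `2`-torsion and `φ² = c²` on the `H`-invariants, then `φ` has
a nonzero eigenvector with eigenvalue `c` or `-c`. -/
theorem exists_eigen_of_unipotent_of_sq {O : Type*} [CommRing O]
    {Λ : Type*} [AddCommGroup Λ] [Module O Λ] [IsNoetherian O Λ] [Nontrivial Λ]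
    (h2 : ∀ v : Λ, v + v = 0 → v = 0)
    {G : Type*} [Group G] (ρ : G →* Module.End O Λ) (H : Subgroup G)
    (hu : ∀ g ∈ H, (ρ g - 1) * (ρ g - 1) = 0)
    (φ : Module.End O Λ) (c : O)
    (hsq : ∀ v : Λ, (∀ g ∈ H, ρ g v = v) → φ (φ v) = (c * c) • v) :
    ∃ v : Λ, v ≠ 0 ∧ (φ v = c • v ∨ φ v = -(c • v)) := by
  obtain ⟨w, hw, hfix⟩ := Fermat.Agent.H52.es_exists_fixed_of_unipotent h2 ρ H hu
  have h1 : φ (φ w) = (c * c) • w := hsq w hfix
  by_cases h3 : φ w + c • w = 0
  · exact ⟨w, hw, Or.inr (eq_neg_of_add_eq_zero_left h3)⟩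
  · refine ⟨φ w + c • w, h3, Or.inl ?_⟩
    rw [map_add, map_smul, h1, smul_add, mul_smul]
    abel

/-- **The geometric input of S35, unipotent-toric form.** -/
def NewformUnipToricLatticeStatement : Prop :=
  ∀ {M : ℕ} [NeZero M] {g : CuspForm (CongruenceSubgroup.Gamma0 M) 2} (_hg : g.IsNewform)
    (lam : ℕ) [Fact lam.Prime] (S : Finset ℕ)
    (O' : Type) [CommRing O'] [IsDomain O'] [IsDiscreteValuationRing O']
    [IsAdicComplete (IsLocalRing.maximalIdeal O') O'] [Finite (IsLocalRing.ResidueField O')]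
    [CharZero O'] (_hlamO' : (lam : O') ∈ IsLocalRing.maximalIdeal O')
    (chig : CuspForm.heckeAlgebra M 2 (↑S : Set ℕ) →+* ℂ)
    (_hchig : ∀ (ℓ : ℕ) (hℓ : ℓ.Prime) (hℓM : ¬ ℓ ∣ M) (hℓS : ℓ ∉ (↑S : Set ℕ)),
      chig (CuspForm.heckeAlgebra.T hℓ hℓM hℓS) = ModularFormClass.qCoeff g ℓ)
    (iota : chig.range →+* O')
    (_hlamS : lam ∈ S) (_hMS : ∀ q : ℕ, q.Prime → q ∣ M → q ∈ S),
    ∃ (Λ : Type) (_ : AddCommGroup Λ) (_ : Module O' Λ) (_ : Module.Free O' Λ)
      (_ : Module.Finite O' Λ) (_ : Nontrivial Λ)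
      (ρ : (AlgebraicClosure ℚ ≃ₐ[ℚ] AlgebraicClosure ℚ) →* Module.End O' Λ),
      GaloisActionIsAdicContinuous O' ρ ∧
      (∀ (ℓ : ℕ) (hℓ : ℓ.Prime) (hℓM : ¬ ℓ ∣ M) (hℓS : ℓ ∉ (↑S : Set ℕ)),
        ∀ A : ValuationSubring (AlgebraicClosure ℚ), A.LiesOverPrime ℓ →
          ∀ σ : AlgebraicClosure ℚ ≃ₐ[ℚ] AlgebraicClosure ℚ, A.IsFrobeniusAt σ ℓ →
            ρ σ * ρ σ - (iota.comp chig.rangeRestrict) (CuspForm.heckeAlgebra.T hℓ hℓM hℓS) • ρ σ
              + (ℓ : O') • (1 : Module.End O' Λ) = 0) ∧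
      (∀ q : ℕ, q.Prime → q ≠ lam → q ∣ M → ¬ q ^ 2 ∣ M →
        ∀ A : ValuationSubring (AlgebraicClosure ℚ), A.LiesOverPrime q →
          (∀ τ ∈ A.inertiaSubgroupIn ℚ, (ρ τ - 1) * (ρ τ - 1) = 0) ∧
          ∀ φ : AlgebraicClosure ℚ ≃ₐ[ℚ] AlgebraicClosure ℚ, A.IsFrobeniusAt φ q →
            ∀ v : Λ, (∀ τ ∈ A.inertiaSubgroupIn ℚ, ρ τ v = v) →
              ρ φ (ρ φ v) = ((q : O') * (q : O')) • v)

/-- The unipotent-toric form implies the eigenvalue form. -/
theorem newformLattice_of_unipToric (h : NewformUnipToricLatticeStatement) :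
    Fermat.Agent.H52.NewformLatticeStatement := by
  intro M _ g hg lam _ S O' _ _ _ _ _ _ hlamO' chig hchig iota hlamS hMS
  obtain ⟨Λ, iA, iM, iFr, iFi, iNt, ρ, hcont, hrel, hloc⟩ :=
    h hg lam S O' hlamO' chig hchig iota hlamS hMS
  refine ⟨Λ, iA, iM, iFr, iFi, iNt, ρ, hcont, hrel, ?_⟩
  intro q hq hqlam hqM hq2 A hA σ hσ
  obtain ⟨hu, ha'⟩ := hloc q hq hqlam hqM hq2 A hA
  haveI : IsNoetherian O' Λ := isNoetherian_of_isNoetherianRing_of_finite O' Λ
  have h2 : ∀ v : Λ, v + v = 0 → v = 0 := by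
    intro v hv
    have h3 : (2 : O') • v = 0 := by rw [two_smul]; exact hv
    rcases smul_eq_zero.mp h3 with h4 | h4
    · exact absurd h4 two_ne_zero
    · exact h4
  obtain ⟨v, hv, hv'⟩ := exists_eigen_of_unipotent_of_sq h2 ρ (A.inertiaSubgroupIn ℚ) hu
    (ρ σ) (q : O') (ha' σ hσ)
  exact ⟨v, hv, Or.inr (Or.inr hv')⟩

end Fermat.Agent.H71.SS
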